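import Mathlib
import Fermat.Prelude.Def_AlgebraicCurve_IsCurveOver

/-!
# 87-P1 (port of WP-A, item 66): places of a function field in one variable versus primes of an integral closure

PORT of Fermat/Agent/FF/APlaces.lean to ANY characteristic (item 87-P1, helper9): `CharZero K` is
replaced by separability of `F / K(x)`.

Context: `K` a field, `F ⊇ K` a field which is a finite extension of
`K(x) = RatFunc K` (the structure maps `K[X] → RatFunc K → F` are instance arguments).
`intB K F` is the integral closure of `K[X]` in `F`, a Dedekind domain with fraction field `F`.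

Main results of this file:
* `Place.center`, `Place.eq_ofHeightOneSpectrum_center`: every place `v` of `F/K` with
  `x ∈ O_v` is the place of a unique height one prime of `intB K F`;
* `ord_ofHeightOneSpectrum`: the order function of such a place is the adic order.
-/

set_option autoImplicit false
set_option linter.unusedSectionVars false
set_option linter.style.haveILetI false

open AlgebraicCurve Polynomial IsDedekindDomain

noncomputable section

namespace Fermat.Agent.S18.FFl

section Context

variable {K F : Type*} [Field K] [Field F] [Algebra K F]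
variable [Algebra K[X] F] [IsScalarTower K K[X] F]
variable [Algebra (RatFunc K) F] [IsScalarTower K[X] (RatFunc K) F]
variable [FiniteDimensional (RatFunc K) F] [Algebra.IsSeparable (RatFunc K) F]

variable (K F) in
/-- The integral closure of `K[x]` in `F`. -/
abbrev intB : Subalgebra K[X] F := integralClosure K[X] F

instance intB_isDedekindDomain : IsDedekindDomain (intB K F) :=
  integralClosure.isDedekindDomain K[X] (RatFunc K) F

instance intB_isFractionRing : IsFractionRing (intB K F) F :=
  integralClosure.isFractionRing_of_finite_extension (RatFunc K) F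

instance intB_finite : Module.Finite K[X] (intB K F) :=
  IsIntegralClosure.finite K[X] (RatFunc K) F (intB K F)

instance polyTorsionFree : Module.IsTorsionFree K[X] F :=
  .trans_faithfulSMul K[X] (RatFunc K) F

instance intB_torsionFree : Module.IsTorsionFree K[X] (intB K F) :=
  IsIntegralClosure.isTorsionFree K[X] F

instance intB_faithfulSMul : FaithfulSMul K[X] (intB K F) := inferInstance

variable (K F) in
/-- The generator `x` of the rational subfield, as an element of `F`. -/
def genX : F := algebraMap K[X] F X

/-- Elements of `F` integral over `K[x]` lie in every valuation ring containing `x`. -/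
theorem mem_valuationSubring_of_isIntegral (A : ValuationSubring F)
    (hK : ∀ a : K, algebraMap K F a ∈ A) (hx : genX K F ∈ A) {b : F} (hb : IsIntegral K[X] b) :
    b ∈ A := by
  have hpoly : ∀ p : K[X], algebraMap K[X] F p ∈ A := by
    intro p
    induction p using Polynomial.induction_on' with
    | add p q hp hq => rw [map_add]; exact add_mem hp hq
    | monomial n a =>
      rw [← C_mul_X_pow_eq_monomial, map_mul, map_pow, ← algebraMap_eq,
        ← IsScalarTower.algebraMap_apply]
      exact mul_mem (hK a) (pow_mem hx n)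
  letI : Algebra K[X] A :=
    ((algebraMap K[X] F).codRestrict A.toSubring hpoly).toAlgebra
  haveI : IsScalarTower K[X] A F := IsScalarTower.of_algebraMap_eq fun _ => rfl
  have hb' : IsIntegral A b := hb.tower_top
  obtain ⟨y, hy⟩ := IsIntegrallyClosed.isIntegral_iff.mp hb'
  exact hy ▸ y.2

variable (v : Place K F)

/-- The inclusion of `intB K F` into the valuation ring of a place `v` with `x ∈ O_v`. -/
def inclB (hx : genX K F ∈ v.toValuationSubring) : intB K F →+* v.toValuationSubring :=
  (algebraMap (intB K F) F).codRestrict v.toValuationSubring.toSubring fun b =>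
    mem_valuationSubring_of_isIntegral v.toValuationSubring v.algebraMap_mem' hx b.2

@[simp]
theorem coe_inclB (hx : genX K F ∈ v.toValuationSubring) (b : intB K F) :
    ((inclB v hx b : v.toValuationSubring) : F) = (b : F) := rfl

/-- The center of a place `v` with `x ∈ O_v` on `intB K F`. -/
def centerIdeal (hx : genX K F ∈ v.toValuationSubring) : Ideal (intB K F) :=
  (IsLocalRing.maximalIdeal v.toValuationSubring).comap (inclB v hx)

instance centerIdeal_isPrime (hx : genX K F ∈ v.toValuationSubring) :
    (centerIdeal v hx).IsPrime :=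
  Ideal.comap_isPrime _ _

theorem centerIdeal_ne_bot (hx : genX K F ∈ v.toValuationSubring) : centerIdeal v hx ≠ ⊥ := by
  intro hbot
  apply v.ne_top'
  refine SetLike.ext fun f => ⟨fun _ => ValuationSubring.mem_top f, fun _ => ?_⟩
  obtain ⟨a, s, hs, rfl⟩ := IsFractionRing.div_surjective (A := intB K F) f
  have hs0 : s ≠ 0 := nonZeroDivisors.ne_zero hs
  have hsu : IsUnit (inclB v hx s) := by
    by_contra hnu
    have hmem : s ∈ centerIdeal v hx := by
      show inclB v hx s ∈ IsLocalRing.maximalIdeal _
      exact (IsLocalRing.mem_maximalIdeal _).mpr hnu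
    rw [hbot, Ideal.mem_bot] at hmem
    exact hs0 hmem
  obtain ⟨u, hu⟩ := hsu
  have h1 : ((u⁻¹ : v.toValuationSubringˣ) : v.toValuationSubring) * inclB v hx s = 1 := by
    rw [← hu]; exact u.inv_mul
  have h2 : (((u⁻¹ : v.toValuationSubringˣ) : v.toValuationSubring) : F) * (s : F) = 1 := by
    have := congrArg (Subtype.val) h1
    simpa using this
  have h3 : (((u⁻¹ : v.toValuationSubringˣ) : v.toValuationSubring) : F) =
      (algebraMap (intB K F) F s)⁻¹ := eq_inv_of_mul_eq_one_left h2
  rw [div_eq_mul_inv, ← h3]
  exact mul_mem (inclB v hx a).2 (SetLike.coe_mem _)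

/-- The center of a place `v` with `x ∈ O_v`, as a height one prime. -/
def center (hx : genX K F ∈ v.toValuationSubring) : HeightOneSpectrum (intB K F) :=
  ⟨centerIdeal v hx, inferInstance, centerIdeal_ne_bot v hx⟩

theorem valuationSubring_center (hx : genX K F ∈ v.toValuationSubring) :
    ((center v hx).valuation F).valuationSubring = v.toValuationSubring := by
  rw [← HeightOneSpectrum.valuationSubringAtPrime_eq_valuationSubring]
  refine ValuationSubring.eq_of_le_of_ne_top _ ?_ v.ne_top'
  intro f hf
  have hf' : (center v hx).valuation F f ≤ 1 := by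
    have := HeightOneSpectrum.valuationSubringAtPrime_le_valuation (K := F) (center v hx) hf
    exact this
  obtain ⟨n, d, hnd⟩ := HeightOneSpectrum.exists_primeCompl_mul_eq_of_integer (center v hx) f hf'
  have hdu : IsUnit (inclB v hx d) := by
    by_contra hnu
    exact d.2 ((IsLocalRing.mem_maximalIdeal _).mpr hnu)
  obtain ⟨u, hu⟩ := hdu
  have h1 : inclB v hx d * ((u⁻¹ : v.toValuationSubringˣ) : v.toValuationSubring) = 1 := by
    rw [← hu]; exact u.mul_inv
  have h2 : (algebraMap (intB K F) F d) *
      (((u⁻¹ : v.toValuationSubringˣ) : v.toValuationSubring) : F) = 1 := by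
    have := congrArg (Subtype.val) h1
    simpa using this
  have : f = (algebraMap (intB K F) F n) *
      (((u⁻¹ : v.toValuationSubringˣ) : v.toValuationSubring) : F) := by
    rw [← hnd, mul_assoc, h2, mul_one]
  rw [this]
  exact mul_mem (inclB v hx n).2 (SetLike.coe_mem _)

/-- Every place `v` with `x ∈ O_v` is the place attached to its center. -/
theorem eq_ofHeightOneSpectrum_center (hx : genX K F ∈ v.toValuationSubring) :
    v = Place.ofHeightOneSpectrum (K := K) (center v hx) :=
  Place.ext (valuationSubring_center v hx).symm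

end Context

section OrdAdic

variable {K F : Type*} [Field K] [Field F] [Algebra K F]
variable {R : Type*} [CommRing R] [IsDedekindDomain R] [Algebra R F] [IsFractionRing R F]
  [Algebra K R] [IsScalarTower K R F]

/-- The order function of the place attached to a height one prime is the adic order. -/
theorem ord_ofHeightOneSpectrum (w : HeightOneSpectrum R) (f : F) :
    (Place.ofHeightOneSpectrum (K := K) w).ord f = -WithZero.log (w.valuation F f) := by
  set v : Place K F := Place.ofHeightOneSpectrum (K := K) w with hv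
  rcases eq_or_ne f 0 with rfl | hf
  · simp
  have hmem : ∀ g : F, g ∈ v.toValuationSubring ↔ w.valuation F g ≤ 1 := fun g =>
    Valuation.mem_valuationSubring_iff _ _
  obtain ⟨π, hπ⟩ := IsDiscreteValuationRing.exists_irreducible v.toValuationSubring
  have hπ0 : (π : F) ≠ 0 := by
    simpa [ne_eq, ZeroMemClass.coe_eq_zero] using hπ.ne_zero
  -- units have valuation one
  have hunit : ∀ u : v.toValuationSubringˣ, w.valuation F ((u : v.toValuationSubring) : F) = 1 := by
    intro u
    have h1 : w.valuation F ((u : v.toValuationSubring) : F) ≤ 1 := (hmem _).mp (SetLike.coe_mem _)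
    have h2 : w.valuation F (((u⁻¹ : v.toValuationSubringˣ) : v.toValuationSubring) : F) ≤ 1 :=
      (hmem _).mp (SetLike.coe_mem _)
    have h3 : ((u : v.toValuationSubring) : F) *
        (((u⁻¹ : v.toValuationSubringˣ) : v.toValuationSubring) : F) = 1 :=
      congrArg (Subtype.val) u.mul_inv
    have h4 : w.valuation F ((u : v.toValuationSubring) : F) *
        w.valuation F (((u⁻¹ : v.toValuationSubringˣ) : v.toValuationSubring) : F) = 1 := by
      rw [← map_mul, h3, map_one]
    refine le_antisymm h1 ?_
    by_contra hlt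
    rw [not_le] at hlt
    have : w.valuation F ((u : v.toValuationSubring) : F) *
        w.valuation F (((u⁻¹ : v.toValuationSubringˣ) : v.toValuationSubring) : F) < 1 := by
      calc _ ≤ w.valuation F ((u : v.toValuationSubring) : F) * 1 := by gcongr
        _ < 1 := by rwa [mul_one]
    exact absurd h4 this.ne
  -- the uniformizer has valuation exp (-1)
  have hπne : w.valuation F (π : F) ≠ 0 := (Valuation.ne_zero_iff _).mpr hπ0
  have hπval : w.valuation F (π : F) = WithZero.exp (-1 : ℤ) := by
    obtain ⟨π₀, hπ₀⟩ := w.valuation_exists_uniformizer F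
    have hπ₀ne : π₀ ≠ 0 := by
      rintro rfl
      rw [map_zero] at hπ₀
      exact WithZero.exp_ne_zero hπ₀.symm
    obtain ⟨u, hu⟩ := v.exists_unit_mul_zpow hπ₀ne hπ
    have hπlt : w.valuation F (π : F) < 1 := by
      have h1 : w.valuation F (π : F) ≤ 1 := (hmem _).mp (SetLike.coe_mem _)
      refine lt_of_le_of_ne h1 fun h1' => ?_
      have hinv : (π : F)⁻¹ ∈ v.toValuationSubring := by
        rw [hmem, map_inv₀, h1', inv_one]
      have : IsUnit π := by
        refine ⟨⟨π, ⟨(π : F)⁻¹, hinv⟩, Subtype.ext (mul_inv_cancel₀ hπ0),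
          Subtype.ext (inv_mul_cancel₀ hπ0)⟩, rfl⟩
      exact hπ.not_isUnit this
    set m : ℤ := WithZero.log (w.valuation F (π : F)) with hm
    have hexp : w.valuation F (π : F) = WithZero.exp m := (WithZero.exp_log hπne).symm
    have hm_neg : m < 0 := by
      rw [hexp, ← WithZero.exp_zero, WithZero.exp_lt_exp] at hπlt
      exact hπlt
    have hprod : w.valuation F π₀ = WithZero.exp (v.ord π₀ * m) := by
      conv_lhs => rw [hu]
      rw [map_mul, hunit, one_mul, map_zpow₀, hexp, ← WithZero.exp_zsmul, smul_eq_mul]
    rw [hπ₀, WithZero.exp_inj] at hprod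
    have hm1 : m = -1 := by
      have h1 : v.ord π₀ * m = -1 := hprod.symm
      have hdvd : m ∣ 1 := ⟨-v.ord π₀, by linarith⟩
      have := Int.le_of_dvd one_pos (dvd_neg.mpr hdvd |>.trans (by simp))
      rcases Int.isUnit_iff.mp (isUnit_of_dvd_one hdvd) with h | h
      · omega
      · exact h
    rw [hexp, hm1]
  obtain ⟨u, hu⟩ := v.exists_unit_mul_zpow hf hπ
  conv_rhs => rw [hu]
  rw [map_mul, hunit, one_mul, map_zpow₀, hπval, ← WithZero.exp_zsmul, WithZero.log_exp]
  simp

end OrdAdic

section OrdBasic

variable {K F : Type*} [Field K] [Field F] [Algebra K F]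

/-- Elements of nonnegative order lie in the valuation ring. -/
theorem mem_of_ord_nonneg (v : Place K F) {f : F} (hf : f ≠ 0) (h : 0 ≤ v.ord f) :
    f ∈ v.toValuationSubring := by
  obtain ⟨π, hπ⟩ := IsDiscreteValuationRing.exists_irreducible v.toValuationSubring
  obtain ⟨u, hu⟩ := v.exists_unit_mul_zpow hf hπ
  rw [hu, show v.ord f = (((v.ord f).toNat : ℕ) : ℤ) from (Int.toNat_of_nonneg h).symm,
    zpow_natCast]
  exact mul_mem (u : v.toValuationSubring).2 (pow_mem (π : v.toValuationSubring).2 _)

/-- Elements of the valuation ring have nonnegative order. -/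
theorem ord_nonneg_of_mem (v : Place K F) {f : F} (hf : f ∈ v.toValuationSubring) :
    0 ≤ v.ord f := by
  rcases eq_or_ne f 0 with rfl | hf0
  · simp
  obtain ⟨π, hπ⟩ := IsDiscreteValuationRing.exists_irreducible v.toValuationSubring
  obtain ⟨n, u, hu⟩ :=
    IsDiscreteValuationRing.eq_unit_mul_pow_irreducible
      (x := (⟨f, hf⟩ : v.toValuationSubring)) (by simpa [Subtype.ext_iff] using hf0) hπ
  have hcoe : f = ((u : v.toValuationSubring) : F) * ((π : F) ^ (n : ℤ)) := by
    have h := congrArg (Subtype.val) hu
    push_cast at h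
    rw [zpow_natCast]
    exact h
  rw [hcoe, v.ord_unit_smul_zpow u hπ (n : ℤ)]
  exact Int.natCast_nonneg n

theorem mem_iff_ord_nonneg (v : Place K F) {f : F} (hf : f ≠ 0) :
    f ∈ v.toValuationSubring ↔ 0 ≤ v.ord f :=
  ⟨ord_nonneg_of_mem v, mem_of_ord_nonneg v hf⟩

/-- Constants have order zero. -/
theorem ord_algebraMap (v : Place K F) (c : K) : v.ord (algebraMap K F c) = 0 := by
  rcases eq_or_ne c 0 with rfl | hc
  · simp
  have h1 : 0 ≤ v.ord (algebraMap K F c) := ord_nonneg_of_mem v (v.algebraMap_mem' c)
  have h2 : 0 ≤ v.ord (algebraMap K F c⁻¹) := ord_nonneg_of_mem v (v.algebraMap_mem' c⁻¹)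
  rw [map_inv₀, v.ord_inv] at h2
  omega

/-- The ultrametric inequality, in the form: the valuation ring is closed under addition. -/
theorem ord_add_nonneg (v : Place K F) {f g : F} (hf : 0 ≤ v.ord f) (hg : 0 ≤ v.ord g) :
    0 ≤ v.ord (f + g) := by
  rcases eq_or_ne f 0 with rfl | hf0
  · simpa using hg
  rcases eq_or_ne g 0 with rfl | hg0
  · simpa using hf
  exact ord_nonneg_of_mem v (add_mem (mem_of_ord_nonneg v hf0 hf) (mem_of_ord_nonneg v hg0 hg))

variable {R : Type*} [CommRing R] [IsDedekindDomain R] [Algebra R F] [IsFractionRing R F]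
  [Algebra K R] [IsScalarTower K R F]

theorem ord_ofHeightOneSpectrum_algebraMap (w : HeightOneSpectrum R) (b : R) :
    (Place.ofHeightOneSpectrum (K := K) w : Place K F).ord (algebraMap R F b) =
      -WithZero.log (w.intValuation b) := by
  rw [ord_ofHeightOneSpectrum, w.valuation_of_algebraMap]

theorem ord_pos_iff_mem_asIdeal (w : HeightOneSpectrum R) {b : R} (hb : b ≠ 0) :
    0 < (Place.ofHeightOneSpectrum (K := K) w : Place K F).ord (algebraMap R F b) ↔
      b ∈ w.asIdeal := by
  rw [ord_ofHeightOneSpectrum_algebraMap, ← w.intValuation_lt_one_iff_mem]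
  have hne : w.intValuation b ≠ 0 := w.intValuation_ne_zero _ hb
  constructor
  · intro h
    rw [← WithZero.exp_log hne, ← WithZero.exp_zero, WithZero.exp_lt_exp]
    omega
  · intro h
    rw [← WithZero.exp_log hne, ← WithZero.exp_zero, WithZero.exp_lt_exp] at h
    omega

/-- The place determines the height one prime. -/
theorem ofHeightOneSpectrum_injective :
    Function.Injective
      (fun w : HeightOneSpectrum R => (Place.ofHeightOneSpectrum (K := K) w : Place K F)) := by
  intro w₁ w₂ h
  simp only at h
  ext b
  rcases eq_or_ne b 0 with rfl | hb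
  · simp
  rw [← ord_pos_iff_mem_asIdeal (K := K) (F := F) w₁ hb,
    ← ord_pos_iff_mem_asIdeal (K := K) (F := F) w₂ hb, h]

end OrdBasic

section PrimeAt

variable (K : Type*) [Field K]

/-- The maximal ideal `(X - a)` of `K[X]`. -/
def primeAt (a : K) : Ideal K[X] := Ideal.span {X - C a}

instance primeAt_isMaximal (a : K) : (primeAt K a).IsMaximal :=
  PrincipalIdealRing.isMaximal_of_irreducible (irreducible_X_sub_C a)

theorem primeAt_ne_bot (a : K) : primeAt K a ≠ ⊥ := by
  unfold primeAt
  rw [Ne, Ideal.span_singleton_eq_bot]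
  exact X_sub_C_ne_zero a

end PrimeAt

section Fibre

variable {K F : Type*} [Field K] [Field F] [Algebra K F] [IsAlgClosed K]
variable [Algebra K[X] F] [IsScalarTower K K[X] F]
variable [Algebra (RatFunc K) F] [IsScalarTower K[X] (RatFunc K) F]
variable [FiniteDimensional (RatFunc K) F] [Algebra.IsSeparable (RatFunc K) F]

theorem algebraMap_polynomial_injective : Function.Injective (algebraMap K[X] F) := by
  rw [IsScalarTower.algebraMap_eq K[X] (RatFunc K) F]
  exact (algebraMap (RatFunc K) F).injective.comp (IsFractionRing.injective K[X] (RatFunc K))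

theorem genX_sub_eq (a : K) :
    genX K F - algebraMap K F a = algebraMap K[X] F (X - C a) := by
  rw [map_sub, genX, ← algebraMap_eq, ← IsScalarTower.algebraMap_apply]

/-- `x - a` as an element of `intB K F`. -/
def xSubB (a : K) : intB K F := algebraMap K[X] (intB K F) (X - C a)

@[simp]
theorem coe_xSubB (a : K) : ((xSubB a : intB K F) : F) = genX K F - algebraMap K F a := by
  rw [genX_sub_eq]; rfl

theorem xSubB_ne_zero (a : K) : (xSubB a : intB K F) ≠ 0 := by
  intro h
  have h' := congrArg (Subtype.val) h
  rw [coe_xSubB, genX_sub_eq] at h'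
  have := algebraMap_polynomial_injective (K := K) (F := F) (h'.trans (map_zero _).symm)
  exact X_sub_C_ne_zero a this

theorem map_primeAt (a : K) :
    (primeAt K a).map (algebraMap K[X] (intB K F)) = Ideal.span {(xSubB a : intB K F)} := by
  rw [primeAt, Ideal.map_span, Set.image_singleton]; rfl

end Fibre

section Fibre2

variable {K F : Type*} [Field K] [Field F] [Algebra K F] [IsAlgClosed K]
variable [Algebra K[X] F] [IsScalarTower K K[X] F]
variable [Algebra (RatFunc K) F] [IsScalarTower K[X] (RatFunc K) F]
variable [FiniteDimensional (RatFunc K) F] [Algebra.IsSeparable (RatFunc K) F]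

/-- A height one prime contains `x - a` iff it lies over `(X - a)`. -/
theorem xSubB_mem_iff_liesOver (a : K) (w : HeightOneSpectrum (intB K F)) :
    xSubB a ∈ w.asIdeal ↔ w.asIdeal.LiesOver (primeAt K a) := by
  constructor
  · intro h
    refine ⟨?_⟩
    have hle : primeAt K a ≤ w.asIdeal.under K[X] := by
      rw [primeAt, Ideal.span_le, Set.singleton_subset_iff]
      exact h
    have hne : w.asIdeal.under K[X] ≠ ⊤ := (Ideal.IsPrime.under K[X] w.asIdeal).ne_top
    exact (primeAt_isMaximal K a).eq_of_le hne hle
  · intro h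
    exact (Ideal.mem_of_liesOver w.asIdeal (primeAt K a) (X - C a)).mp
      (Ideal.subset_span rfl)

/-- The order of `x - a` at the place of a height one prime. -/
theorem ord_genX_sub (a : K) (w : HeightOneSpectrum (intB K F)) :
    (Place.ofHeightOneSpectrum (K := K) w : Place K F).ord (genX K F - algebraMap K F a) =
      -WithZero.log (w.intValuation (xSubB a)) := by
  rw [ord_ofHeightOneSpectrum, ← coe_xSubB, ← w.valuation_of_algebraMap (K := F)]
  rfl

theorem ord_genX_sub_pos_iff (a : K) (w : HeightOneSpectrum (intB K F)) :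
    0 < (Place.ofHeightOneSpectrum (K := K) w : Place K F).ord (genX K F - algebraMap K F a) ↔
      xSubB a ∈ w.asIdeal := by
  rw [ord_genX_sub, ← w.intValuation_lt_one_iff_mem]
  have hne : w.intValuation (xSubB a) ≠ 0 := w.intValuation_ne_zero _ (xSubB_ne_zero a)
  constructor
  · intro h
    rw [← WithZero.exp_log hne, ← WithZero.exp_zero, WithZero.exp_lt_exp]
    omega
  · intro h
    rw [← WithZero.exp_log hne, ← WithZero.exp_zero, WithZero.exp_lt_exp] at h
    omega

/-- The order of `x - a` at a prime over `(X - a)` is the ramification index. -/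
theorem ord_genX_sub_eq_ramificationIdx (a : K) (w : HeightOneSpectrum (intB K F))
    [w.asIdeal.LiesOver (primeAt K a)] :
    (Place.ofHeightOneSpectrum (K := K) w : Place K F).ord (genX K F - algebraMap K F a) =
      (w.asIdeal.ramificationIdx K[X] : ℤ) := by
  rw [ord_genX_sub]
  have hne : w.intValuation (xSubB a) ≠ 0 := w.intValuation_ne_zero _ (xSubB_ne_zero a)
  have hle1 : w.intValuation (xSubB a) ≤ 1 := w.intValuation_le_one _
  set m : ℤ := WithZero.log (w.intValuation (xSubB a)) with hm
  have hexp : w.intValuation (xSubB a) = WithZero.exp m := (WithZero.exp_log hne).symm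
  have hm0 : m ≤ 0 := by
    rw [hexp, ← WithZero.exp_zero, WithZero.exp_le_exp] at hle1
    exact hle1
  obtain ⟨n, hn⟩ : ∃ n : ℕ, m = -(n : ℤ) := ⟨(-m).toNat, by omega⟩
  have hmap : (primeAt K a).map (algebraMap K[X] (intB K F)) ≠ ⊥ := by
    rw [map_primeAt, Ne, Ideal.span_singleton_eq_bot]
    exact xSubB_ne_zero a
  rw [← Ideal.ramificationIdx'_eq_ramificationIdx' (primeAt K a) w.asIdeal hmap]
  have hspec : (primeAt K a).ramificationIdx' w.asIdeal = n := by
    apply Ideal.ramificationIdx'_spec
    · rw [map_primeAt, Ideal.span_le, Set.singleton_subset_iff, SetLike.mem_coe,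
        ← w.intValuation_le_pow_iff_mem, hexp, hn]
    · rw [map_primeAt, Ideal.span_le, Set.singleton_subset_iff, SetLike.mem_coe,
        ← w.intValuation_le_pow_iff_mem, hexp, hn, WithZero.exp_le_exp]
      push_cast
      omega
  rw [hspec, hn, neg_neg]

end Fibre2

section Fibre3

variable {K F : Type*} [Field K] [Field F] [Algebra K F] [IsAlgClosed K]
variable [Algebra K[X] F] [IsScalarTower K K[X] F]
variable [Algebra (RatFunc K) F] [IsScalarTower K[X] (RatFunc K) F]
variable [FiniteDimensional (RatFunc K) F] [Algebra.IsSeparable (RatFunc K) F]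

/-- Every maximal ideal of `intB K F` contains `x - a` for some `a : K`. -/
theorem exists_xSubB_mem (q : Ideal (intB K F)) [q.IsMaximal] :
    ∃ a : K, xSubB a ∈ q := by
  show ∃ a : K, algebraMap K[X] (intB K F) (X - C a) ∈ q
  -- the contraction of `q` to `K[X]` is a nonzero prime, generated by a linear polynomial
  have hq0 : q ≠ ⊥ := by
    intro h
    have hfield : IsField (intB K F) := by
      have := Ideal.Quotient.maximal_ideal_iff_isField_quotient q |>.mp inferInstance
      subst h
      exact MulEquiv.isField this (RingEquiv.quotientBot (intB K F)).symm.toMulEquiv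
    have hfieldX : IsField K[X] :=
      (Algebra.IsIntegral.isField_iff_isField (R := K[X]) (S := intB K F)
        (by
          intro x y hxy
          have := congrArg (Subtype.val) hxy
          exact algebraMap_polynomial_injective (K := K) (F := F) this)).mpr hfield
    exact Polynomial.not_isField K hfieldX
  have hp0 : q.under K[X] ≠ ⊥ := fun h => hq0 (Ideal.eq_bot_of_comap_eq_bot h)
  have hprime : (q.under K[X]).IsPrime := Ideal.IsPrime.under K[X] q
  obtain ⟨g, hg⟩ := (IsPrincipalIdealRing.principal (q.under K[X])).principal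
  have hg0 : g ≠ 0 := by
    rintro rfl
    apply hp0
    rw [hg]
    simp
  have hgprime : Prime g := by
    rw [← Ideal.span_singleton_prime hg0]
    rw [Ideal.submodule_span_eq] at hg
    rwa [← hg]
  have hdeg : g.degree ≠ 0 := by
    intro h0
    exact hgprime.not_isUnit (Polynomial.isUnit_iff_degree_eq_zero.mpr h0)
  obtain ⟨a, ha⟩ := IsAlgClosed.exists_root g hdeg
  refine ⟨a, ?_⟩
  have hdvd : X - C a ∣ g := Polynomial.dvd_iff_isRoot.mpr ha
  obtain ⟨c, hc⟩ := hdvd
  have hirr := hgprime.irreducible
  rcases hirr.isUnit_or_isUnit hc with hu | hu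
  · exact absurd hu (Polynomial.not_isUnit_X_sub_C a)
  · show X - C a ∈ q.under K[X]
    rw [hg, Ideal.submodule_span_eq, Ideal.mem_span_singleton]
    obtain ⟨u, rfl⟩ := hu
    exact ⟨((u⁻¹ : K[X]ˣ) : K[X]), by rw [hc, mul_assoc, Units.mul_inv, mul_one]⟩

/-- The residue field of a maximal ideal of `intB K F` is `K`. -/
theorem algebraMap_quotient_bijective (q : Ideal (intB K F)) [q.IsMaximal] :
    Function.Bijective (algebraMap K (intB K F ⧸ q)) := by
  classical
  letI : Field (intB K F ⧸ q) := Ideal.Quotient.field q
  obtain ⟨a, ha⟩ : ∃ a : K, algebraMap K[X] (intB K F) (X - C a) ∈ q := exists_xSubB_mem q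
  -- now `intB K F ⧸ q` is a finite `K`-algebra
  have hsurj : ∀ p : K[X], ∃ c : K,
      Ideal.Quotient.mk q (algebraMap K[X] (intB K F) p) = algebraMap K (intB K F ⧸ q) c := by
    intro p
    refine ⟨p.eval a, ?_⟩
    have hdvd : X - C a ∣ p - C (p.eval a) := by
      rw [Polynomial.dvd_iff_isRoot]
      simp
    obtain ⟨r, hr⟩ := hdvd
    have : p = C (p.eval a) + (X - C a) * r := by rw [← hr]; ring
    conv_lhs => rw [this]
    rw [map_add, map_add, map_mul, map_mul]
    have h0 : Ideal.Quotient.mk q (algebraMap K[X] (intB K F) (X - C a)) = 0 :=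
      Ideal.Quotient.eq_zero_iff_mem.mpr ha
    rw [h0, zero_mul, add_zero, IsScalarTower.algebraMap_apply K (intB K F) (intB K F ⧸ q),
      IsScalarTower.algebraMap_apply K K[X] (intB K F)]
    rfl
  haveI : Module.Finite K (intB K F ⧸ q) := by
    obtain ⟨s, hs⟩ := (intB_finite (K := K) (F := F)).fg_top
    refine ⟨⟨s.image (fun b => Ideal.Quotient.mk q b), ?_⟩⟩
    rw [eq_top_iff]
    rintro y -
    obtain ⟨b, rfl⟩ := Ideal.Quotient.mk_surjective y
    have hb : b ∈ Submodule.span K[X] (s : Set (intB K F)) := hs ▸ Submodule.mem_top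
    induction hb using Submodule.span_induction with
    | mem x hx =>
      exact Submodule.subset_span (Finset.mem_coe.mpr (Finset.mem_image_of_mem _ hx))
    | zero => rw [map_zero]; exact Submodule.zero_mem _
    | add x y _ _ hx hy => rw [map_add]; exact Submodule.add_mem _ hx hy
    | smul p x _ hx =>
      obtain ⟨c, hc⟩ := hsurj p
      rw [Algebra.smul_def, map_mul, hc, ← Algebra.smul_def]
      exact Submodule.smul_mem _ _ hx
  haveI : Algebra.IsIntegral K (intB K F ⧸ q) := Algebra.IsIntegral.of_finite K _
  exact IsAlgClosed.algebraMap_bijective_of_isIntegral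

end Fibre3

section Fibre4

variable {K F : Type*} [Field K] [Field F] [Algebra K F] [IsAlgClosed K]
variable [Algebra K[X] F] [IsScalarTower K K[X] F]
variable [Algebra (RatFunc K) F] [IsScalarTower K[X] (RatFunc K) F]
variable [FiniteDimensional (RatFunc K) F] [Algebra.IsSeparable (RatFunc K) F]

/-- The height one prime attached to a prime over `(X - a)`. -/
def hosOfPrimesOver (a : K) (q : (primeAt K a).primesOver (intB K F)) :
    HeightOneSpectrum (intB K F) :=
  haveI : q.1.LiesOver (primeAt K a) := q.2.2
  ⟨q.1, q.2.1, Ideal.ne_bot_of_liesOver_of_ne_bot (primeAt_ne_bot K a) q.1⟩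

@[simp]
theorem hosOfPrimesOver_asIdeal (a : K) (q : (primeAt K a).primesOver (intB K F)) :
    (hosOfPrimesOver a q).asIdeal = q.1 := rfl

/-- The place attached to a prime over `(X - a)`. -/
def placeOfPrimesOver (a : K) (q : (primeAt K a).primesOver (intB K F)) : Place K F :=
  Place.ofHeightOneSpectrum (K := K) (hosOfPrimesOver a q)

theorem placeOfPrimesOver_injective (a : K) :
    Function.Injective (placeOfPrimesOver (K := K) (F := F) a) := by
  intro q₁ q₂ h
  have := ofHeightOneSpectrum_injective (K := K) (F := F) h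
  exact Subtype.ext (congrArg HeightOneSpectrum.asIdeal this)

theorem ord_placeOfPrimesOver (a : K) (q : (primeAt K a).primesOver (intB K F)) :
    (placeOfPrimesOver a q).ord (genX K F - algebraMap K F a) =
      (q.1.ramificationIdx K[X] : ℤ) := by
  haveI : (hosOfPrimesOver a q).asIdeal.LiesOver (primeAt K a) := q.2.2
  exact ord_genX_sub_eq_ramificationIdx a (hosOfPrimesOver a q)

theorem inertiaDeg_eq_one (a : K) (q : (primeAt K a).primesOver (intB K F)) :
    q.1.inertiaDeg K[X] = 1 := by
  haveI : q.1.LiesOver (primeAt K a) := q.2.2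
  haveI : q.1.IsPrime := q.2.1
  haveI : q.1.IsMaximal :=
    Ring.DimensionLEOne.maximalOfPrime (Ideal.ne_bot_of_liesOver_of_ne_bot (primeAt_ne_bot K a) q.1)
      inferInstance
  rw [Ideal.inertiaDeg_eq_of_isMaximal (primeAt K a) q.1]
  letI : Field (K[X] ⧸ primeAt K a) := Ideal.Quotient.field _
  letI : Field (intB K F ⧸ q.1) := Ideal.Quotient.field _
  have hbij := algebraMap_quotient_bijective (K := K) (F := F) q.1
  have hsurj : Function.Surjective (algebraMap (K[X] ⧸ primeAt K a) (intB K F ⧸ q.1)) := by
    intro y
    obtain ⟨c, rfl⟩ := hbij.2 y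
    refine ⟨algebraMap K (K[X] ⧸ primeAt K a) c, ?_⟩
    rw [← IsScalarTower.algebraMap_apply]
  have hbij' : Function.Bijective (algebraMap (K[X] ⧸ primeAt K a) (intB K F ⧸ q.1)) :=
    ⟨(algebraMap (K[X] ⧸ primeAt K a) (intB K F ⧸ q.1)).injective, hsurj⟩
  rw [← Module.finrank_self (K[X] ⧸ primeAt K a)]
  exact ((AlgEquiv.ofBijective (Algebra.ofId (K[X] ⧸ primeAt K a) (intB K F ⧸ q.1))
    hbij').toLinearEquiv.finrank_eq).symm

/-- The fundamental identity over `x = a`. -/
theorem sum_ord_primesOver (a : K) :
    ∑ q : (primeAt K a).primesOver (intB K F),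
      (placeOfPrimesOver a q).ord (genX K F - algebraMap K F a) =
        (Module.finrank (RatFunc K) F : ℤ) := by
  haveI : Module.Free K[X] (intB K F) :=
    IsIntegralClosure.module_free K[X] (RatFunc K) F (intB K F)
  have h := Ideal.sum_ramification_inertia_eq_finrank (primeAt K a) (intB K F)
  rw [IsIntegralClosure.rank K[X] (RatFunc K) F (intB K F)] at h
  rw [← h]
  push_cast
  refine Finset.sum_congr rfl fun q _ => ?_
  rw [ord_placeOfPrimesOver, inertiaDeg_eq_one a q]
  simp

theorem genX_mem_of_ord_pos (a : K) (v : Place K F)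
    (hv : 0 < v.ord (genX K F - algebraMap K F a)) : genX K F ∈ v.toValuationSubring := by
  have hne : genX K F - algebraMap K F a ≠ 0 := by
    intro h
    rw [h, v.ord_zero] at hv
    exact lt_irrefl _ hv
  have h1 : genX K F - algebraMap K F a ∈ v.toValuationSubring :=
    mem_of_ord_nonneg v hne hv.le
  have h2 := add_mem h1 (v.algebraMap_mem' a)
  simpa using h2

/-- The fibre of `x` over `a` is the set of places of the primes over `(X - a)`. -/
theorem fibre_eq_range (a : K) :
    {v : Place K F | 0 < v.ord (genX K F - algebraMap K F a)} =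
      Set.range (placeOfPrimesOver (K := K) (F := F) a) := by
  ext v
  simp only [Set.mem_ofPred_eq, Set.mem_range]
  constructor
  · intro hv
    have hx := genX_mem_of_ord_pos a v hv
    have hv' := eq_ofHeightOneSpectrum_center v hx
    have hmem : xSubB a ∈ (center v hx).asIdeal := by
      rw [← ord_genX_sub_pos_iff (K := K) (F := F), ← hv']
      exact hv
    have hlies := (xSubB_mem_iff_liesOver a (center v hx)).mp hmem
    exact ⟨⟨(center v hx).asIdeal, (center v hx).isPrime, hlies⟩, hv'.symm⟩
  · rintro ⟨q, rfl⟩
    rw [placeOfPrimesOver, ord_genX_sub_pos_iff, xSubB_mem_iff_liesOver]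
    exact q.2.2

theorem fibre_finite_ctx (a : K) :
    {v : Place K F | 0 < v.ord (genX K F - algebraMap K F a)}.Finite := by
  rw [fibre_eq_range]
  exact Set.finite_range _

theorem fibre_nonempty_ctx (a : K) :
    {v : Place K F | 0 < v.ord (genX K F - algebraMap K F a)}.Nonempty := by
  rw [fibre_eq_range]
  obtain ⟨P, hPm, hP⟩ := Ideal.exists_maximal_ideal_liesOver_of_isIntegral (S := intB K F)
    (primeAt K a)
  exact ⟨_, ⟨⟨P, hPm.isPrime, hP⟩, rfl⟩⟩

theorem sum_ord_fibre_ctx (a : K) :
    ∑ v ∈ (fibre_finite_ctx (K := K) (F := F) a).toFinset,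
      v.ord (genX K F - algebraMap K F a) = (Module.finrank (RatFunc K) F : ℤ) := by
  classical
  rw [← sum_ord_primesOver (K := K) (F := F) a]
  have hfs : (fibre_finite_ctx (K := K) (F := F) a).toFinset =
      Finset.univ.image (placeOfPrimesOver (K := K) (F := F) a) := by
    ext v
    rw [Set.Finite.mem_toFinset, fibre_eq_range]
    simp
  rw [hfs, Finset.sum_image fun q₁ _ q₂ _ h => placeOfPrimesOver_injective a h]

end Fibre4

section Residue

variable {K F : Type*} [Field K] [Field F] [Algebra K F] [IsAlgClosed K]
variable [Algebra K[X] F] [IsScalarTower K K[X] F]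
variable [Algebra (RatFunc K) F] [IsScalarTower K[X] (RatFunc K) F]
variable [FiniteDimensional (RatFunc K) F] [Algebra.IsSeparable (RatFunc K) F]

/-- Every place with `x ∈ O_v` lies over some `a : K`. -/
theorem exists_ord_genX_sub_pos (v : Place K F) (hx : genX K F ∈ v.toValuationSubring) :
    ∃ a : K, 0 < v.ord (genX K F - algebraMap K F a) := by
  haveI : (center v hx).asIdeal.IsMaximal := (center v hx).isMaximal
  obtain ⟨a, ha⟩ := exists_xSubB_mem (center v hx).asIdeal
  refine ⟨a, ?_⟩
  have hv := eq_ofHeightOneSpectrum_center v hx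
  have := (ord_genX_sub_pos_iff (K := K) (F := F) a (center v hx)).mpr ha
  rwa [← hv] at this

theorem residue_inclB_eq (v : Place K F) (hx : genX K F ∈ v.toValuationSubring)
    (b : intB K F) (c : K)
    (h : Ideal.Quotient.mk (center v hx).asIdeal b =
      algebraMap K (intB K F ⧸ (center v hx).asIdeal) c) :
    IsLocalRing.residue v.toValuationSubring (inclB v hx b) = algebraMap K v.ResidueField c := by
  have h1 : b - algebraMap K (intB K F) c ∈ (center v hx).asIdeal := by
    rw [← Ideal.Quotient.eq_zero_iff_mem, map_sub, h, sub_eq_zero]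
    rfl
  have h2 : inclB v hx (b - algebraMap K (intB K F) c) ∈
      IsLocalRing.maximalIdeal v.toValuationSubring := h1
  have h3 : inclB v hx (algebraMap K (intB K F) c) = algebraMap K v.toValuationSubring c := by
    apply Subtype.ext
    rw [coe_inclB, Place.coe_algebraMap]
    exact (IsScalarTower.algebraMap_apply K (intB K F) F c).symm
  rw [map_sub, h3] at h2
  have h4 := (IsLocalRing.residue_eq_zero_iff _).mpr h2
  rw [map_sub, sub_eq_zero] at h4
  rw [h4]
  rfl

/-- The residue field of a place with `x ∈ O_v` is `K`. -/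
theorem residue_surjective_ctx (v : Place K F) (hx : genX K F ∈ v.toValuationSubring) :
    Function.Surjective (algebraMap K v.ResidueField) := by
  intro y'
  obtain ⟨y, rfl⟩ := IsLocalRing.residue_surjective y'
  haveI : (center v hx).asIdeal.IsMaximal := (center v hx).isMaximal
  have hy : (center v hx).valuation F (y : F) ≤ 1 := by
    have : (y : F) ∈ ((center v hx).valuation F).valuationSubring := by
      rw [valuationSubring_center]; exact y.2
    exact (Valuation.mem_valuationSubring_iff _ _).mp this
  obtain ⟨n, d, hnd⟩ :=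
    HeightOneSpectrum.exists_primeCompl_mul_eq_of_integer (center v hx) (y : F) hy
  have hbij := algebraMap_quotient_bijective (K := K) (F := F) (center v hx).asIdeal
  obtain ⟨c₁, hc₁⟩ := hbij.2 (Ideal.Quotient.mk _ n)
  obtain ⟨c₂, hc₂⟩ := hbij.2 (Ideal.Quotient.mk _ (d : intB K F))
  have hn := residue_inclB_eq v hx n c₁ hc₁.symm
  have hd := residue_inclB_eq v hx d c₂ hc₂.symm
  have hc₂0 : c₂ ≠ 0 := by
    rintro rfl
    rw [map_zero] at hc₂
    exact d.2 (Ideal.Quotient.eq_zero_iff_mem.mp hc₂.symm)
  have hmul : y * inclB v hx d = inclB v hx n := Subtype.ext hnd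
  have hres := congrArg (IsLocalRing.residue v.toValuationSubring) hmul
  rw [map_mul, hn, hd] at hres
  refine ⟨c₁ / c₂, ?_⟩
  have hc₂' : algebraMap K v.ResidueField c₂ ≠ 0 := by
    simpa using hc₂0
  rw [map_div₀, div_eq_iff hc₂', ← hres]

theorem deg_eq_one_ctx (v : Place K F) (hx : genX K F ∈ v.toValuationSubring) : v.deg = 1 := by
  have hbij : Function.Bijective (algebraMap K v.ResidueField) :=
    ⟨(algebraMap K v.ResidueField).injective, residue_surjective_ctx v hx⟩
  show Module.finrank K v.ResidueField = 1
  rw [← Module.finrank_self K]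
  exact ((AlgEquiv.ofBijective (Algebra.ofId K v.ResidueField) hbij).toLinearEquiv.finrank_eq).symm

end Residue

section Wrapper

open IntermediateField

variable {K F : Type*} [Field K] [Field F] [Algebra K F]

/-- Elimination principle: to prove a statement about a transcendental `x : F` with `F/K(x)`
finite, one may assume the instance context of this file. -/
theorem ctx_elim {P : Prop} (x : F) (hx : Transcendental K x) [FiniteDimensional K⟮x⟯ F]
    [Algebra.IsSeparable K⟮x⟯ F]
    (h : ∀ [Algebra K[X] F] [IsScalarTower K K[X] F] [Algebra (RatFunc K) F]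
      [IsScalarTower K[X] (RatFunc K) F] [FiniteDimensional (RatFunc K) F]
      [Algebra.IsSeparable (RatFunc K) F],
      genX K F = x → Module.finrank (RatFunc K) F = Module.finrank K⟮x⟯ F →
      (∀ u : RatFunc K, algebraMap (RatFunc K) F u =
        ((RatFunc.algEquivOfTranscendental x hx u : K⟮x⟯) : F)) → P) : P := by
  letI i1 : Algebra K[X] F := (Polynomial.aeval x).toRingHom.toAlgebra
  have hmap : ∀ p : K[X], algebraMap K[X] F p = Polynomial.aeval x p := fun _ => rfl
  haveI i2 : IsScalarTower K K[X] F := IsScalarTower.of_algebraMap_eq fun c => by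
    rw [hmap, Polynomial.algebraMap_apply, Polynomial.aeval_C]
    simp
  let e := RatFunc.algEquivOfTranscendental x hx
  letI i3 : Algebra (RatFunc K) F :=
    ((algebraMap K⟮x⟯ F).comp (e : RatFunc K →+* K⟮x⟯)).toAlgebra
  have hmap' : ∀ u : RatFunc K, algebraMap (RatFunc K) F u = ((e u : K⟮x⟯) : F) := fun _ => rfl
  haveI i4 : IsScalarTower K[X] (RatFunc K) F := IsScalarTower.of_algebraMap_eq fun p => by
    rw [hmap, hmap', RatFunc.algEquivOfTranscendental_algebraMap]
    have := Polynomial.aeval_algebraMap_apply F (AdjoinSimple.gen K x) p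
    rw [AdjoinSimple.algebraMap_gen] at this
    exact this
  have hcomm : (algebraMap K⟮x⟯ F).comp (e.toRingEquiv).toRingHom =
      (RingEquiv.refl F).toRingHom.comp (algebraMap (RatFunc K) F) := by
    ext u
    rfl
  haveI i5 : FiniteDimensional (RatFunc K) F :=
    Module.Finite.of_equiv_equiv (A₁ := K⟮x⟯) (B₁ := F) (A₂ := RatFunc K) (B₂ := F)
      e.symm.toRingEquiv (RingEquiv.refl F) (by
        ext u
        show algebraMap (RatFunc K) F (e.symm u) = algebraMap K⟮x⟯ F u
        rw [hmap', AlgEquiv.apply_symm_apply]
        rfl)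
  haveI i6 : Algebra.IsSeparable (RatFunc K) F :=
    Algebra.IsSeparable.of_equiv_equiv (A₁ := K⟮x⟯) (B₁ := F) (A₂ := RatFunc K) (B₂ := F)
      e.symm.toRingEquiv (RingEquiv.refl F) (by
        ext u
        show algebraMap (RatFunc K) F (e.symm u) = algebraMap K⟮x⟯ F u
        rw [hmap', AlgEquiv.apply_symm_apply]
        rfl)
  refine h ?_ ?_ hmap'
  · show algebraMap K[X] F X = x
    rw [hmap, Polynomial.aeval_X]
  · exact Algebra.finrank_eq_of_equiv_equiv e.toRingEquiv (RingEquiv.refl F) hcomm

end Wrapper

end Fermat.Agent.S18.FFl
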