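import Mathlib
import Fermat.Agent.FF.Interface2
import Fermat.Agent.S18.RRl.Fibres

/-!
PORT (item 87-P1, helper9) of `Fermat/Agent/FF/ASeparation.lean` to ANY characteristic:
`CharZero K` is replaced by separability of `F / K(x)`.

# WP-A (item 66): ultrametric inequality, separation of places, `PlacesAlgebraStatement`
-/

set_option autoImplicit false
set_option linter.unusedSectionVars false
set_option linter.style.haveILetI false

open AlgebraicCurve Polynomial IsDedekindDomain IntermediateField

noncomputable section

namespace Fermat.Agent.S18.FFl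

open Fermat.Agent.FF

section Ultrametric

variable {K F : Type*} [Field K] [Field F] [Algebra K F]

/-- The ultrametric inequality for the order function of a place. -/
theorem ord_add_ge_min (v : Place K F) {f g : F} (hf : f ≠ 0) (hg : g ≠ 0) (hfg : f + g ≠ 0) :
    min (v.ord f) (v.ord g) ≤ v.ord (f + g) := by
  have h := Valuation.map_add v.adicValuation f g
  have hf' := v.adicValuation_ne_zero hf
  have hg' := v.adicValuation_ne_zero hg
  have hfg' := v.adicValuation_ne_zero hfg
  unfold Place.ord
  rcases le_max_iff.mp h with h1 | h1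
  · have := (WithZero.log_le_log hfg' hf').mpr h1
    exact (min_le_left _ _).trans (by omega)
  · have := (WithZero.log_le_log hfg' hg').mpr h1
    exact (min_le_right _ _).trans (by omega)

theorem ord_neg (v : Place K F) (f : F) : v.ord (-f) = v.ord f := by
  unfold Place.ord
  rw [Valuation.map_neg]

/-- A place lies over at most one value of `x`. -/
theorem placesOver_disjoint (x : F) {a b : K} (v : Place K F)
    (ha : v ∈ placesOver x a) (hb : v ∈ placesOver x b) : a = b := by
  by_contra hab
  have ha' : 0 < v.ord (x - algebraMap K F a) := ha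
  have hb' : 0 < v.ord (x - algebraMap K F b) := hb
  have hne1 : x - algebraMap K F a ≠ 0 := fun h => by rw [h, v.ord_zero] at ha'; omega
  have hne2 : -(x - algebraMap K F b) ≠ 0 := fun h => by
    rw [neg_eq_zero] at h; rw [h, v.ord_zero] at hb'; omega
  have hsum : (x - algebraMap K F a) + -(x - algebraMap K F b) = algebraMap K F (b - a) := by
    rw [map_sub]; ring
  have hba : b - a ≠ 0 := sub_ne_zero.mpr (Ne.symm hab)
  have hne3 : (x - algebraMap K F a) + -(x - algebraMap K F b) ≠ 0 := by
    rw [hsum]
    exact (map_ne_zero (algebraMap K F)).mpr hba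
  have := ord_add_ge_min v hne1 hne2 hne3
  rw [hsum, ord_algebraMap, ord_neg] at this
  rcases min_le_iff.mp this with h | h <;> omega

theorem placesOver_inf_disjoint (x : F) {a : K} (v : Place K F)
    (ha : v ∈ placesOver x a) (hinf : v ∈ placesOverInf (K := K) x) : False := by
  have ha' : 0 < v.ord (x - algebraMap K F a) := ha
  have hinf' : v.ord x < 0 := hinf
  have hx0 : x ≠ 0 := fun h => by rw [h, v.ord_zero] at hinf'; omega
  have hne1 : x - algebraMap K F a ≠ 0 := fun h => by rw [h, v.ord_zero] at ha'; omega
  rcases eq_or_ne a 0 with rfl | ha0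
  · rw [map_zero, sub_zero] at ha'
    omega
  have hne2 : algebraMap K F a ≠ 0 := (map_ne_zero (algebraMap K F)).mpr ha0
  have hsum : (x - algebraMap K F a) + algebraMap K F a = x := by ring
  have := ord_add_ge_min v hne1 hne2 (by rw [hsum]; exact hx0)
  rw [hsum, ord_algebraMap] at this
  rcases min_le_iff.mp this with h | h <;> omega

end Ultrametric

section SeparationCtx

variable {K F : Type*} [Field K] [Field F] [Algebra K F] [IsAlgClosed K]
variable [Algebra K[X] F] [IsScalarTower K K[X] F]
variable [Algebra (RatFunc K) F] [IsScalarTower K[X] (RatFunc K) F]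
variable [FiniteDimensional (RatFunc K) F] [Algebra.IsSeparable (RatFunc K) F]

open scoped Classical in
/-- The center of a place on `intB K F`, or `⊥` if `x ∉ O_v`. -/
def centerOrBot (u : Place K F) : Ideal (intB K F) :=
  if h : genX K F ∈ u.toValuationSubring then (center u h).asIdeal else ⊥

theorem centerOrBot_eq (u : Place K F) (h : genX K F ∈ u.toValuationSubring) :
    centerOrBot u = (center u h).asIdeal := by
  unfold centerOrBot
  rw [dif_pos h]

instance centerOrBot_isPrime (u : Place K F) : (centerOrBot u).IsPrime := by
  unfold centerOrBot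
  split_ifs with h
  · exact (center u h).isPrime
  · exact Ideal.isPrime_bot

/-- Separation of finitely many places all of whose valuation rings contain `x`. -/
theorem separation_ctx (v : Place K F) (s : Finset (Place K F)) (hvs : v ∉ s)
    (hv : genX K F ∈ v.toValuationSubring)
    (hs : ∀ u ∈ s, genX K F ∈ u.toValuationSubring) :
    ∃ f : F, f ≠ 0 ∧ 0 < v.ord f ∧ ∀ u ∈ s, u.ord f = 0 := by
  classical
  -- prime avoidance
  set T : Finset (Ideal (intB K F)) := insert ⊥ (s.image centerOrBot) with hT
  have key := Ideal.subset_union_prime (R := intB K F) (f := fun q : Ideal (intB K F) => q)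
      (s := T) ⊥ ⊥ (by
        intro q hq hq1 _
        rw [hT, Finset.mem_insert] at hq
        rcases hq with rfl | hq
        · exact absurd rfl hq1
        · obtain ⟨u, -, rfl⟩ := Finset.mem_image.mp hq
          infer_instance) (I := (center v hv).asIdeal)
  have hno : ¬ ∃ q ∈ T, (center v hv).asIdeal ≤ q := by
    rintro ⟨q, hq, hle⟩
    rw [hT, Finset.mem_insert] at hq
    rcases hq with rfl | hq
    · exact (center v hv).ne_bot (le_bot_iff.mp hle)
    · obtain ⟨u, hu, rfl⟩ := Finset.mem_image.mp hq
      have hux := hs u hu
      rw [centerOrBot_eq u hux] at hle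
      have hmax : (center v hv).asIdeal.IsMaximal := (center v hv).isMaximal
      have heq : (center v hv).asIdeal = (center u hux).asIdeal :=
        hmax.eq_of_le (center u hux).isPrime.ne_top hle
      have heq' : center v hv = center u hux := HeightOneSpectrum.ext heq
      have : v = u := by
        rw [eq_ofHeightOneSpectrum_center v hv, eq_ofHeightOneSpectrum_center u hux, heq']
      exact hvs (this ▸ hu)
  have havoid := mt key.mp hno
  rw [Set.not_subset] at havoid
  obtain ⟨b, hbv, hbs⟩ := havoid
  simp only [Set.mem_iUnion, SetLike.mem_coe, exists_prop, not_exists, not_and] at hbs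
  have hb0 : b ≠ 0 := by
    intro h
    exact hbs ⊥ (by rw [hT]; exact Finset.mem_insert_self _ _) (h ▸ Ideal.zero_mem _)
  refine ⟨(b : F), by simpa using hb0, ?_, ?_⟩
  · have := (ord_pos_iff_mem_asIdeal (K := K) (F := F) (center v hv) hb0).mpr hbv
    rwa [← eq_ofHeightOneSpectrum_center v hv] at this
  · intro u hu
    have hux := hs u hu
    have h1 : 0 ≤ u.ord (b : F) := ord_nonneg_of_mem u (inclB u hux b).2
    have h2 : ¬ 0 < u.ord (b : F) := by
      intro hpos
      have hmem : b ∈ (center u hux).asIdeal := by
        rw [← ord_pos_iff_mem_asIdeal (K := K) (F := F) (center u hux) hb0,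
          ← eq_ofHeightOneSpectrum_center u hux]
        exact hpos
      refine hbs (centerOrBot u)
        (by rw [hT]; exact Finset.mem_insert_of_mem (Finset.mem_image_of_mem _ hu)) ?_
      rw [centerOrBot_eq u hux]
      exact hmem
    omega

end SeparationCtx

section Separation

variable {K F : Type*} [Field K] [Field F] [Algebra K F] [IsAlgClosed K]

/-- Separation of places whose valuation rings contain a given transcendental `x`. -/
theorem separation_of_mem (x : F) (hx : Transcendental K x) [FiniteDimensional K⟮x⟯ F] [Algebra.IsSeparable K⟮x⟯ F]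
    (v : Place K F) (s : Finset (Place K F)) (hvs : v ∉ s)
    (hv : x ∈ v.toValuationSubring) (hs : ∀ u ∈ s, x ∈ u.toValuationSubring) :
    ∃ f : F, f ≠ 0 ∧ 0 < v.ord f ∧ ∀ u ∈ s, u.ord f = 0 :=
  ctx_elim x hx fun hgen _ _ =>
    separation_ctx (K := K) (F := F) v s hvs (hgen ▸ hv) (fun u hu => hgen ▸ hs u hu)

end Separation

end Fermat.Agent.S18.FFl
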