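import Mathlib
import Fermat.Agent.FF.Interface2
import Fermat.Agent.S18.RRl.Sep

/-!
# 87-P1 (helper9): support of a function and constants, in ANY characteristic

`K` algebraically closed, `x : F` transcendental with `F / K(x)` finite separable.  The char-0
library used the chart `K(h)` of an arbitrary `h`; in characteristic `l` the extension `F / K(h)`
may be inseparable, so here everything is done in the charts `x` and `x⁻¹`:

* `ord_support_finite` : the divisor of any `h : F` has finite support (Dedekind domain `intB`);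
* `exists_const_of_forall_ord_nonneg` : a function without poles is constant (the minimal
  polynomial over `K(x)` has coefficients in `K[x] ∩ K[x⁻¹] = K`).
-/

set_option autoImplicit false
set_option linter.unusedSectionVars false
set_option linter.style.haveILetI false

open AlgebraicCurve Polynomial IsDedekindDomain IntermediateField

noncomputable section

namespace Fermat.Agent.S18.RRl

open Fermat.Agent.FF Fermat.Agent.S18.FFl

variable {K F : Type*} [Field K] [Field F] [Algebra K F]

section PolyOrd

/-- polynomials in `x` are integral at the places where `x` is -/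
theorem aeval_mem_valuationSubring (v : Place K F) {x : F} (hx : x ∈ v.toValuationSubring)
    (p : K[X]) : aeval x p ∈ v.toValuationSubring := by
  induction p using Polynomial.induction_on' with
  | add p q hp hq => rw [map_add]; exact add_mem hp hq
  | monomial n a =>
    rw [aeval_monomial]
    exact mul_mem (v.algebraMap_mem' a) (pow_mem hx n)

/-- a polynomial in `y` with nonzero constant term is a unit at the zeros of `y` -/
theorem ord_aeval_eq_zero_of_pos (v : Place K F) {y : F} (hy : 0 < v.ord y) (q : K[X])
    (hq : q.coeff 0 ≠ 0) : v.ord (aeval y q) = 0 := by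
  have hy0 : y ≠ 0 := by
    rintro rfl
    rw [v.ord_zero] at hy
    omega
  have hymem : y ∈ v.toValuationSubring := mem_of_ord_nonneg v hy0 hy.le
  -- q = divX q * X + C (q.coeff 0)
  have hdecomp : aeval y q = aeval y q.divX * y + algebraMap K F (q.coeff 0) := by
    conv_lhs => rw [← Polynomial.divX_mul_X_add q]
    simp
  have hc : v.ord (algebraMap K F (q.coeff 0)) = 0 := ord_algebraMap v _
  have hc0 : algebraMap K F (q.coeff 0) ≠ 0 := (_root_.map_ne_zero _).mpr hq
  by_cases h1 : aeval y q.divX * y = 0
  · rw [hdecomp, h1, zero_add, hc]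
  have hd0 : aeval y q.divX ≠ 0 := left_ne_zero_of_mul h1
  have h2 : 0 < v.ord (aeval y q.divX * y) := by
    rw [v.ord_mul hd0 hy0]
    have := ord_nonneg_of_mem v (aeval_mem_valuationSubring v hymem q.divX)
    omega
  have hsum0 : aeval y q.divX * y + algebraMap K F (q.coeff 0) ≠ 0 := by
    intro h0
    have : aeval y q.divX * y = -algebraMap K F (q.coeff 0) := eq_neg_of_add_eq_zero_left h0
    rw [this, ord_neg, hc] at h2
    omega
  have h3 := ord_add_ge_min v h1 hc0 hsum0
  rw [hc] at h3
  have h4 : 0 ≤ v.ord (aeval y q.divX * y + algebraMap K F (q.coeff 0)) := by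
    rcases min_le_iff.mp h3 with h | h <;> omega
  -- reverse inequality: c = (sum) + (-(first))
  have hneg0 : -(aeval y q.divX * y) ≠ 0 := neg_ne_zero.mpr h1
  have h5 := ord_add_ge_min v hsum0 hneg0 (by
    rw [add_neg_cancel_comm]; exact hc0)
  rw [add_neg_cancel_comm, hc, ord_neg] at h5
  rw [hdecomp]
  rcases min_le_iff.mp h5 with h | h <;> omega

/-- the order of a polynomial in `x` at a pole of `x` -/
theorem ord_aeval_of_neg (v : Place K F) {x : F} (hx : v.ord x < 0) (p : K[X]) (hp : p ≠ 0) :
    v.ord (aeval x p) = p.natDegree * v.ord x := by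
  have hx0 : x ≠ 0 := by
    rintro rfl
    rw [v.ord_zero] at hx
    omega
  have h1 : aeval x p = aeval x⁻¹ p.reverse * x ^ p.natDegree := by
    letI : Invertible x := invertibleOfNonzero hx0
    have := Polynomial.eval₂_reverse_mul_pow (algebraMap K F) x p
    rw [invOf_eq_inv] at this
    rw [Polynomial.aeval_def, Polynomial.aeval_def]
    exact this.symm
  have h2 : v.ord (aeval x⁻¹ p.reverse) = 0 := by
    refine ord_aeval_eq_zero_of_pos v (by rw [v.ord_inv]; omega) _ ?_
    rw [Polynomial.coeff_zero_reverse]
    exact Polynomial.leadingCoeff_ne_zero.mpr hp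
  have h3 : aeval x⁻¹ p.reverse ≠ 0 := by
    intro h0
    have hc : (p.reverse).coeff 0 ≠ 0 := by
      rw [Polynomial.coeff_zero_reverse]
      exact Polynomial.leadingCoeff_ne_zero.mpr hp
    -- order zero and value zero are compatible, so argue via the product
    have hdecomp : aeval x⁻¹ p.reverse =
        aeval x⁻¹ p.reverse.divX * x⁻¹ + algebraMap K F (p.reverse.coeff 0) := by
      conv_lhs => rw [← Polynomial.divX_mul_X_add p.reverse]
      simp
    rw [h0] at hdecomp
    have h4 : aeval x⁻¹ p.reverse.divX * x⁻¹ = -algebraMap K F (p.reverse.coeff 0) :=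
      eq_neg_of_add_eq_zero_left hdecomp.symm
    have hxi : 0 < v.ord x⁻¹ := by rw [v.ord_inv]; omega
    have hximem : x⁻¹ ∈ v.toValuationSubring := mem_of_ord_nonneg v (inv_ne_zero hx0) hxi.le
    have hd0 : aeval x⁻¹ p.reverse.divX ≠ 0 := by
      intro hd
      rw [hd, zero_mul] at h4
      exact (_root_.map_ne_zero (algebraMap K F)).mpr hc (neg_eq_zero.mp h4.symm)
    have h5 := congrArg v.ord h4
    rw [v.ord_mul hd0 (inv_ne_zero hx0), ord_neg, ord_algebraMap] at h5
    have := ord_nonneg_of_mem v (aeval_mem_valuationSubring v hximem p.reverse.divX)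
    omega
  rw [h1, v.ord_mul h3 (pow_ne_zero _ hx0), h2, zero_add, ← zpow_natCast, v.ord_zpow]

end PolyOrd

end Fermat.Agent.S18.RRl

namespace Fermat.Agent.S18.FFl

open Fermat.Agent.FF Fermat.Agent.S18.RRl

section OrdAdic2

variable {K F : Type*} [Field K] [Field F] [Algebra K F]
variable {R : Type*} [CommRing R] [IsDedekindDomain R] [Algebra R F] [IsFractionRing R F]
  [Algebra K R] [IsScalarTower K R F]

theorem one_lt_valuation_iff_ord_neg (w : HeightOneSpectrum R) (f : F) :
    1 < w.valuation F f ↔ (Place.ofHeightOneSpectrum (K := K) w : Place K F).ord f < 0 := by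
  rw [ord_ofHeightOneSpectrum]
  rcases eq_or_ne f 0 with rfl | hf
  · simp
  have hne : w.valuation F f ≠ 0 := (Valuation.ne_zero_iff _).mpr hf
  constructor
  · intro h
    rw [← WithZero.exp_log hne, ← WithZero.exp_zero, WithZero.exp_lt_exp] at h
    omega
  · intro h
    rw [← WithZero.exp_log hne, ← WithZero.exp_zero, WithZero.exp_lt_exp]
    omega

theorem valuation_le_one_iff_ord_nonneg (w : HeightOneSpectrum R) (f : F) :
    w.valuation F f ≤ 1 ↔ 0 ≤ (Place.ofHeightOneSpectrum (K := K) w : Place K F).ord f := by
  rw [← not_lt, one_lt_valuation_iff_ord_neg (K := K), not_lt]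

end OrdAdic2

section Ctx

variable {K F : Type*} [Field K] [Field F] [Algebra K F] [IsAlgClosed K]
variable [Algebra K[X] F] [IsScalarTower K K[X] F]
variable [Algebra (RatFunc K) F] [IsScalarTower K[X] (RatFunc K) F]
variable [FiniteDimensional (RatFunc K) F] [Algebra.IsSeparable (RatFunc K) F]

theorem algebraMap_eq_aeval_genX (p : K[X]) : algebraMap K[X] F p = aeval (genX K F) p := by
  have h := Polynomial.aeval_algHom_apply (IsScalarTower.toAlgHom K K[X] F) (X : K[X]) p
  rw [Polynomial.aeval_X_left_apply] at h
  exact h.symm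

/-- finitely many places with `x ∈ O_v` are poles of `h` -/
theorem finite_pole_ctx (h : F) :
    {v : Place K F | genX K F ∈ v.toValuationSubring ∧ v.ord h < 0}.Finite := by
  have hfin := IsDedekindDomain.HeightOneSpectrum.Support.finite (intB K F) (K := F) h
  refine (hfin.image (fun w => (Place.ofHeightOneSpectrum (K := K) w : Place K F))).subset ?_
  rintro v ⟨hx, hv⟩
  refine ⟨center v hx, ?_, (eq_ofHeightOneSpectrum_center v hx).symm⟩
  show 1 < (center v hx).valuation F h
  rw [one_lt_valuation_iff_ord_neg (K := K), ← eq_ofHeightOneSpectrum_center v hx]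
  exact hv

theorem genX_mem_ofHeightOneSpectrum (w : HeightOneSpectrum (intB K F)) :
    genX K F ∈ (Place.ofHeightOneSpectrum (K := K) w : Place K F).toValuationSubring := by
  show genX K F ∈ (w.valuation F).valuationSubring
  rw [Valuation.mem_valuationSubring_iff]
  have : genX K F = algebraMap (intB K F) F (algebraMap K[X] (intB K F) X) := rfl
  rw [this]
  exact w.valuation_le_one _

/-- a function without poles at the places with `x ∈ O_v` is integral over `K[x]` -/
theorem isIntegral_of_forall_ord_nonneg_ctx (f : F)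
    (hf : ∀ v : Place K F, genX K F ∈ v.toValuationSubring → 0 ≤ v.ord f) :
    IsIntegral K[X] f := by
  have hmem : f ∈ (algebraMap (intB K F) F).range :=
    IsDedekindDomain.HeightOneSpectrum.mem_integers_of_valuation_le_one F f (fun w => by
      rw [valuation_le_one_iff_ord_nonneg (K := K)]
      exact hf _ (genX_mem_ofHeightOneSpectrum w))
  obtain ⟨b, rfl⟩ := hmem
  exact b.2

theorem minpoly_coeff_ctx (f : F) (hf : IsIntegral K[X] f) (i : ℕ) :
    ∃ a : K[X], (minpoly (RatFunc K) f).coeff i = algebraMap K[X] (RatFunc K) a := by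
  rw [minpoly.isIntegrallyClosed_eq_field_fractions' (RatFunc K) hf]
  exact ⟨(minpoly K[X] f).coeff i, Polynomial.coeff_map _ _⟩

end Ctx

section Wrapper

variable {K F : Type*} [Field K] [Field F] [Algebra K F] [IsAlgClosed K]
variable (x : F) (hx : Transcendental K x) [FiniteDimensional K⟮x⟯ F] [Algebra.IsSeparable K⟮x⟯ F]

include hx

/-- finitely many places with `0 ≤ ord x` are poles of `h` -/
theorem finite_pole (h : F) : {v : Place K F | 0 ≤ v.ord x ∧ v.ord h < 0}.Finite :=
  ctx_elim x hx fun hgen _ _ => by
    refine (finite_pole_ctx (K := K) (F := F) h).subset ?_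
    rintro v ⟨h1, h2⟩
    refine ⟨?_, h2⟩
    rw [hgen]
    exact mem_of_ord_nonneg v (ne_zero_of_transcendental x hx) h1

/-- **The divisor of a function has finite support** (any characteristic). -/
theorem ord_support_finite (h : F) : {v : Place K F | v.ord h ≠ 0}.Finite := by
  refine (((finite_pole x hx h).union (finite_pole x hx h⁻¹)).union
    (placesOverInf_finite (K := K) x hx)).subset ?_
  intro v hv
  simp only [Set.mem_ofPred_eq] at hv
  by_cases hvx : v.ord x < 0
  · exact Or.inr hvx
  · left
    rcases lt_or_gt_of_ne hv with h1 | h1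
    · exact Or.inl ⟨not_lt.mp hvx, h1⟩
    · refine Or.inr ⟨not_lt.mp hvx, ?_⟩
      rw [v.ord_inv]
      omega

/-- the coefficients of the minimal polynomial over `K(x)` of a function without poles at the
places with `0 ≤ ord x` are polynomials in `x` -/
theorem minpoly_coeff_mem_range (f : F) (hf : ∀ v : Place K F, 0 ≤ v.ord x → 0 ≤ v.ord f)
    (i : ℕ) :
    ∃ a : K[X], algebraMap K⟮x⟯ F ((minpoly K⟮x⟯ f).coeff i) = aeval x a :=
  ctx_elim x hx fun hgen _ hmap' => by
    have hint := isIntegral_of_forall_ord_nonneg_ctx (K := K) f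
      (fun v hv => hf v (ord_nonneg_of_mem v (hgen ▸ hv)))
    obtain ⟨a, ha⟩ := minpoly_coeff_ctx (K := K) f hint i
    refine ⟨a, ?_⟩
    have hmp : (minpoly (RatFunc K) f).map
        ((RatFunc.algEquivOfTranscendental x hx).toRingEquiv : RatFunc K →+* K⟮x⟯) =
        minpoly K⟮x⟯ f := by
      have := minpoly.map_eq_of_equiv_equiv (A := K⟮x⟯) (R := RatFunc K) (S := F) (T := F)
        (f := (RatFunc.algEquivOfTranscendental x hx).toRingEquiv) (g := RingEquiv.refl F)
        (by
          ext u
          exact (hmap' u).symm) f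
      simpa using this
    rw [← hmp, Polynomial.coeff_map, ha]
    have h1 := hmap' (algebraMap K[X] (RatFunc K) a)
    rw [← IsScalarTower.algebraMap_apply K[X] (RatFunc K) F, algebraMap_eq_aeval_genX, hgen] at h1
    rw [h1]
    rfl

end Wrapper

section Const

variable {K F : Type*} [Field K] [Field F] [Algebra K F] [IsAlgClosed K]

/-- An element of `F` algebraic over the algebraically closed field `K` is a constant. -/
theorem exists_algebraMap_eq_of_isAlgebraic {h : F} (hh : IsAlgebraic K h) :
    ∃ c : K, algebraMap K F c = h := by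
  have hint : IsIntegral K h := hh.isIntegral
  have hdeg := IsAlgClosed.degree_eq_one_of_irreducible K (minpoly.irreducible hint)
  exact minpoly.mem_range_of_degree_eq_one K h hdeg

theorem minpoly_coeff_congr {E₁ E₂ : IntermediateField K F} (h : E₁ = E₂) (f : F) (i : ℕ) :
    algebraMap E₁ F ((minpoly E₁ f).coeff i) = algebraMap E₂ F ((minpoly E₂ f).coeff i) := by
  subst h; rfl

variable (x : F) (hx : Transcendental K x) [FiniteDimensional K⟮x⟯ F] [Algebra.IsSeparable K⟮x⟯ F]

include hx

/-- `K[x] ∩ K[x⁻¹] = K` -/
theorem const_of_aeval_eq_aeval_inv (a b : K[X]) (h : aeval x a = aeval x⁻¹ b) :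
    aeval x a = algebraMap K F (a.coeff 0) := by
  obtain ⟨v, hv⟩ := placesOverInf_nonempty (K := K) x hx
  have hv' : v.ord x < 0 := hv
  have hx0 : x ≠ 0 := ne_zero_of_transcendental x hx
  by_cases ha : a = 0
  · subst ha; simp
  have h1 := ord_aeval_of_neg v hv' a ha
  have hxi : x⁻¹ ∈ v.toValuationSubring :=
    mem_of_ord_nonneg v (inv_ne_zero hx0) (by rw [v.ord_inv]; omega)
  have h2 := ord_nonneg_of_mem v (aeval_mem_valuationSubring v hxi b)
  rw [← h, h1] at h2
  have hdeg : a.natDegree = 0 := by
    by_contra hne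
    have hpos : (1 : ℤ) ≤ (a.natDegree : ℤ) := by exact_mod_cast Nat.one_le_iff_ne_zero.mpr hne
    nlinarith
  rw [Polynomial.eq_C_of_natDegree_eq_zero hdeg]
  simp

/-- **A function without poles is constant** (any characteristic). -/
theorem exists_const_of_forall_ord_nonneg (f : F) (hf : ∀ v : Place K F, 0 ≤ v.ord f) :
    ∃ c : K, algebraMap K F c = f := by
  haveI := finiteDimensional_congr_intermediateField (adjoin_simple_inv_eq (K := K) x).symm
    inferInstance
  haveI := isSeparable_congr_intermediateField (adjoin_simple_inv_eq (K := K) x).symm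
    inferInstance
  apply exists_algebraMap_eq_of_isAlgebraic
  have hcoeff : ∀ i, (minpoly K⟮x⟯ f).coeff i ∈ Set.range (algebraMap K K⟮x⟯) := by
    intro i
    obtain ⟨a, ha⟩ := minpoly_coeff_mem_range x hx f (fun v _ => hf v) i
    obtain ⟨b, hb⟩ := minpoly_coeff_mem_range x⁻¹ (transcendental_inv hx) f (fun v _ => hf v) i
    rw [minpoly_coeff_congr (adjoin_simple_inv_eq (K := K) x) f i, ha] at hb
    have hc := const_of_aeval_eq_aeval_inv x hx a b hb
    refine ⟨a.coeff 0, ?_⟩
    apply (algebraMap K⟮x⟯ F).injective
    rw [ha, hc, ← IsScalarTower.algebraMap_apply]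
  obtain ⟨q, hq⟩ := (Polynomial.lifts_iff_coeff_lifts _).mpr hcoeff
  rw [Polynomial.coe_mapRingHom] at hq
  have hint : IsIntegral K⟮x⟯ f := Algebra.IsIntegral.isIntegral f
  have hq0 : q ≠ 0 := by
    rintro rfl
    rw [Polynomial.map_zero] at hq
    exact minpoly.ne_zero hint hq.symm
  refine ⟨q, hq0, ?_⟩
  have h1 : aeval f (q.map (algebraMap K K⟮x⟯)) = 0 := by
    rw [hq]; exact minpoly.aeval _ _
  rwa [Polynomial.aeval_map_algebraMap] at h1

end Const

end Fermat.Agent.S18.FFl
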