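import Mathlib
import Fermat.Agent.RR.AIndex

/-!
# S18, piece 87-P1-D: the abstract Weil pairing (no trace, no different)

From the index formula (`RiemannData`), the one-dimensional steps of the two lattices and the
vanishing of `H¹` in large degree: there are a divisor `W` and a functional `ρ : F → K` such that
the annihilator of `Λ(D)` for the pairing `ρ (f g)` is `Λ(W - D)`, for both charts.
-/

set_option autoImplicit false

open AlgebraicCurve WithZero

noncomputable section

namespace Fermat.Agent.S18.RRl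

open Fermat.Agent.RR

variable {K F : Type*} [Field K] [Field F] [Algebra K F]

/-- the lattice of a chart `S` (a set of places) -/
def lamS (S : Set (Place K F)) (D : Divisor K F) : Submodule K F where
  carrier := {f | ∀ v : Place K F, v ∈ S → v.adicValuation f ≤ exp (D v)}
  zero_mem' := by
    intro v _
    simp
  add_mem' := by
    intro f g hf hg v hv
    exact (Valuation.map_add _ _ _).trans (max_le (hf v hv) (hg v hv))
  smul_mem' := by
    intro c f hf v hv
    show v.adicValuation (c • f) ≤ exp (D v)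
    rw [Algebra.smul_def, map_mul]
    exact (mul_le_of_le_one_left' (v.adicValuation_algebraMap_le_one c)).trans (hf v hv)

theorem mem_lamS_iff {S : Set (Place K F)} {D : Divisor K F} {f : F} (hf : f ≠ 0) :
    f ∈ lamS S D ↔ ∀ v : Place K F, v ∈ S → -D v ≤ v.ord f := by
  show (∀ v : Place K F, v ∈ S → v.adicValuation f ≤ exp (D v)) ↔ _
  refine forall_congr' fun v => imp_congr_right fun _ => ?_
  rw [v.adicValuation_le_exp_iff, or_iff_right hf]

theorem lamS_mono {S : Set (Place K F)} {D D' : Divisor K F} (h : ∀ v ∈ S, D v ≤ D' v) :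
    lamS S D ≤ lamS S D' :=
  fun _ hf v hv => (hf v hv).trans (exp_le_exp.mpr (h v hv))

theorem mul_mem_lamS {S : Set (Place K F)} {A B : Divisor K F} {f g : F}
    (hf : f ∈ lamS S A) (hg : g ∈ lamS S B) : f * g ∈ lamS S (A + B) := by
  intro v hv
  rw [map_mul, Finsupp.add_apply, exp_add]
  exact mul_le_mul' (hf v hv) (hg v hv)

theorem lamFin_eq_lamS (x : F) (D : Divisor K F) :
    lamFin x D = lamS {v : Place K F | 0 ≤ v.ord x} D := rfl

theorem lamInf_eq_lamS (x : F) (D : Divisor K F) :
    lamInf x D = lamS {v : Place K F | v.ord x < 0} D := rfl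

/-- the one-dimensional steps of the chart `S` -/
def StepS (S : Set (Place K F)) : Prop :=
  ∀ (D : Divisor K F) (v : Place K F), v ∈ S → ∃ a : F, a ∉ lamS S D ∧
    lamS S (D + Finsupp.single v 1) = lamS S D ⊔ Submodule.span K {a}

theorem ord_of_step {S : Set (Place K F)} {D : Divisor K F} {v : Place K F} {a : F}
    (ha : a ∈ lamS S (D + Finsupp.single v 1)) (ha' : a ∉ lamS S D) :
    a ≠ 0 ∧ v ∈ S ∧ v.ord a = -D v - 1 := by
  classical
  have ha0 : a ≠ 0 := by
    rintro rfl
    exact ha' (Submodule.zero_mem _)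
  rw [mem_lamS_iff ha0] at ha ha'
  push Not at ha'
  obtain ⟨w, hw, hlt⟩ := ha'
  have h1 := ha w hw
  rw [Finsupp.add_apply, Finsupp.single_apply] at h1
  by_cases hvw : v = w
  · subst hvw
    rw [if_pos rfl] at h1
    exact ⟨ha0, hw, by omega⟩
  · rw [if_neg hvw] at h1
    omega

theorem lamS_le_add_single (S : Set (Place K F)) (D : Divisor K F) (v : Place K F) :
    lamS S D ≤ lamS S (D + Finsupp.single v 1) := by
  classical
  apply lamS_mono
  intro w _
  rw [Finsupp.add_apply, Finsupp.single_apply]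
  split_ifs <;> omega

/-- any element of `Λ(D + v)` outside `Λ(D)` generates the step -/
theorem lamS_step_any {S : Set (Place K F)} (hS : StepS S) {D : Divisor K F} {v : Place K F}
    {a : F} (hv : v ∈ S) (ha : a ∈ lamS S (D + Finsupp.single v 1)) (ha' : a ∉ lamS S D) :
    lamS S (D + Finsupp.single v 1) = lamS S D ⊔ Submodule.span K {a} := by
  obtain ⟨a₀, -, h₀⟩ := hS D v hv
  apply le_antisymm
  · rw [h₀]
    refine sup_le le_sup_left ?_
    rw [Submodule.span_le, Set.singleton_subset_iff, SetLike.mem_coe]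
    rw [h₀] at ha
    obtain ⟨f, hf, z, hz, hfz⟩ := Submodule.mem_sup.mp ha
    obtain ⟨c, rfl⟩ := Submodule.mem_span_singleton.mp hz
    have hc : c ≠ 0 := by
      rintro rfl
      rw [zero_smul, add_zero] at hfz
      exact ha' (hfz ▸ hf)
    have : a₀ = c⁻¹ • a - c⁻¹ • f := by
      rw [← hfz, smul_add, smul_smul, inv_mul_cancel₀ hc, one_smul]
      abel
    rw [this]
    exact Submodule.sub_mem _
      (Submodule.mem_sup_right (Submodule.smul_mem _ _ (Submodule.mem_span_singleton_self a)))
      (Submodule.mem_sup_left (Submodule.smul_mem _ _ hf))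
  · refine sup_le (lamS_le_add_single S D v) ?_
    rw [Submodule.span_le, Set.singleton_subset_iff]
    exact ha

section Chart

variable {S : Set (Place K F)} (hS : StepS S) (ρ : F →ₗ[K] K) {W : Divisor K F}
  (hW : lamS S W ≤ LinearMap.ker ρ)
  (hmax : ∀ v ∈ S, ¬ lamS S (W + Finsupp.single v 1) ≤ LinearMap.ker ρ)

include hS hW hmax in
/-- the divisors whose lattice is killed by `ρ` are those below `W` (on the chart) -/
theorem chart_iff (D : Divisor K F) :
    lamS S D ≤ LinearMap.ker ρ ↔ ∀ v ∈ S, D v ≤ W v := by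
  classical
  constructor
  · intro hD
    by_contra hcon
    push Not at hcon
    obtain ⟨v, hv, hlt⟩ := hcon
    apply hmax v hv
    -- an element of `Λ(D ⊓ W + v)` outside `Λ(D ⊓ W)`
    obtain ⟨a, ha', hstep⟩ := hS (D ⊓ W) v hv
    have ha : a ∈ lamS S (D ⊓ W + Finsupp.single v 1) := by
      rw [hstep]
      exact Submodule.mem_sup_right (Submodule.mem_span_singleton_self a)
    obtain ⟨ha0, -, hord⟩ := ord_of_step ha ha'
    have hXv : (D ⊓ W) v = W v := by
      rw [Finsupp.inf_apply]
      exact min_eq_right (by omega)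
    have haD : a ∈ lamS S D := by
      refine lamS_mono (fun w _ => ?_) ha
      rw [Finsupp.add_apply, Finsupp.inf_apply, Finsupp.single_apply]
      split_ifs with hvw
      · subst hvw
        have : min (D v) (W v) = W v := min_eq_right (by omega)
        omega
      · have := min_le_left (D w) (W w)
        omega
    have haW : a ∈ lamS S (W + Finsupp.single v 1) := by
      refine lamS_mono (fun w _ => ?_) ha
      rw [Finsupp.add_apply, Finsupp.add_apply, Finsupp.inf_apply]
      have := min_le_right (D w) (W w)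
      omega
    have haW' : a ∉ lamS S W := by
      intro h
      have := (mem_lamS_iff ha0).mp h v hv
      omega
    rw [lamS_step_any hS hv haW haW']
    refine sup_le hW ?_
    rw [Submodule.span_le, Set.singleton_subset_iff]
    exact hD haD
  · intro h
    exact (lamS_mono h).trans hW

include hS hW hmax in
/-- the annihilator of `Λ(D)` is `Λ(W - D)` -/
theorem chart_annihilator (hdiv : ∀ g : F, g ≠ 0 → ∃ G : Divisor K F, ∀ v, G v = v.ord g)
    (D : Divisor K F) (g : F) :
    (∀ f ∈ lamS S D, ρ (f * g) = 0) ↔ g ∈ lamS S (W - D) := by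
  constructor
  · intro h
    rcases eq_or_ne g 0 with rfl | hg
    · exact Submodule.zero_mem _
    obtain ⟨G, hG⟩ := hdiv g hg
    have hT : lamS S (D - G) ≤ LinearMap.ker ρ := by
      intro f' hf'
      rw [LinearMap.mem_ker]
      rcases eq_or_ne f' 0 with rfl | hf'0
      · simp
      have hmem : f' * g⁻¹ ∈ lamS S D := by
        rw [mem_lamS_iff (mul_ne_zero hf'0 (inv_ne_zero hg))]
        intro v hv
        have := (mem_lamS_iff hf'0).mp hf' v hv
        rw [Finsupp.sub_apply, hG] at this
        rw [v.ord_mul hf'0 (inv_ne_zero hg), v.ord_inv]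
        omega
      have := h _ hmem
      rwa [inv_mul_cancel_right₀ hg] at this
    have := (chart_iff hS ρ hW hmax (D - G)).mp hT
    rw [mem_lamS_iff hg]
    intro v hv
    have := this v hv
    rw [Finsupp.sub_apply, hG] at this
    rw [Finsupp.sub_apply]
    omega
  · intro hg f hf
    have := mul_mem_lamS hf hg
    rw [add_sub_cancel] at this
    exact LinearMap.mem_ker.mp (hW this)

end Chart

/-- **87-P1-D**: the abstract Weil pairing. -/
theorem exists_pairing_abstract (x : F)
    (hR : Fermat.Agent.RR.RiemannData K x)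
    (hFin : ∀ (D : Divisor K F) (v : Place K F), 0 ≤ v.ord x → ∃ a : F, a ∉ lamFin x D ∧
        lamFin x (D + Finsupp.single v 1) = lamFin x D ⊔ Submodule.span K {a})
    (hInf : ∀ (D : Divisor K F) (v : Place K F), v.ord x < 0 → ∃ a : F, a ∉ lamInf x D ∧
        lamInf x (D + Finsupp.single v 1) = lamInf x D ⊔ Submodule.span K {a})
    (hdiv : ∀ g : F, g ≠ 0 → ∃ G : Divisor K F, ∀ v, G v = v.ord g)
    (hvan : ∃ c : ℤ, ∀ D : Divisor K F, c ≤ Divisor.degree D → lamFin x D ⊔ lamInf x D = ⊤)
    (hdeg1 : ∀ v : Place K F, v.deg = 1) (hne : Nonempty (Place K F)) :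
    ∃ (W : Divisor K F) (ρ : F →ₗ[K] K), ∀ (D : Divisor K F) (g : F),
      ((∀ f ∈ lamFin x D, ρ (f * g) = 0) ↔ g ∈ lamFin x (W - D)) ∧
      ((∀ f ∈ lamInf x D, ρ (f * g) = 0) ↔ g ∈ lamInf x (W - D)) := by
  classical
  obtain ⟨P⟩ := hne
  -- step 1: a nonzero functional killing `Λ₀(D₁) + Λ_∞(D₁)`, `deg D₁ = -2`
  set D₁ : Divisor K F := Finsupp.single P (-2) with hD₁
  have hdegD₁ : Divisor.degree D₁ = -2 := by
    rw [hD₁, Divisor.degree_single, hdeg1]; simp
  have hlt : lamFin x D₁ ⊔ lamInf x D₁ < ⊤ := by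
    rw [lt_top_iff_ne_top]
    intro htop
    have h1 := hR.chi_eq D₁
    have h2 := hR.l_neg D₁ (by omega)
    have h3 := hR.l_zero
    have h4 : Module.finrank K (H1' x D₁) = 0 := by
      have : Subsingleton (H1' x D₁) := by
        show Subsingleton (F ⧸ (lamFin x D₁ ⊔ lamInf x D₁))
        exact Submodule.Quotient.subsingleton_iff.mpr htop
      exact Module.finrank_zero_of_subsingleton
    unfold chi at h1
    rw [h2, h3, h4, hdegD₁] at h1
    have : (0 : ℤ) ≤ (Module.finrank K (H1' x (0 : Divisor K F)) : ℤ) := Int.natCast_nonneg _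
    push_cast at h1
    omega
  obtain ⟨ρ, hρ0, hρ⟩ := Submodule.exists_le_ker_of_lt_top _ hlt
  -- step 2: degrees of divisors killed by `ρ` are bounded
  obtain ⟨c, hc⟩ := hvan
  have hbdd : ∀ D : Divisor K F, lamFin x D ⊔ lamInf x D ≤ LinearMap.ker ρ →
      Divisor.degree D < c := by
    intro D hD
    by_contra hcon
    push Not at hcon
    rw [hc D hcon] at hD
    apply hρ0
    ext f
    exact LinearMap.mem_ker.mp (hD trivial)
  -- step 3: a divisor of maximal degree
  obtain ⟨n, ⟨W, hWT, hWn⟩, hnmax⟩ := Int.exists_greatest_of_bdd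
    (P := fun n => ∃ D : Divisor K F, lamFin x D ⊔ lamInf x D ≤ LinearMap.ker ρ ∧
      Divisor.degree D = n)
    ⟨c, fun z ⟨D, hD, hz⟩ => hz ▸ (hbdd D hD).le⟩ ⟨_, D₁, hρ, rfl⟩
  have hWmax : ∀ v : Place K F,
      ¬ lamFin x (W + Finsupp.single v 1) ⊔ lamInf x (W + Finsupp.single v 1) ≤
        LinearMap.ker ρ := by
    intro v hv
    have := hnmax _ ⟨_, hv, rfl⟩
    rw [map_add, Divisor.degree_single, hdeg1, hWn] at this
    simp at this
  have hWfin : lamFin x W ≤ LinearMap.ker ρ := le_sup_left.trans hWT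
  have hWinf : lamInf x W ≤ LinearMap.ker ρ := le_sup_right.trans hWT
  have hmaxfin : ∀ v ∈ {v : Place K F | 0 ≤ v.ord x},
      ¬ lamS {v : Place K F | 0 ≤ v.ord x} (W + Finsupp.single v 1) ≤ LinearMap.ker ρ := by
    intro v hv hle
    apply hWmax v
    refine sup_le hle ?_
    rw [lamInf_add_single_of_nonneg x W v hv]
    exact hWinf
  have hmaxinf : ∀ v ∈ {v : Place K F | v.ord x < 0},
      ¬ lamS {v : Place K F | v.ord x < 0} (W + Finsupp.single v 1) ≤ LinearMap.ker ρ := by
    intro v hv hle
    apply hWmax v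
    refine sup_le ?_ hle
    rw [lamFin_add_single_of_neg x W v hv]
    exact hWfin
  refine ⟨W, ρ, fun D g => ⟨?_, ?_⟩⟩
  · exact chart_annihilator (S := {v : Place K F | 0 ≤ v.ord x}) hFin ρ hWfin hmaxfin hdiv D g
  · exact chart_annihilator (S := {v : Place K F | v.ord x < 0}) hInf ρ hWinf hmaxinf hdiv D g

end Fermat.Agent.S18.RRl
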