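import Mathlib
import Fermat.Agent.RR.Defs
import Fermat.Agent.RR.AIndex
import Fermat.Agent.RR.AFredholm
import Fermat.Agent.S18.RRl.Step

/-!
# 87-P1 (helper9): Riemann data in ANY characteristic (`x` separating)

PORT of `Fermat/Agent/RR/ARiemann.lean` with `CharZero K` replaced by separability of `F / K(x)`.
New compared to characteristic zero (where the chart `K(h)` of any `h` was available):
* `riemannRochSpace_zero` from `exists_const_of_forall_ord_nonneg` (charts `x`, `x⁻¹` only);
* `degree_divOf`, `sum_ord_eq_zero` : principal divisors have degree zero, from the index formula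
  `χ(D) = deg D + χ(0)` and `χ(D + (f)) = χ(D)` (multiplication by `f`);
* `riemannData_sep : RiemannData K x`.
-/

set_option autoImplicit false
set_option linter.unusedSectionVars false
set_option linter.style.haveILetI false

open AlgebraicCurve Polynomial IntermediateField Module Fermat.Agent.FF

noncomputable section

namespace Fermat.Agent.S18.RRl

open Fermat.Agent.RR Fermat.Agent.S18.FFl

variable {K F : Type*} [Field K] [Field F] [Algebra K F]

section Decomp

variable [IsAlgClosed K]
variable (x : F) (hx : Transcendental K x) [FiniteDimensional K⟮x⟯ F] [Algebra.IsSeparable K⟮x⟯ F]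

include hx

/-- `K(x) = K[x] + O_∞` -/
theorem exists_polynomial_add (c : K⟮x⟯) :
    ∃ (p : K[X]) (r : F), (c : F) = aeval x p + r ∧
      ∀ v : Place K F, v.ord x < 0 → 0 ≤ v.ord r := by
  obtain ⟨a, q, hc⟩ := (mem_adjoin_simple_iff K (c : F)).mp c.2
  by_cases hq : q = 0
  · refine ⟨0, 0, ?_, fun v _ => by simp⟩
    rw [hc, hq]
    simp
  have hq' : aeval x q ≠ 0 := fun h0 => hq ((transcendental_iff.mp hx) q h0)
  refine ⟨a / q, aeval x (a % q) / aeval x q, ?_, fun v hv => ?_⟩
  · rw [hc, div_eq_iff hq', add_mul, div_mul_cancel₀ _ hq', ← map_mul, ← map_add]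
    congr 1
    rw [mul_comm]
    exact (EuclideanDomain.div_add_mod a q).symm
  · by_cases hm : a % q = 0
    · rw [hm]; simp
    have hm' : aeval x (a % q) ≠ 0 := fun h0 => hm ((transcendental_iff.mp hx) _ h0)
    rw [div_eq_mul_inv, v.ord_mul hm' (inv_ne_zero hq'), v.ord_inv,
      ord_aeval_of_neg v hv _ hm, ord_aeval_of_neg v hv _ hq]
    have hdeg : (a % q).natDegree ≤ q.natDegree :=
      Polynomial.natDegree_le_natDegree (Polynomial.degree_mod_lt a hq).le
    have : ((a % q).natDegree : ℤ) ≤ (q.natDegree : ℤ) := by exact_mod_cast hdeg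
    nlinarith

/-- the pole divisor of `b` -/
def poleDiv (b : F) : Divisor K F :=
  Finsupp.ofSupportFinite (fun v : Place K F => max (-v.ord b) 0)
    ((ord_support_finite x hx b).subset fun v hv => by
      simp only [Function.mem_support, ne_eq] at hv
      simp only [Set.mem_ofPred_eq]
      intro h0
      apply hv
      rw [h0]
      simp)

theorem poleDiv_apply (b : F) (v : Place K F) : poleDiv x hx b v = max (-v.ord b) 0 := rfl

theorem poleDiv_nonneg (b : F) (v : Place K F) : 0 ≤ poleDiv x hx b v := le_max_right _ _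

theorem neg_ord_le_poleDiv (b : F) (v : Place K F) : -v.ord b ≤ poleDiv x hx b v :=
  le_max_left _ _

/-- **Strong approximation, weak form**: `Λ₀(D₀) + Λ_∞(D₀) = F` for some `D₀`. -/
theorem exists_sup_eq_top : ∃ D₀ : Divisor K F, lamFin x D₀ ⊔ lamInf x D₀ = ⊤ := by
  classical
  have hx0 : x ≠ 0 := ne_zero_of_transcendental x hx
  let bs := Module.finBasis K⟮x⟯ F
  let D₀ : Divisor K F := ∑ i, poleDiv x hx (bs i)
  have hD₀ : ∀ i v, -v.ord (bs i) ≤ D₀ v := by
    intro i v
    refine (neg_ord_le_poleDiv x hx (bs i) v).trans ?_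
    show poleDiv x hx (bs i) v ≤ (∑ j, poleDiv x hx (bs j)) v
    rw [Finsupp.finsetSum_apply]
    exact Finset.single_le_sum (f := fun j => poleDiv x hx (bs j) v)
      (fun j _ => poleDiv_nonneg x hx (bs j) v) (Finset.mem_univ i)
  refine ⟨D₀, eq_top_iff.mpr fun f _ => ?_⟩
  rw [← bs.sum_repr f]
  refine Submodule.sum_mem _ fun i _ => ?_
  obtain ⟨p, r, hc, hr⟩ := exists_polynomial_add x hx (bs.repr f i)
  have hsmul : (bs.repr f i) • bs i = aeval x p * bs i + r * bs i := by
    rw [IntermediateField.smul_def, smul_eq_mul, hc, add_mul]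
  rw [hsmul]
  refine Submodule.add_mem_sup ?_ ?_
  · rw [mem_lamFin_iff]
    intro v hv
    by_cases h0 : aeval x p * bs i = 0
    · exact Or.inl h0
    right
    have hp0 : aeval x p ≠ 0 := left_ne_zero_of_mul h0
    have hb0 : bs i ≠ 0 := right_ne_zero_of_mul h0
    rw [v.ord_mul hp0 hb0]
    have h1 := ord_nonneg_of_mem v (aeval_mem_valuationSubring v (mem_of_ord_nonneg v hx0 hv) p)
    have h2 := hD₀ i v
    omega
  · rw [mem_lamInf_iff]
    intro v hv
    by_cases h0 : r * bs i = 0
    · exact Or.inl h0
    right
    have hr0 : r ≠ 0 := left_ne_zero_of_mul h0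
    have hb0 : bs i ≠ 0 := right_ne_zero_of_mul h0
    rw [v.ord_mul hr0 hb0]
    have h1 := hr v hv
    have h2 := hD₀ i v
    omega

end Decomp

section Basic

variable [IsAlgClosed K]
variable (x : F) (hx : Transcendental K x) [FiniteDimensional K⟮x⟯ F] [Algebra.IsSeparable K⟮x⟯ F]

include hx

/-- functions without poles are constant -/
theorem riemannRochSpace_zero : riemannRochSpace (0 : Divisor K F) = K ∙ (1 : F) := by
  ext f
  rw [mem_riemannRochSpace_iff, Submodule.mem_span_singleton]
  constructor
  · intro h
    have hf : ∀ v : Place K F, 0 ≤ v.ord f := by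
      intro v
      rcases h v with h0 | h0
      · rw [h0, v.ord_zero]
      · simpa using h0
    obtain ⟨c, rfl⟩ := exists_const_of_forall_ord_nonneg x hx f hf
    exact ⟨c, by rw [Algebra.smul_def, mul_one]⟩
  · rintro ⟨c, rfl⟩ v
    right
    rw [Algebra.smul_def, mul_one, ord_algebraMap]
    simp

theorem finrank_riemannRochSpace_zero :
    finrank K (riemannRochSpace (0 : Divisor K F)) = 1 := by
  rw [riemannRochSpace_zero x hx]
  exact finrank_span_singleton one_ne_zero

theorem degree_eq_sum (D : Divisor K F) (T : Finset (Place K F)) (hT : D.support ⊆ T) :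
    Divisor.degree D = ∑ v ∈ T, D v := by
  have hdeg : Divisor.degree D = ∑ v ∈ D.support, D v := by
    unfold Divisor.degree
    rw [Finsupp.liftAddHom_apply, Finsupp.sum]
    refine Finset.sum_congr rfl fun v _ => ?_
    rw [AddMonoidHom.coe_mulRight, place_deg_eq_one x hx v]
    simp
  rw [hdeg]
  exact Finset.sum_subset hT fun v _ hv => Finsupp.notMem_support_iff.mp hv

theorem degree_add_single (D : Divisor K F) (v : Place K F) (n : ℤ) :
    Divisor.degree (D + Finsupp.single v n) = Divisor.degree D + n := by
  rw [map_add, Divisor.degree_single, place_deg_eq_one x hx v]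
  simp

end Basic

section Induction

/-- induction principle for divisors: steps `± v` from a base point -/
theorem divisor_induction {P : Divisor K F → Prop} (D₀ : Divisor K F) (h0 : P D₀)
    (hup : ∀ D v, P D → P (D + Finsupp.single v 1))
    (hdown : ∀ D v, P (D + Finsupp.single v 1) → P D) : ∀ D, P D := by
  classical
  have key : ∀ E : Divisor K F, P (D₀ + E) := by
    intro E
    induction E using Finsupp.induction with
    | zero => simpa using h0
    | single_add v n E _ _ ih =>
      have hn : ∀ n : ℤ, P (D₀ + (Finsupp.single v n + E)) := by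
        intro n
        induction n using Int.induction_on with
        | zero => simpa using ih
        | succ k ihk =>
          have := hup _ v ihk
          have e : D₀ + (Finsupp.single v (k : ℤ) + E) + Finsupp.single v 1 =
              D₀ + (Finsupp.single v ((k : ℤ) + 1) + E) := by
            rw [Finsupp.single_add]; abel
          rwa [e] at this
        | pred k ihk =>
          apply hdown _ v
          have e : D₀ + (Finsupp.single v (-(k : ℤ) - 1) + E) + Finsupp.single v 1 =
              D₀ + (Finsupp.single v (-(k : ℤ)) + E) := by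
            rw [show (-(k : ℤ)) = (-(k : ℤ) - 1) + 1 by ring, Finsupp.single_add]
            simp only [sub_add_cancel]
            abel
          rwa [e]
      exact hn n
  intro D
  have := key (D - D₀)
  rwa [add_sub_cancel] at this

end Induction

section Assembly

variable [IsAlgClosed K]
variable (x : F) (hx : Transcendental K x) [FiniteDimensional K⟮x⟯ F] [Algebra.IsSeparable K⟮x⟯ F]

theorem chi_eq_pairIndex (D : Divisor K F) :
    chi x D = pairIndex (lamFin x D) (lamInf x D) := by
  unfold chi pairIndex
  rw [riemannRochSpace_eq_inf x D]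

theorem finite_inf_of_finite_L (D : Divisor K F) (h : Module.Finite K (riemannRochSpace D)) :
    Module.Finite K ↥(lamFin x D ⊓ lamInf x D) := by
  rw [← riemannRochSpace_eq_inf x D]; exact h

/-- the two kinds of steps, in a uniform way -/
theorem step_cases (hFin : ∀ (D : Divisor K F) (v : Place K F), 0 ≤ v.ord x →
      ∃ a : F, a ∉ lamFin x D ∧
        lamFin x (D + Finsupp.single v 1) = lamFin x D ⊔ Submodule.span K {a})
    (hInf : ∀ (D : Divisor K F) (v : Place K F), v.ord x < 0 →
      ∃ a : F, a ∉ lamInf x D ∧
        lamInf x (D + Finsupp.single v 1) = lamInf x D ⊔ Submodule.span K {a})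
    (D : Divisor K F) (v : Place K F) :
    (∃ a : F, a ∉ lamFin x D ∧
        lamFin x (D + Finsupp.single v 1) = lamFin x D ⊔ Submodule.span K {a} ∧
        lamInf x (D + Finsupp.single v 1) = lamInf x D) ∨
    (∃ a : F, a ∉ lamInf x D ∧
        lamInf x (D + Finsupp.single v 1) = lamInf x D ⊔ Submodule.span K {a} ∧
        lamFin x (D + Finsupp.single v 1) = lamFin x D) := by
  rcases le_or_gt 0 (v.ord x) with hv | hv
  · obtain ⟨a, ha, h⟩ := hFin D v hv
    exact Or.inl ⟨a, ha, h, lamInf_add_single_of_nonneg x D v hv 1⟩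
  · obtain ⟨a, ha, h⟩ := hInf D v hv
    exact Or.inr ⟨a, ha, h, lamFin_add_single_of_neg x D v hv 1⟩

include hx in
/-- **R3, first part**: finiteness and the index formula from the codimension-one steps. -/
theorem riemannPre_of_steps
    (hFin : ∀ (D : Divisor K F) (v : Place K F), 0 ≤ v.ord x →
      ∃ a : F, a ∉ lamFin x D ∧
        lamFin x (D + Finsupp.single v 1) = lamFin x D ⊔ Submodule.span K {a})
    (hInf : ∀ (D : Divisor K F) (v : Place K F), v.ord x < 0 →
      ∃ a : F, a ∉ lamInf x D ∧
        lamInf x (D + Finsupp.single v 1) = lamInf x D ⊔ Submodule.span K {a}) :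
    (∀ D : Divisor K F, Module.Finite K (riemannRochSpace D)) ∧
    (∀ D : Divisor K F, Module.Finite K (H1' x D)) ∧
    (∀ D : Divisor K F, chi x D = Divisor.degree D + chi x (0 : Divisor K F)) := by
  -- finiteness of `L(D)`
  have hL : ∀ D : Divisor K F, Module.Finite K (riemannRochSpace D) := by
    refine divisor_induction (P := fun D => Module.Finite K (riemannRochSpace D)) 0 ?_ ?_ ?_
    · rw [riemannRochSpace_zero x hx]
      infer_instance
    · intro D v hD
      haveI := finite_inf_of_finite_L x D hD
      rw [riemannRochSpace_eq_inf x]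
      rcases step_cases x hFin hInf D v with ⟨a, -, h1, h2⟩ | ⟨a, -, h1, h2⟩
      · rw [h1, h2]
        exact finite_inf_succ _ _ a
      · rw [h1, h2, inf_comm]
        haveI : Module.Finite K ↥(lamInf x D ⊓ lamFin x D) := by
          rw [inf_comm]; infer_instance
        exact finite_inf_succ _ _ a
    · intro D v hD
      haveI := hD
      have hle : riemannRochSpace D ≤ riemannRochSpace (D + Finsupp.single v 1) := by
        intro f hf w
        refine (hf w).trans (WithZero.exp_le_exp.mpr ?_)
        rw [Finsupp.add_apply]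
        have : (0 : ℤ) ≤ (Finsupp.single v (1 : ℤ)) w := by
          classical
          rw [Finsupp.single_apply]
          split_ifs <;> simp
        omega
      exact Submodule.finiteDimensional_of_le hle
  obtain ⟨D₀, hD₀⟩ := exists_sup_eq_top x hx
  -- finiteness of `H1'` and the index formula
  have hQ : ∀ D : Divisor K F, Module.Finite K (H1' x D) ∧
      chi x D - Divisor.degree D = chi x D₀ - Divisor.degree D₀ := by
    refine divisor_induction (P := fun D => Module.Finite K (H1' x D) ∧
      chi x D - Divisor.degree D = chi x D₀ - Divisor.degree D₀) D₀ ?_ ?_ ?_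
    · refine ⟨?_, rfl⟩
      show Module.Finite K (F ⧸ (lamFin x D₀ ⊔ lamInf x D₀))
      rw [hD₀]
      infer_instance
    · rintro D v ⟨hfin, hchi⟩
      haveI : Module.Finite K (F ⧸ (lamFin x D ⊔ lamInf x D)) := hfin
      haveI := finite_inf_of_finite_L x D (hL D)
      rw [chi_eq_pairIndex] at hchi ⊢
      rw [degree_add_single x hx]
      rcases step_cases x hFin hInf D v with ⟨a, ha, h1, h2⟩ | ⟨a, ha, h1, h2⟩
      · refine ⟨?_, ?_⟩
        · show Module.Finite K (F ⧸ (lamFin x (D + Finsupp.single v 1) ⊔
            lamInf x (D + Finsupp.single v 1)))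
          rw [h1, h2]
          exact Module.Finite.of_surjective
            (Submodule.factor (sup_le_sup_right le_sup_left _))
            (Submodule.factor_surjective _)
        · rw [h1, h2, pairIndex_succ _ _ a ha]
          linarith
      · haveI : Module.Finite K ↥(lamInf x D ⊓ lamFin x D) := by
          rw [inf_comm]; infer_instance
        haveI : Module.Finite K (F ⧸ (lamInf x D ⊔ lamFin x D)) := by
          rw [sup_comm]; infer_instance
        refine ⟨?_, ?_⟩
        · show Module.Finite K (F ⧸ (lamFin x (D + Finsupp.single v 1) ⊔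
            lamInf x (D + Finsupp.single v 1)))
          rw [h1, h2]
          exact Module.Finite.of_surjective
            (Submodule.factor (sup_le_sup_left le_sup_left _))
            (Submodule.factor_surjective _)
        · rw [h1, h2, pairIndex_comm, pairIndex_succ _ _ a ha, pairIndex_comm]
          linarith
    · rintro D v ⟨hfin, hchi⟩
      haveI := finite_inf_of_finite_L x D (hL D)
      rw [chi_eq_pairIndex] at hchi ⊢
      rw [degree_add_single x hx] at hchi
      rcases step_cases x hFin hInf D v with ⟨a, ha, h1, h2⟩ | ⟨a, ha, h1, h2⟩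
      · rw [h1, h2] at hchi
        haveI : Module.Finite K (F ⧸ ((lamFin x D ⊔ Submodule.span K {a}) ⊔ lamInf x D)) := by
          have := hfin
          show Module.Finite K (F ⧸ ((lamFin x D ⊔ Submodule.span K {a}) ⊔ lamInf x D))
          rw [← h1, ← h2]
          exact this
        haveI : Module.Finite K (F ⧸ (lamFin x D ⊔ lamInf x D)) :=
          finite_quotient_of_succ _ _ a
        refine ⟨inferInstance, ?_⟩
        rw [pairIndex_succ _ _ a ha] at hchi
        linarith
      · rw [h1, h2, pairIndex_comm] at hchi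
        haveI : Module.Finite K ↥(lamInf x D ⊓ lamFin x D) := by
          rw [inf_comm]; infer_instance
        haveI : Module.Finite K (F ⧸ ((lamInf x D ⊔ Submodule.span K {a}) ⊔ lamFin x D)) := by
          have := hfin
          show Module.Finite K (F ⧸ ((lamInf x D ⊔ Submodule.span K {a}) ⊔ lamFin x D))
          rw [← h1, ← h2, sup_comm]
          exact this
        haveI : Module.Finite K (F ⧸ (lamInf x D ⊔ lamFin x D)) :=
          finite_quotient_of_succ _ _ a
        haveI : Module.Finite K (F ⧸ (lamFin x D ⊔ lamInf x D)) := by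
          rw [sup_comm]; infer_instance
        refine ⟨inferInstance, ?_⟩
        rw [pairIndex_succ _ _ a ha, pairIndex_comm] at hchi
        linarith
  refine ⟨hL, fun D => (hQ D).1, fun D => ?_⟩
  have h1 := (hQ D).2
  have h2 := (hQ 0).2
  rw [map_zero, sub_zero] at h2
  linarith


end Assembly

section Principal

variable [IsAlgClosed K]
variable (x : F) (hx : Transcendental K x) [FiniteDimensional K⟮x⟯ F] [Algebra.IsSeparable K⟮x⟯ F]

/-- the divisor of a function -/
def divOf (f : F) : Divisor K F :=
  Finsupp.ofSupportFinite (fun v : Place K F => v.ord f)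
    ((ord_support_finite x hx f).subset fun v hv => by
      simpa only [Function.mem_support, ne_eq, Set.mem_ofPred_eq] using hv)

theorem divOf_apply (f : F) (v : Place K F) : divOf x hx f v = v.ord f := rfl

omit [IsAlgClosed K] [FiniteDimensional K⟮x⟯ F] [Algebra.IsSeparable K⟮x⟯ F] in
/-- multiplication by `f` maps `Λ₀(D + (f))` onto `Λ₀(D)` -/
theorem map_mul_lamFin (f : F) (hf : f ≠ 0) (D G : Divisor K F) (hG : ∀ v, G v = v.ord f) :
    (lamFin x (D + G)).map (LinearMap.mulLeft K f) = lamFin x D := by
  ext g
  rw [Submodule.mem_map]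
  constructor
  · rintro ⟨h, hh, rfl⟩
    rw [mem_lamFin_iff] at hh ⊢
    intro v hv
    rcases eq_or_ne h 0 with rfl | h0
    · left; simp
    right
    have := (hh v hv).resolve_left h0
    rw [LinearMap.mulLeft_apply, v.ord_mul hf h0]
    rw [Finsupp.add_apply, hG] at this
    omega
  · intro hg
    refine ⟨f⁻¹ * g, ?_, by rw [LinearMap.mulLeft_apply, mul_inv_cancel_left₀ hf]⟩
    rw [mem_lamFin_iff] at hg ⊢
    intro v hv
    rcases eq_or_ne g 0 with rfl | g0
    · left; simp
    right
    have := (hg v hv).resolve_left g0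
    rw [v.ord_mul (inv_ne_zero hf) g0, v.ord_inv, Finsupp.add_apply, hG]
    omega

omit [IsAlgClosed K] [FiniteDimensional K⟮x⟯ F] [Algebra.IsSeparable K⟮x⟯ F] in
/-- multiplication by `f` maps `Λ_∞(D + (f))` onto `Λ_∞(D)` -/
theorem map_mul_lamInf (f : F) (hf : f ≠ 0) (D G : Divisor K F) (hG : ∀ v, G v = v.ord f) :
    (lamInf x (D + G)).map (LinearMap.mulLeft K f) = lamInf x D := by
  ext g
  rw [Submodule.mem_map]
  constructor
  · rintro ⟨h, hh, rfl⟩
    rw [mem_lamInf_iff] at hh ⊢
    intro v hv
    rcases eq_or_ne h 0 with rfl | h0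
    · left; simp
    right
    have := (hh v hv).resolve_left h0
    rw [LinearMap.mulLeft_apply, v.ord_mul hf h0]
    rw [Finsupp.add_apply, hG] at this
    omega
  · intro hg
    refine ⟨f⁻¹ * g, ?_, by rw [LinearMap.mulLeft_apply, mul_inv_cancel_left₀ hf]⟩
    rw [mem_lamInf_iff] at hg ⊢
    intro v hv
    rcases eq_or_ne g 0 with rfl | g0
    · left; simp
    right
    have := (hg v hv).resolve_left g0
    rw [v.ord_mul (inv_ne_zero hf) g0, v.ord_inv, Finsupp.add_apply, hG]
    omega

/-- multiplication by `f ≠ 0` as a linear equivalence -/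
def mulEquiv (f : F) (hf : f ≠ 0) : F ≃ₗ[K] F :=
  LinearEquiv.ofLinearMap (LinearMap.mulLeft K f) (LinearMap.mulLeft K f⁻¹)
    (by ext g; simp [mul_inv_cancel_left₀ hf])
    (by ext g; simp [inv_mul_cancel_left₀ hf])

omit [IsAlgClosed K] [FiniteDimensional K⟮x⟯ F] [Algebra.IsSeparable K⟮x⟯ F] in
include x in
theorem finrank_riemannRochSpace_add_div (f : F) (hf : f ≠ 0) (D G : Divisor K F)
    (hG : ∀ v, G v = v.ord f) :
    finrank K (riemannRochSpace (D + G)) = finrank K (riemannRochSpace D) := by
  have h1 : (riemannRochSpace (D + G)).map ((mulEquiv f hf : F ≃ₗ[K] F) : F →ₗ[K] F) = riemannRochSpace D := by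
    rw [riemannRochSpace_eq_inf x (D + G), riemannRochSpace_eq_inf x D,
      Submodule.map_inf _ (mulEquiv (K := K) f hf).injective]
    congr 1
    · exact map_mul_lamFin x f hf D G hG
    · exact map_mul_lamInf x f hf D G hG
  rw [← h1]
  exact (LinearEquiv.finrank_map_eq (mulEquiv (K := K) f hf) _).symm

omit [IsAlgClosed K] [FiniteDimensional K⟮x⟯ F] [Algebra.IsSeparable K⟮x⟯ F] in
theorem finrank_H1'_add_div (f : F) (hf : f ≠ 0) (D G : Divisor K F)
    (hG : ∀ v, G v = v.ord f) :
    finrank K (H1' x (D + G)) = finrank K (H1' x D) := by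
  have h1 : (lamFin x (D + G) ⊔ lamInf x (D + G)).map ((mulEquiv f hf : F ≃ₗ[K] F) : F →ₗ[K] F) =
      lamFin x D ⊔ lamInf x D := by
    rw [Submodule.map_sup]
    congr 1
    · exact map_mul_lamFin x f hf D G hG
    · exact map_mul_lamInf x f hf D G hG
  exact LinearEquiv.finrank_eq (Submodule.Quotient.equiv _ _ (mulEquiv (K := K) f hf) h1)

omit [IsAlgClosed K] [FiniteDimensional K⟮x⟯ F] [Algebra.IsSeparable K⟮x⟯ F] in
theorem chi_add_div (f : F) (hf : f ≠ 0) (D G : Divisor K F) (hG : ∀ v, G v = v.ord f) :
    chi x (D + G) = chi x D := by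
  unfold chi
  rw [finrank_riemannRochSpace_add_div x f hf D G hG, finrank_H1'_add_div x f hf D G hG]

end Principal

section Data

variable [IsAlgClosed K]
variable (x : F) (hx : Transcendental K x) [FiniteDimensional K⟮x⟯ F] [Algebra.IsSeparable K⟮x⟯ F]

include hx

/-- finiteness and the index formula in any characteristic -/
theorem riemannPre :
    (∀ D : Divisor K F, Module.Finite K (riemannRochSpace D)) ∧
    (∀ D : Divisor K F, Module.Finite K (H1' x D)) ∧
    (∀ D : Divisor K F, chi x D = Divisor.degree D + chi x (0 : Divisor K F)) :=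
  riemannPre_of_steps x hx (exists_lamFin_succ x hx) (exists_lamInf_succ x hx)

/-- **Principal divisors have degree zero** (any characteristic; via the index formula). -/
theorem degree_divOf (f : F) (hf : f ≠ 0) : Divisor.degree (divOf x hx f) = 0 := by
  have h1 := (riemannPre x hx).2.2 (0 + divOf x hx f)
  rw [chi_add_div x f hf 0 (divOf x hx f) (fun v => rfl), zero_add] at h1
  have h2 := (riemannPre x hx).2.2 (0 : Divisor K F)
  rw [map_zero] at h2
  linarith

/-- **Principal divisors have degree zero**, sum form. -/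
theorem sum_ord_eq_zero (h : F) (T : Finset (Place K F)) (hT : ∀ v, v.ord h ≠ 0 → v ∈ T) :
    ∑ v ∈ T, v.ord h = 0 := by
  rcases eq_or_ne h 0 with rfl | h0
  · simp
  have h1 := degree_divOf x hx h h0
  rw [degree_eq_sum x hx (divOf x hx h) T (fun v hv => hT v (by
    rw [Finsupp.mem_support_iff, divOf_apply] at hv
    exact hv))] at h1
  exact h1

/-- `L(D) = 0` if `deg D < 0` -/
theorem riemannRochSpace_eq_bot_of_degree_neg (D : Divisor K F) (hD : Divisor.degree D < 0) :
    riemannRochSpace D = ⊥ := by
  classical
  rw [eq_bot_iff]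
  intro f hf
  rw [Submodule.mem_bot]
  by_contra hf0
  rw [mem_riemannRochSpace_iff] at hf
  set T : Finset (Place K F) := D.support ∪ (ord_support_finite x hx f).toFinset with hT
  have h1 := sum_ord_eq_zero x hx f T fun v hv =>
    Finset.mem_union_right _ ((Set.Finite.mem_toFinset _).mpr hv)
  have h2 := degree_eq_sum x hx D T Finset.subset_union_left
  have h3 : ∑ v ∈ T, (-D v) ≤ ∑ v ∈ T, v.ord f :=
    Finset.sum_le_sum fun v _ => (hf v).resolve_left hf0
  rw [Finset.sum_neg_distrib, ← h2, h1] at h3
  omega

theorem finrank_riemannRochSpace_of_degree_neg (D : Divisor K F) (hD : Divisor.degree D < 0) :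
    finrank K (riemannRochSpace D) = 0 := by
  rw [riemannRochSpace_eq_bot_of_degree_neg x hx D hD]
  exact finrank_bot K F

/-- **R1 (87-P1)**: the Riemann data of `(F, x)` in any characteristic, `x` separating. -/
theorem riemannData_sep : RiemannData K x :=
  ⟨(riemannPre x hx).1, (riemannPre x hx).2.1, (riemannPre x hx).2.2,
    finrank_riemannRochSpace_zero x hx,
    fun D hD => finrank_riemannRochSpace_of_degree_neg x hx D hD⟩

end Data

end Fermat.Agent.S18.RRl
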