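import Mathlib
import Fermat.Agent.RR.Duality
import Fermat.Agent.S18.RRl.Riemann

/-!
# 87-P1 (helper9): Riemann's theorem from the Riemann data (any characteristic)

Abstract part (only `RiemannData K x`):
* `genusl K x = dim H¹(0)`, `l_sub_h1`, `riemann_inequality`, `l_le_of_le`, `dim_le`;
* `lam_eq_top_of_degree_le` : `Λ₀(D) + Λ_∞(D) = F` for `deg D ≥ deg D₀ + g` (weak vanishing);
* `sharp_of_pairing` : from a Weil pairing `(W, ρ)`: `deg W = 2g - 2` and
  `l(D) = deg D + 1 - g` for `deg D > 2g - 2`.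
-/

set_option autoImplicit false
set_option linter.unusedSectionVars false
set_option linter.style.haveILetI false

open AlgebraicCurve Module

noncomputable section

namespace Fermat.Agent.S18.RRl

open Fermat.Agent.RR

variable {K F : Type*} [Field K] [Field F] [Algebra K F]

/-- the genus, as the dimension of the two-chart `H¹(0)` -/
def genusl (K : Type*) {F : Type*} [Field K] [Field F] [Algebra K F] (x : F) : ℕ :=
  finrank K (H1' x (0 : Divisor K F))

section Abstract

variable {x : F} (hR : RiemannData K x)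

include hR

theorem chi_zero_eq : chi x (0 : Divisor K F) = 1 - (genusl K x : ℤ) := by
  unfold chi genusl
  rw [hR.l_zero]
  push_cast
  ring

/-- `l(D) - h¹(D) = deg D + 1 - g` -/
theorem l_sub_h1 (D : Divisor K F) :
    (finrank K (riemannRochSpace D) : ℤ) - (finrank K (H1' x D) : ℤ) =
      Divisor.degree D + 1 - (genusl K x : ℤ) := by
  have h := hR.chi_eq D
  rw [chi_zero_eq hR] at h
  unfold chi at h
  linarith

/-- **Riemann's inequality** -/
theorem riemann_inequality (D : Divisor K F) :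
    Divisor.degree D + 1 - (genusl K x : ℤ) ≤ (finrank K (riemannRochSpace D) : ℤ) := by
  have h := l_sub_h1 hR D
  have h0 : (0 : ℤ) ≤ (finrank K (H1' x D) : ℤ) := Int.natCast_nonneg _
  linarith

omit hR in
theorem lam_mono (x : F) {D D' : Divisor K F} (h : D ≤ D') :
    lamFin x D ⊔ lamInf x D ≤ lamFin x D' ⊔ lamInf x D' :=
  sup_le_sup (lamFin_mono x h) (lamInf_mono x h)

theorem finrank_H1'_mono {D D' : Divisor K F} (h : D ≤ D') :
    finrank K (H1' x D') ≤ finrank K (H1' x D) := by
  haveI := hR.finite_H1 D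
  haveI := hR.finite_H1 D'
  exact LinearMap.finrank_le_finrank_of_surjective
    (f := Submodule.factor (lam_mono x h)) (Submodule.factor_surjective _)

/-- `l(D') - l(D) ≤ deg D' - deg D` for `D ≤ D'` -/
theorem l_le_of_le {D D' : Divisor K F} (h : D ≤ D') :
    (finrank K (riemannRochSpace D') : ℤ) ≤
      (finrank K (riemannRochSpace D) : ℤ) + (Divisor.degree D' - Divisor.degree D) := by
  have h1 := l_sub_h1 hR D
  have h2 := l_sub_h1 hR D'
  have h3 : (finrank K (H1' x D') : ℤ) ≤ (finrank K (H1' x D) : ℤ) := by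
    exact_mod_cast finrank_H1'_mono hR h
  linarith

/-- `l(E) ≤ deg E + 1` for `E ≥ 0` -/
theorem dim_le (E : Divisor K F) (hE : 0 ≤ E) :
    (finrank K (riemannRochSpace E) : ℤ) ≤ Divisor.degree E + 1 := by
  have h := l_le_of_le hR hE
  rw [hR.l_zero, map_zero] at h
  push_cast at h
  linarith

/-- Riemann's theorem at a divisor with `Λ₀(D) + Λ_∞(D) = F` -/
theorem riemann_of_eq_top (D : Divisor K F) (h : lamFin x D ⊔ lamInf x D = ⊤) :
    (finrank K (riemannRochSpace D) : ℤ) = Divisor.degree D + 1 - (genusl K x : ℤ) := by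
  have h1 := l_sub_h1 hR D
  have h0 : finrank K (H1' x D) = 0 := by
    haveI : Subsingleton (H1' x D) := Submodule.Quotient.subsingleton_iff.mpr h
    exact Module.finrank_zero_of_subsingleton
  rw [h0] at h1
  push_cast at h1
  linarith

/-- a nonzero element of `L(D)` if `deg D ≥ g` -/
theorem exists_ne_zero_mem (D : Divisor K F) (hD : (genusl K x : ℤ) ≤ Divisor.degree D) :
    ∃ f : F, f ≠ 0 ∧ f ∈ riemannRochSpace D := by
  have h := riemann_inequality hR D
  haveI := hR.finite_L D
  have hpos : 0 < finrank K (riemannRochSpace D) := by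
    have : (0 : ℤ) < (finrank K (riemannRochSpace D) : ℤ) := by linarith
    exact_mod_cast this
  haveI : Nontrivial (riemannRochSpace D) := Module.finrank_pos_iff.mp hpos
  obtain ⟨f, hf⟩ := exists_ne (0 : riemannRochSpace D)
  exact ⟨f, fun h0 => hf (Subtype.ext h0), f.2⟩

/-- **weak vanishing**: `Λ₀(D) + Λ_∞(D) = F` as soon as `deg D ≥ deg D₀ + g`. -/
theorem lam_eq_top_of_degree_le
    (hdiv : ∀ f : F, f ≠ 0 → ∃ G : Divisor K F, ∀ v, G v = v.ord f)
    (D₀ : Divisor K F) (hD₀ : lamFin x D₀ ⊔ lamInf x D₀ = ⊤) (D : Divisor K F)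
    (hD : Divisor.degree D₀ + (genusl K x : ℤ) ≤ Divisor.degree D) :
    lamFin x D ⊔ lamInf x D = ⊤ := by
  obtain ⟨f, hf0, hf⟩ := exists_ne_zero_mem hR (D - D₀) (by rw [map_sub]; linarith)
  obtain ⟨G, hG⟩ := hdiv f hf0
  have hle : D₀ ≤ D + G := by
    rw [Finsupp.le_def]
    intro v
    have := ((mem_riemannRochSpace_iff).mp hf v).resolve_left hf0
    rw [Finsupp.sub_apply] at this
    rw [Finsupp.add_apply, hG]
    omega
  have htop : lamFin x (D + G) ⊔ lamInf x (D + G) = ⊤ :=
    top_le_iff.mp (hD₀ ▸ lam_mono x hle)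
  have h1 : (lamFin x (D + G) ⊔ lamInf x (D + G)).map
      ((mulEquiv f hf0 : F ≃ₗ[K] F) : F →ₗ[K] F) = lamFin x D ⊔ lamInf x D := by
    rw [Submodule.map_sup]
    congr 1
    · exact map_mul_lamFin x f hf0 D G hG
    · exact map_mul_lamInf x f hf0 D G hG
  rw [← h1, htop, Submodule.map_top]
  exact LinearEquiv.range _

end Abstract

section Sharp

open DualityAux

variable {x : F} (hR : RiemannData K x)
  (hdeg : ∀ m : ℕ, ∃ E : Divisor K F, Divisor.degree E = m)
  {W : Divisor K F} {ρ : F →ₗ[K] K}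
  (hρ : ∀ (D : Divisor K F) (g : F),
    ((∀ f ∈ lamFin x D, ρ (f * g) = 0) ↔ g ∈ lamFin x (W - D)) ∧
    ((∀ f ∈ lamInf x D, ρ (f * g) = 0) ↔ g ∈ lamInf x (W - D)))

include hR hdeg hρ

/-- the degree of the canonical divisor -/
theorem degree_canonical : Divisor.degree W = 2 * (genusl K x : ℤ) - 2 := by
  have h0 := duality_core hR hdeg hρ (0 : Divisor K F)
  rw [sub_zero] at h0
  have h1 := rr_canonical_core hR hdeg hρ
  unfold genusl
  rw [h0]
  linarith

/-- **Riemann's theorem, sharp form**: `l(D) = deg D + 1 - g` for `deg D > 2g - 2`. -/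
theorem riemann_sharp (D : Divisor K F) (hD : 2 * (genusl K x : ℤ) - 2 < Divisor.degree D) :
    (finrank K (riemannRochSpace D) : ℤ) = Divisor.degree D + 1 - (genusl K x : ℤ) := by
  have h1 := l_sub_h1 hR D
  have h2 := duality_core hR hdeg hρ D
  have h3 := hR.l_neg (W - D) (by
    rw [map_sub, degree_canonical hR hdeg hρ]
    linarith)
  rw [h2, h3] at h1
  push_cast at h1
  linarith

end Sharp

end Fermat.Agent.S18.RRl
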