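import Mathlib
import Fermat.Agent.S18.RRl.RThm
import Fermat.Agent.S18.RPrimeDefs
import Fermat.Agent.S18.Defs

/-!
# 87-P1 (helper9): Riemann's theorem for `(F, x)`, `x` separating, any characteristic

* `exists_div_sep`, `exists_divisor_degree_sep`, `exists_lam_eq_top_sep` (weak vanishing),
  `riemann_weak_sep`: the hypotheses of the abstract Weil pairing (87-P1-D) and the weak form
  of Riemann's theorem;
* `curveRR_of_pairing`, `riemannThm_of_pairing`: the structures `RPrime.CurveRR K F g` (helper8)
  and `S18.RiemannThm K F g` (helper6, contract) for `g = genusl K x`, from a Weil pairing.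
-/

set_option autoImplicit false
set_option linter.unusedSectionVars false
set_option linter.style.haveILetI false

open AlgebraicCurve Module IntermediateField

noncomputable section

namespace Fermat.Agent.S18.RRl

open Fermat.Agent.RR

variable {K F : Type*} [Field K] [Field F] [Algebra K F] [IsAlgClosed K]
variable (x : F) (hx : Transcendental K x) [FiniteDimensional K⟮x⟯ F] [Algebra.IsSeparable K⟮x⟯ F]

include hx

/-- every nonzero function has a divisor, of degree zero -/
theorem exists_div_sep (f : F) (hf : f ≠ 0) :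
    ∃ D : Divisor K F, (∀ v : Place K F, D v = v.ord f) ∧ Divisor.degree D = 0 :=
  ⟨divOf x hx f, fun _ => rfl, degree_divOf x hx f hf⟩

theorem nonempty_place_sep : Nonempty (Place K F) := by
  obtain ⟨v, -⟩ := Fermat.Agent.S18.FFl.placesOver_nonempty x hx (0 : K)
  exact ⟨v⟩

/-- divisors of every degree exist -/
theorem exists_divisor_degree_sep (m : ℕ) : ∃ E : Divisor K F, Divisor.degree E = m := by
  obtain ⟨v, -⟩ := Fermat.Agent.S18.FFl.placesOver_nonempty x hx (0 : K)
  refine ⟨Finsupp.single v (m : ℤ), ?_⟩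
  rw [Divisor.degree_single, Fermat.Agent.S18.FFl.place_deg_eq_one x hx v]
  simp

/-- **weak vanishing** of `H¹`: `Λ₀(D) + Λ_∞(D) = F` for `deg D ≥ c`. -/
theorem exists_lam_eq_top_sep :
    ∃ c : ℤ, ∀ D : Divisor K F, c ≤ Divisor.degree D → lamFin x D ⊔ lamInf x D = ⊤ := by
  obtain ⟨D₀, hD₀⟩ := exists_sup_eq_top x hx
  exact ⟨Divisor.degree D₀ + (genusl K x : ℤ), fun D hD =>
    lam_eq_top_of_degree_le (riemannData_sep x hx)
      (fun f hf => ⟨divOf x hx f, fun _ => rfl⟩) D₀ hD₀ D hD⟩

/-- **Riemann's theorem, weak form** (any characteristic). -/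
theorem riemann_weak_sep :
    ∃ c : ℤ, ∀ D : Divisor K F, c ≤ Divisor.degree D →
      (finrank K (riemannRochSpace D) : ℤ) = Divisor.degree D + 1 - (genusl K x : ℤ) := by
  obtain ⟨c, hc⟩ := exists_lam_eq_top_sep x hx
  exact ⟨c, fun D hD => riemann_of_eq_top (riemannData_sep x hx) D (hc D hD)⟩

section Pairing

variable {W : Divisor K F} {ρ : F →ₗ[K] K}
  (hρ : ∀ (D : Divisor K F) (g : F),
    ((∀ f ∈ lamFin x D, ρ (f * g) = 0) ↔ g ∈ lamFin x (W - D)) ∧
    ((∀ f ∈ lamInf x D, ρ (f * g) = 0) ↔ g ∈ lamInf x (W - D)))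

include hρ

/-- helper8's interface `CurveRR` from a Weil pairing -/
theorem curveRR_of_pairing : RPrime.CurveRR K F (genusl K x) where
  nonempty := nonempty_place_sep x hx
  deg_one := Fermat.Agent.S18.FFl.place_deg_eq_one x hx
  exists_div := exists_div_sep x hx
  finite := (riemannData_sep x hx).finite_L
  riemann := riemann_sharp (riemannData_sep x hx) (exists_divisor_degree_sep x hx) hρ
  dim_le := dim_le (riemannData_sep x hx)

/-- the contract's `RiemannThm` from a Weil pairing -/
theorem riemannThm_of_pairing : Fermat.Agent.S18.RiemannThm K F (genusl K x) where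
  finite := (riemannData_sep x hx).finite_L
  ineq := riemann_inequality (riemannData_sep x hx)
  eq_of_lt := riemann_sharp (riemannData_sep x hx) (exists_divisor_degree_sep x hx) hρ
  zero := fun f hf => by
    rw [riemannRochSpace_zero x hx, Submodule.mem_span_singleton] at hf
    obtain ⟨c, rfl⟩ := hf
    exact ⟨c, by rw [Algebra.smul_def, mul_one]⟩
  neg := riemannRochSpace_eq_bot_of_degree_neg x hx
  deg_one := Fermat.Agent.S18.FFl.place_deg_eq_one x hx
  principal := ⟨exists_div_sep x hx⟩

end Pairing

end Fermat.Agent.S18.RRl
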