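import Mathlib
import Fermat.Agent.S18.RRl.RThmSep
import Fermat.Agent.S18.RRl.DualAbs

/-!
# 87-P1 (helper9): Riemann's theorem, SHARP form, in any characteristic

`K` algebraically closed, `x : F` transcendental, `F / K(x)` finite separable,
`g = genusl K x = dim_K F / (Λ₀(0) + Λ_∞(0))`:

* `exists_pairing_sep` : a Weil pairing `(W, ρ)` exists (abstract pairing 87-P1-D, helper8);
* `riemann_sharp_sep` : `l(D) = deg D + 1 - g` for `deg D > 2g - 2`;
* `curveRR_sep : RPrime.CurveRR K F (genusl K x)`;
* `riemannThm_sep : S18.RiemannThm K F (genusl K x)`.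
-/

set_option autoImplicit false
set_option linter.unusedSectionVars false

open AlgebraicCurve Module IntermediateField

noncomputable section

namespace Fermat.Agent.S18.RRl

open Fermat.Agent.RR

variable {K F : Type*} [Field K] [Field F] [Algebra K F] [IsAlgClosed K]
variable (x : F) (hx : Transcendental K x) [FiniteDimensional K⟮x⟯ F] [Algebra.IsSeparable K⟮x⟯ F]

include hx

/-- a Weil pairing exists (any characteristic) -/
theorem exists_pairing_sep :
    ∃ (W : Divisor K F) (ρ : F →ₗ[K] K), ∀ (D : Divisor K F) (g : F),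
      ((∀ f ∈ lamFin x D, ρ (f * g) = 0) ↔ g ∈ lamFin x (W - D)) ∧
      ((∀ f ∈ lamInf x D, ρ (f * g) = 0) ↔ g ∈ lamInf x (W - D)) :=
  exists_pairing_abstract x (riemannData_sep x hx) (exists_lamFin_succ x hx)
    (exists_lamInf_succ x hx) (fun f _ => ⟨divOf x hx f, fun _ => rfl⟩)
    (exists_lam_eq_top_sep x hx) (Fermat.Agent.S18.FFl.place_deg_eq_one x hx)
    (nonempty_place_sep x hx)

/-- **Riemann's theorem, sharp form** (any characteristic, `x` separating). -/
theorem riemann_sharp_sep (D : Divisor K F)
    (hD : 2 * (genusl K x : ℤ) - 2 < Divisor.degree D) :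
    (finrank K (riemannRochSpace D) : ℤ) = Divisor.degree D + 1 - (genusl K x : ℤ) := by
  obtain ⟨W, ρ, hρ⟩ := exists_pairing_sep x hx
  exact riemann_sharp (riemannData_sep x hx) (exists_divisor_degree_sep x hx) hρ D hD

/-- **87-P1**: helper8's interface `CurveRR` in any characteristic. -/
theorem curveRR_sep : RPrime.CurveRR K F (genusl K x) := by
  obtain ⟨W, ρ, hρ⟩ := exists_pairing_sep x hx
  exact curveRR_of_pairing x hx hρ

/-- **87-P1**: the contract's `RiemannThm` in any characteristic. -/
theorem riemannThm_sep : Fermat.Agent.S18.RiemannThm K F (genusl K x) := by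
  obtain ⟨W, ρ, hρ⟩ := exists_pairing_sep x hx
  exact riemannThm_of_pairing x hx hρ

end Fermat.Agent.S18.RRl
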