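import Mathlib
import Fermat.Agent.RR.ARRStatement
import Fermat.Agent.S18.RRl.RThmFinal

/-!
# 87-P1 (helper9): the characteristic zero side (repackaging of the RR library)

For `K` algebraically closed of characteristic zero and `x : F` transcendental with `F / K(x)`
finite (separability is automatic):

* `curveRR_charZero`, `riemannThm_charZero` : Riemann's theorem with `g = genusl K x`;
* `degree_div_D_eq` : the divisor of `dx` has degree `2 * genusl K x - 2`, which links `genusl`
  to the genus formula of item S24 / 87-P2 (stated with `deg (div ω)`).
-/

set_option autoImplicit false
set_option linter.unusedSectionVars false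

open AlgebraicCurve Module IntermediateField

noncomputable section

namespace Fermat.Agent.S18.RRl

open Fermat.Agent.RR

variable {K F : Type*} [Field K] [Field F] [Algebra K F] [IsAlgClosed K] [CharZero K]
variable (x : F) (hx : Transcendental K x) [FiniteDimensional K⟮x⟯ F]

include hx

/-- Riemann's theorem (helper8's interface) in characteristic zero -/
theorem curveRR_charZero : RPrime.CurveRR K F (genusl K x) :=
  curveRR_sep x hx

/-- Riemann's theorem (contract form) in characteristic zero -/
theorem riemannThm_charZero : Fermat.Agent.S18.RiemannThm K F (genusl K x) :=
  riemannThm_sep x hx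

/-- **the divisor of `dx` has degree `2g - 2`**, `g = genusl K x` (characteristic zero). -/
theorem degree_div_D_eq (W : Divisor K F)
    (hW : ∀ v : Place K F, W v = v.ordDifferential (KaehlerDifferential.D K F x)) :
    Divisor.degree W = 2 * (genusl K x : ℤ) - 2 := by
  obtain ⟨ρ, hρ⟩ := pairingStatement K F x hx inferInstance W hW
  exact degree_canonical (riemannData_sep x hx) (exists_divisor_degree_sep x hx) hρ

end Fermat.Agent.S18.RRl
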