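import Mathlib
import Fermat.Agent.S18.RPrimeDefs
import Fermat.Agent.S18.Defs

/-!
# 87-P1 (helper9): the genus in `CurveRR` / `RiemannThm` is unique

`curveRR_genus_unique : CurveRR K F g → CurveRR K F g' → g = g'`; in particular
`genusl K x` does not depend on the separating element `x`.
-/

set_option autoImplicit false

open AlgebraicCurve Module

noncomputable section

namespace Fermat.Agent.S18.RRl

variable {K F : Type*} [Field K] [Field F] [Algebra K F]

/-- the genus of `CurveRR` is determined by the function field -/
theorem curveRR_genus_unique {g g' : ℕ} (h : RPrime.CurveRR K F g)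
    (h' : RPrime.CurveRR K F g') : g = g' := by
  obtain ⟨P⟩ := h.nonempty
  set E : Divisor K F := Finsupp.single P (2 * (g : ℤ) + 2 * (g' : ℤ)) with hE
  have hdeg : Divisor.degree E = 2 * (g : ℤ) + 2 * (g' : ℤ) := by
    rw [hE, Divisor.degree_single, h.deg_one P]
    simp
  have h1 := h.riemann E (by rw [hdeg]; omega)
  have h2 := h'.riemann E (by rw [hdeg]; omega)
  omega

/-- the genus of `RiemannThm` is determined by the function field -/
theorem riemannThm_genus_unique {g g' : ℕ} (h : Fermat.Agent.S18.RiemannThm K F g)
    (h' : Fermat.Agent.S18.RiemannThm K F g') (hne : Nonempty (Place K F)) : g = g' := by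
  obtain ⟨P⟩ := hne
  set E : Divisor K F := Finsupp.single P (2 * (g : ℤ) + 2 * (g' : ℤ)) with hE
  have hdeg : Divisor.degree E = 2 * (g : ℤ) + 2 * (g' : ℤ) := by
    rw [hE, Divisor.degree_single, h.deg_one P]
    simp
  have h1 := h.eq_of_lt E (by rw [hdeg]; omega)
  have h2 := h'.eq_of_lt E (by rw [hdeg]; omega)
  omega

end Fermat.Agent.S18.RRl
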