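/-
S18 swarm, piece 87-P1-C (lead), part 1: from a nonzero functional `ρ` killing both lattices of a
divisor `W` to the bound `deg W ≤ 2 g - 2` (`g = dim H¹(0)`), given the Riemann data.
Characteristic free.
-/
import Mathlib
import Fermat.Agent.RR.AIndex

set_option autoImplicit false

open AlgebraicCurve Fermat.Agent.RR

noncomputable section

namespace Fermat.Agent.S18.RRl

variable {K F : Type*} [Field K] [Field F] [Algebra K F]

/-- the functional `f ↦ ρ (g f)` on `H¹(D)`, for `g ∈ L(W - D)`. -/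
def rhoDual (x : F) (W D : Divisor K F) (ρ : F →ₗ[K] K)
    (h1 : ∀ f ∈ lamFin x W, ρ f = 0) (h2 : ∀ f ∈ lamInf x W, ρ f = 0) :
    riemannRochSpace (W - D) →ₗ[K] Module.Dual K (H1' x D) where
  toFun g := (lamFin x D ⊔ lamInf x D).liftQ (ρ ∘ₗ LinearMap.mulLeft K (g : F)) (by
    rw [sup_le_iff]
    constructor
    · intro f hf
      rw [LinearMap.mem_ker, LinearMap.comp_apply, LinearMap.mulLeft_apply]
      apply h1
      have := mul_mem_lamFin (riemannRochSpace_le_lamFin x (W - D) g.2) hf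
      rwa [sub_add_cancel] at this
    · intro f hf
      rw [LinearMap.mem_ker, LinearMap.comp_apply, LinearMap.mulLeft_apply]
      apply h2
      have := mul_mem_lamInf (riemannRochSpace_le_lamInf x (W - D) g.2) hf
      rwa [sub_add_cancel] at this)
  map_add' g g' := by
    apply LinearMap.ext
    intro y
    obtain ⟨f, rfl⟩ := Submodule.Quotient.mk_surjective _ y
    simp only [Submodule.coe_add, LinearMap.add_apply, Submodule.liftQ_apply,
      LinearMap.comp_apply, LinearMap.mulLeft_apply, add_mul, map_add]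
  map_smul' c g := by
    apply LinearMap.ext
    intro y
    obtain ⟨f, rfl⟩ := Submodule.Quotient.mk_surjective _ y
    simp only [Submodule.coe_smul, LinearMap.smul_apply, Submodule.liftQ_apply,
      LinearMap.comp_apply, LinearMap.mulLeft_apply, smul_mul_assoc, map_smul, RingHom.id_apply]

theorem rhoDual_apply (x : F) (W D : Divisor K F) (ρ : F →ₗ[K] K)
    (h1 : ∀ f ∈ lamFin x W, ρ f = 0) (h2 : ∀ f ∈ lamInf x W, ρ f = 0)
    (g : riemannRochSpace (W - D)) (f : F) :
    rhoDual x W D ρ h1 h2 g (Submodule.Quotient.mk f) = ρ ((g : F) * f) := rfl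

theorem rhoDual_injective (x : F) (W D : Divisor K F) (ρ : F →ₗ[K] K) (hρ : ρ ≠ 0)
    (h1 : ∀ f ∈ lamFin x W, ρ f = 0) (h2 : ∀ f ∈ lamInf x W, ρ f = 0) :
    Function.Injective (rhoDual x W D ρ h1 h2) := by
  rw [← LinearMap.ker_eq_bot, LinearMap.ker_eq_bot']
  intro g hg
  by_contra hne
  have hg0 : (g : F) ≠ 0 := fun h => hne (Subtype.ext h)
  apply hρ
  apply LinearMap.ext
  intro f
  have := congrArg (fun φ => φ (Submodule.Quotient.mk ((g : F)⁻¹ * f))) hg
  simp only [rhoDual_apply, LinearMap.zero_apply] at this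
  rwa [mul_inv_cancel_left₀ hg0] at this

/-- `l(W - D) ≤ h¹(D)`. -/
theorem finrank_le_of_rho (x : F) (W D : Divisor K F) (ρ : F →ₗ[K] K) (hρ : ρ ≠ 0)
    (h1 : ∀ f ∈ lamFin x W, ρ f = 0) (h2 : ∀ f ∈ lamInf x W, ρ f = 0)
    [Module.Finite K (H1' x D)] :
    Module.finrank K (riemannRochSpace (W - D)) ≤ Module.finrank K (H1' x D) := by
  have h := LinearMap.finrank_le_finrank_of_injective (rhoDual_injective x W D ρ hρ h1 h2)
  rwa [Subspace.dual_finrank_eq] at h

/-- **the degree bound**: a nonzero functional killing `Λ₀(W)` and `Λ_∞(W)` forces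
`deg W ≤ 2 g - 2`. -/
theorem degree_le_of_rho (x : F) (hR : RiemannData K x) (W D : Divisor K F)
    (hD : Divisor.degree D < 0) (ρ : F →ₗ[K] K) (hρ : ρ ≠ 0)
    (h1 : ∀ f ∈ lamFin x W, ρ f = 0) (h2 : ∀ f ∈ lamInf x W, ρ f = 0) :
    Divisor.degree W ≤ 2 * (Module.finrank K (H1' x (0 : Divisor K F)) : ℤ) - 2 := by
  haveI := hR.finite_H1 D
  have hle := finrank_le_of_rho x W D ρ hρ h1 h2
  have e1 := hR.chi_eq D
  have e2 := hR.chi_eq (W - D)
  have e3 := hR.l_neg D hD
  have e4 := hR.l_zero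
  simp only [chi] at e1 e2
  rw [e3] at e1
  rw [e4] at e1 e2
  rw [map_sub] at e2
  have hle' : (Module.finrank K (riemannRochSpace (W - D)) : ℤ) ≤
      (Module.finrank K (H1' x D) : ℤ) := by exact_mod_cast hle
  have hnn : (0 : ℤ) ≤ (Module.finrank K (H1' x (W - D)) : ℤ) := Int.natCast_nonneg _
  push_cast at e1 e2
  linarith

end Fermat.Agent.S18.RRl
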