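/-
S18 swarm, piece 87-P1-C (lead), part 3: the easy half of Dedekind's different theorem in the
separable context of `RRl/Places.lean`: if `ord_w h ≥ -(e_w - 1)` at every finite place `w`
(`e_w` the ramification index), then `Tr (h b)` is a polynomial for every integral `b`.
Characteristic free (only `P ^ (e - 1) ∣ different`).
-/
import Mathlib
import Fermat.Agent.S18.RRl.Places

set_option autoImplicit false
set_option linter.unusedSectionVars false
set_option linter.style.haveILetI false
set_option linter.overlappingInstances false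

open AlgebraicCurve KaehlerDifferential IntermediateField Polynomial IsDedekindDomain
open Fermat.Agent.S18.FFl
open scoped nonZeroDivisors

attribute [local instance] FractionRing.liftAlgebra FractionRing.isScalarTower_liftAlgebra

noncomputable section

namespace Fermat.Agent.S18.RRl

section Ctx

variable {K F : Type*} [Field K] [Field F] [Algebra K F] [IsAlgClosed K]
variable [Algebra K[X] F] [IsScalarTower K K[X] F]
variable [Algebra (RatFunc K) F] [IsScalarTower K[X] (RatFunc K) F]
variable [FiniteDimensional (RatFunc K) F] [Algebra.IsSeparable (RatFunc K) F]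

theorem isSeparable_fractionRing_ctx :
    Algebra.IsSeparable (FractionRing K[X]) (FractionRing (intB K F)) := by
  refine Algebra.IsSeparable.of_equiv_equiv (FractionRing.algEquiv K[X] (RatFunc K)).symm.toRingEquiv
    (FractionRing.algEquiv (intB K F) F).symm.toRingEquiv ?_
  ext _
  exact IsFractionRing.algEquiv_commutes (FractionRing.algEquiv K[X] (RatFunc K)).symm
    (FractionRing.algEquiv (intB K F) F).symm _

/-- `w ^ (e - 1)` divides the different, where `e = ord_w (x - a)`. -/
theorem different_exponent_ge_ctx (a : K) (w : HeightOneSpectrum (intB K F)) (e : ℕ)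
    (hval : w.intValuation (xSubB a) = WithZero.exp (-(e : ℤ))) :
    w.asIdeal ^ (e - 1) ∣ differentIdeal K[X] (intB K F) := by
  have hmap := map_primeAt (K := K) (F := F) a
  have hle : (primeAt K a).map (algebraMap K[X] (intB K F)) ≤ w.asIdeal ^ e := by
    rw [hmap, Ideal.span_le, Set.singleton_subset_iff, SetLike.mem_coe,
      ← w.intValuation_le_pow_iff_mem, hval]
  haveI : w.asIdeal.IsMaximal := w.isMaximal
  haveI := isSeparable_fractionRing_ctx (K := K) (F := F)
  exact pow_sub_one_dvd_differentIdeal K[X] w.asIdeal e (primeAt_ne_bot K a)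
    (Ideal.dvd_iff_le.mpr hle)

theorem mem_dual_one_iff_trace_sep (h : F) :
    h ∈ FractionalIdeal.dual K[X] (RatFunc K) (1 : FractionalIdeal (intB K F)⁰ F) ↔
      ∀ b : intB K F,
        Algebra.trace (RatFunc K) F (h * (b : F)) ∈ (algebraMap K[X] (RatFunc K)).range := by
  rw [FractionalIdeal.mem_dual (one_ne_zero (α := FractionalIdeal (intB K F)⁰ F))]
  constructor
  · intro H b
    have := H (b : F) (FractionalIdeal.coe_mem_one _ b)
    simpa [Algebra.traceForm_apply] using this
  · intro H a ha
    obtain ⟨b, rfl⟩ := (FractionalIdeal.mem_one_iff _).mp ha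
    exact H b

theorem mem_dual_one_iff_different_sep (h : F) :
    h ∈ FractionalIdeal.dual K[X] (RatFunc K) (1 : FractionalIdeal (intB K F)⁰ F) ↔
      ∀ d ∈ differentIdeal K[X] (intB K F), ∀ w : HeightOneSpectrum (intB K F),
        w.valuation F (h * (d : F)) ≤ 1 := by
  haveI := isSeparable_fractionRing_ctx (K := K) (F := F)
  have hD : (differentIdeal K[X] (intB K F) : FractionalIdeal (intB K F)⁰ F) ≠ 0 :=
    FractionalIdeal.coeIdeal_ne_zero.mpr differentIdeal_ne_bot
  have h1 : FractionalIdeal.dual K[X] (RatFunc K) (1 : FractionalIdeal (intB K F)⁰ F) =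
      (↑(differentIdeal K[X] (intB K F)) : FractionalIdeal (intB K F)⁰ F)⁻¹ := by
    rw [coeIdeal_differentIdeal K[X] (RatFunc K) F (intB K F), inv_inv]
  rw [h1, FractionalIdeal.mem_inv_iff hD]
  constructor
  · intro H d hd w
    have := H d ((FractionalIdeal.mem_coeIdeal _).mpr ⟨d, hd, rfl⟩)
    obtain ⟨b, hb⟩ := (FractionalIdeal.mem_one_iff _).mp this
    rw [← hb]
    exact w.valuation_le_one b
  · intro H y hy
    obtain ⟨d, hd, rfl⟩ := (FractionalIdeal.mem_coeIdeal _).mp hy
    obtain ⟨b, hb⟩ := HeightOneSpectrum.mem_integers_of_valuation_le_one F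
      (h * algebraMap (intB K F) F d) (fun w => H d hd w)
    exact (FractionalIdeal.mem_one_iff _).mpr ⟨b, hb⟩

/-- **Trace integrality** (easy half of Dedekind's different theorem). -/
theorem trace_mem_range_of_valuation_le (h : F)
    (H : ∀ (w : HeightOneSpectrum (intB K F)) (a : K) (e : ℕ), e ≠ 0 →
        w.intValuation (xSubB a) = WithZero.exp (-(e : ℤ)) →
          w.valuation F h ≤ WithZero.exp ((e : ℤ) - 1)) (b : intB K F) :
    Algebra.trace (RatFunc K) F (h * (b : F)) ∈ (algebraMap K[X] (RatFunc K)).range := by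
  revert b
  rw [← mem_dual_one_iff_trace_sep, mem_dual_one_iff_different_sep]
  intro d hd w
  haveI : w.asIdeal.IsMaximal := w.isMaximal
  obtain ⟨a, ha⟩ := exists_xSubB_mem w.asIdeal
  have hne : w.intValuation (xSubB a) ≠ 0 := w.intValuation_ne_zero _ (xSubB_ne_zero a)
  have hlt : w.intValuation (xSubB a) < 1 := (w.intValuation_lt_one_iff_mem _).mpr ha
  obtain ⟨m, hm⟩ : ∃ m : ℤ, w.intValuation (xSubB a) = WithZero.exp m :=
    ⟨_, (WithZero.exp_log hne).symm⟩
  have hm0 : m < 0 := by
    rw [hm, ← WithZero.exp_zero, WithZero.exp_lt_exp] at hlt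
    exact hlt
  obtain ⟨e, he⟩ : ∃ e : ℕ, m = -(e : ℤ) := ⟨(-m).toNat, by omega⟩
  have he0 : e ≠ 0 := by
    rintro rfl
    simp at he
    omega
  have hval : w.intValuation (xSubB a) = WithZero.exp (-(e : ℤ)) := by rw [hm, he]
  have hdvd := different_exponent_ge_ctx a w e hval
  have hdmem : d ∈ w.asIdeal ^ (e - 1) := Ideal.le_of_dvd hdvd hd
  have hdv := (w.intValuation_le_pow_iff_mem d (e - 1)).mpr hdmem
  have hh := H w a e he0 hval
  have hcoe : ((d : intB K F) : F) = algebraMap (intB K F) F d := rfl
  rw [map_mul, hcoe, w.valuation_of_algebraMap]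
  calc w.valuation F h * w.intValuation d
      ≤ WithZero.exp ((e : ℤ) - 1) * WithZero.exp (-((e - 1 : ℕ) : ℤ)) := mul_le_mul' hh hdv
    _ = 1 := by
      rw [← WithZero.exp_add, ← WithZero.exp_zero]
      congr 1
      omega

end Ctx

end Fermat.Agent.S18.RRl
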