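/-
S18 swarm, piece 87-P1-C (lead), part 4: chart-free form of trace integrality.

`t : F` transcendental over `K`, `F / K(t)` finite separable.  If `ord_v h ≥ 1 - e_v` at every
place `v` where `t` is finite (`e_v = ord_v (t - a)`, `a` the value of `t` at `v`), then
`Tr_{F/K(t)} (h b)` is a polynomial in `t` for every `b` integral over `K[t]`.
-/
import Mathlib
import Fermat.Agent.RR.Pairing
import Fermat.Agent.S18.RRl.Places
import Fermat.Agent.S18.RRl.RHTraceDual

set_option autoImplicit false
set_option linter.unusedSectionVars false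
set_option linter.style.haveILetI false

open AlgebraicCurve KaehlerDifferential IntermediateField Polynomial IsDedekindDomain
open Fermat.Agent.S18.FFl Fermat.Agent.RR

noncomputable section

namespace Fermat.Agent.S18.RRl

namespace TraceFinAux

section Ctx

variable {K F : Type*} [Field K] [Field F] [Algebra K F] [IsAlgClosed K]
variable [Algebra K[X] F] [IsScalarTower K K[X] F]
variable [Algebra (RatFunc K) F] [IsScalarTower K[X] (RatFunc K) F]
variable [FiniteDimensional (RatFunc K) F] [Algebra.IsSeparable (RatFunc K) F]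

theorem algebraMap_poly (p : K[X]) : algebraMap K[X] F p = aeval (genX K F) p := by
  have h : (IsScalarTower.toAlgHom K K[X] F) = aeval (genX K F) := by
    apply Polynomial.algHom_ext
    rw [aeval_X]
    rfl
  exact DFunLike.congr_fun h p

variable (t : F) (ht : Transcendental K t) [FiniteDimensional K⟮t⟯ F]

theorem algebraMap_ratFunc_eq
    (hmap : ∀ u : RatFunc K, algebraMap (RatFunc K) F u =
      ((RatFunc.algEquivOfTranscendental t ht u : K⟮t⟯) : F)) :
    algebraMap (RatFunc K) F = (algebraMap K⟮t⟯ F).comp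
      ((RatFunc.algEquivOfTranscendental t ht).toRingEquiv.toRingHom) := by
  ext u
  rw [hmap]
  rfl

include ht in
theorem coe_trace_eq
    (hmap : ∀ u : RatFunc K, algebraMap (RatFunc K) F u =
      ((RatFunc.algEquivOfTranscendental t ht u : K⟮t⟯) : F)) (f : F) :
    ((Algebra.trace K⟮t⟯ F f : K⟮t⟯) : F) =
      algebraMap (RatFunc K) F (Algebra.trace (RatFunc K) F f) := by
  rw [hmap]
  have := Algebra.trace_eq_of_ringEquiv (A := RatFunc K) (B := K⟮t⟯) (C := F)
    (RatFunc.algEquivOfTranscendental t ht).toRingEquiv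
    (algebraMap_ratFunc_eq t ht hmap).symm f
  rw [← this]
  rfl

include ht in
theorem exists_poly_iff (hgen : genX K F = t)
    (hmap : ∀ u : RatFunc K, algebraMap (RatFunc K) F u =
      ((RatFunc.algEquivOfTranscendental t ht u : K⟮t⟯) : F)) (f : F) :
    (∃ p : K[X], aeval t p = ((Algebra.trace K⟮t⟯ F f : K⟮t⟯) : F)) ↔
      Algebra.trace (RatFunc K) F f ∈ (algebraMap K[X] (RatFunc K)).range := by
  rw [coe_trace_eq t ht hmap]
  constructor
  · rintro ⟨p, hp⟩
    refine ⟨p, (algebraMap (RatFunc K) F).injective ?_⟩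
    rw [← hp, ← IsScalarTower.algebraMap_apply, algebraMap_poly, hgen]
  · rintro ⟨p, hp⟩
    refine ⟨p, ?_⟩
    rw [← hp, ← IsScalarTower.algebraMap_apply, algebraMap_poly, hgen]

theorem genX_mem_ofHeightOneSpectrum (w : HeightOneSpectrum (intB K F)) (b : intB K F) :
    (b : F) ∈ (Place.ofHeightOneSpectrum (K := K) w : Place K F).toValuationSubring := by
  rw [Place.ofHeightOneSpectrum_toValuationSubring, Valuation.mem_valuationSubring_iff]
  exact w.valuation_le_one b

theorem genX_mem_intB : genX K F ∈ intB K F := by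
  have : genX K F = algebraMap K[X] F X := rfl
  rw [this]
  exact Subalgebra.algebraMap_mem _ _

theorem ord_t_nonneg (hgen : genX K F = t) (w : HeightOneSpectrum (intB K F)) :
    0 ≤ (Place.ofHeightOneSpectrum (K := K) w : Place K F).ord t := by
  rw [← hgen]
  exact Fermat.Agent.S18.FFl.ord_nonneg_of_mem _
    (genX_mem_ofHeightOneSpectrum w ⟨genX K F, genX_mem_intB⟩)

theorem mem_intB_of_mem_lamFin_zero (hgen : genX K F = t) (b : F)
    (h : b ∈ lamFin t (0 : Divisor K F)) : b ∈ intB K F := by
  rw [mem_lamFin_iff] at h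
  have := HeightOneSpectrum.mem_integers_of_valuation_le_one (R := intB K F) F b (fun w => by
    rcases h (Place.ofHeightOneSpectrum (K := K) w) (ord_t_nonneg t hgen w) with h0 | h0
    · rw [h0, map_zero]; exact zero_le_one
    · rw [Finsupp.zero_apply, neg_zero] at h0
      rcases eq_or_ne b 0 with rfl | hb0
      · rw [map_zero]; exact zero_le_one
      have hm := Fermat.Agent.S18.FFl.mem_of_ord_nonneg _ hb0 h0
      rwa [Place.ofHeightOneSpectrum_toValuationSubring,
        Valuation.mem_valuationSubring_iff] at hm)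
  obtain ⟨c, hc⟩ := this
  rw [← hc]
  exact c.2

theorem valuation_le_exp_iff (w : HeightOneSpectrum (intB K F)) (h : F) (n : ℤ) :
    w.valuation F h ≤ WithZero.exp n ↔
      h = 0 ∨ -n ≤ (Place.ofHeightOneSpectrum (K := K) w : Place K F).ord h := by
  rcases eq_or_ne h 0 with rfl | hh
  · simp
  have hne : w.valuation F h ≠ 0 := (Valuation.ne_zero_iff _).mpr hh
  rw [ord_ofHeightOneSpectrum, ← WithZero.log_le_iff_le_exp hne]
  constructor
  · intro h1
    right
    omega
  · rintro (h1 | h1)
    · exact absurd h1 hh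
    · omega

include ht in
/-- the chart-free hypothesis implies the hypothesis in the instance context. -/
theorem hyp_ctx (hgen : genX K F = t) (h : F)
    (H : ∀ (v : Place K F) (a : K), 0 < v.ord (t - algebraMap K F a) →
      h = 0 ∨ 1 - v.ord (t - algebraMap K F a) ≤ v.ord h) :
    ∀ (w : HeightOneSpectrum (intB K F)) (a : K) (e : ℕ), e ≠ 0 →
      w.intValuation (xSubB a) = WithZero.exp (-(e : ℤ)) →
        w.valuation F h ≤ WithZero.exp ((e : ℤ) - 1) := by
  intro w a e he hw
  rw [valuation_le_exp_iff]
  have hord : (Place.ofHeightOneSpectrum (K := K) w : Place K F).ord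
      (t - algebraMap K F a) = e := by
    rw [← hgen, ord_genX_sub, hw, WithZero.log_exp, neg_neg]
  have h0 : (0 : ℤ) < (Place.ofHeightOneSpectrum (K := K) w : Place K F).ord
      (t - algebraMap K F a) := by
    rw [hord]
    exact_mod_cast Nat.pos_of_ne_zero he
  rcases H _ a h0 with h1 | h1
  · exact Or.inl h1
  · right
    rw [hord] at h1
    linarith

end Ctx

end TraceFinAux

section Main

variable {K F : Type*} [Field K] [Field F] [Algebra K F] [IsAlgClosed K]

/-- **trace integrality, chart-free form**. -/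
theorem trace_polynomial_of_ord (t : F) (ht : Transcendental K t) [FiniteDimensional K⟮t⟯ F]
    [Algebra.IsSeparable K⟮t⟯ F] (h : F)
    (H : ∀ (v : Place K F) (a : K), 0 < v.ord (t - algebraMap K F a) →
      h = 0 ∨ 1 - v.ord (t - algebraMap K F a) ≤ v.ord h)
    (b : F) (hb : b ∈ lamFin t (0 : Divisor K F)) :
    ∃ p : K[X], aeval t p = ((Algebra.trace K⟮t⟯ F (h * b) : K⟮t⟯) : F) := by
  refine ctx_elim t ht ?_
  intro _ _ _ _ _ _ hgen _ hmap
  rw [TraceFinAux.exists_poly_iff t ht hgen hmap]
  exact trace_mem_range_of_valuation_le h (TraceFinAux.hyp_ctx t ht hgen h H)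
    ⟨b, TraceFinAux.mem_intB_of_mem_lamFin_zero t hgen b hb⟩

end Main

end Fermat.Agent.S18.RRl
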