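/-
S18 swarm, piece 87-P1-C (lead), part 5: the functional `rho x hx = res_∞ ∘ Tr_{F/K(x)}` kills
the functions of order `≥ 1 - e_v` at the finite places (chart `x`) and the functions of order
`≥ e_v + 1` at the poles of `x`.  Any characteristic, `F / K(x)` finite separable.
-/
import Mathlib
import Fermat.Agent.RR.Pairing
import Fermat.Agent.RR.PairingGlue
import Fermat.Agent.RR.AInfHalf
import Fermat.Agent.S18.RRl.Places
import Fermat.Agent.S18.RRl.Fibres
import Fermat.Agent.S18.RRl.Step
import Fermat.Agent.S18.RRl.Support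
import Fermat.Agent.S18.RRl.RHTraceFin

set_option autoImplicit false
set_option linter.unusedSectionVars false
set_option linter.style.haveILetI false

open AlgebraicCurve Polynomial IntermediateField Module Fermat.Agent.FF Fermat.Agent.RR

noncomputable section

namespace Fermat.Agent.S18.RRl

namespace TraceInfAux

variable {K F : Type*} [Field K] [Field F] [Algebra K F] [IsAlgClosed K]

section PoleKill

variable (y : F) (hy : Transcendental K y) [FiniteDimensional K⟮y⟯ F]
  [Algebra.IsSeparable K⟮y⟯ F]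

include hy

/-- a polynomial in `y`, a unit at the zeros of `y`, vanishing to high order at finitely many
other places -/
theorem exists_pole_killer (S : Finset (Place K F))
    (hS : ∀ w ∈ S, 0 ≤ w.ord y ∧ ¬ 0 < w.ord y) (N : ℕ) :
    ∃ Q : F, Q ≠ 0 ∧ Q ∈ K⟮y⟯ ∧ (∀ w : Place K F, 0 < w.ord y → w.ord Q = 0) ∧
      (∀ w : Place K F, 0 ≤ w.ord y → 0 ≤ w.ord Q) ∧ ∀ w ∈ S, (N : ℤ) ≤ w.ord Q := by
  classical
  induction S using Finset.induction_on with
  | empty =>
    exact ⟨1, one_ne_zero, one_mem _, fun w _ => w.ord_one, fun w _ => by rw [w.ord_one],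
      fun w hw => absurd hw (Finset.notMem_empty w)⟩
  | insert w₀ S hw₀ ih =>
    obtain ⟨Q₀, hQ0, hQmem, hQzero, hQfin, hQS⟩ :=
      ih fun w hw => hS w (Finset.mem_insert_of_mem hw)
    have hw₀' := hS w₀ (Finset.mem_insert_self w₀ S)
    obtain ⟨a, ha⟩ := StepAux.exists_value y hy w₀ hw₀'.1
    have ha' : 0 < w₀.ord (y - algebraMap K F a) := ha
    have ha0 : a ≠ 0 := by
      rintro rfl
      rw [map_zero, sub_zero] at ha'
      exact hw₀'.2 ha'
    have hne : y - algebraMap K F a ≠ 0 := StepAux.sub_const_ne_zero y hy a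
    have hpne : (y - algebraMap K F a) ^ N ≠ 0 := pow_ne_zero _ hne
    have hmem : y - algebraMap K F a ∈ K⟮y⟯ :=
      sub_mem (mem_adjoin_simple_self K y) (K⟮y⟯.algebraMap_mem a)
    refine ⟨(y - algebraMap K F a) ^ N * Q₀, mul_ne_zero hpne hQ0,
      mul_mem (pow_mem hmem N) hQmem, fun w hw => ?_, fun w hw => ?_, fun w hw => ?_⟩
    · have hw0 : w ∈ placesOver y (0 : K) := by
        show 0 < w.ord (y - algebraMap K F 0)
        rwa [map_zero, sub_zero]
      rw [w.ord_mul hpne hQ0, H6.ord_pow', StepAux.ord_sub_const_eq_zero y hy w hw0 ha0,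
        hQzero w hw]
      simp
    · rw [w.ord_mul hpne hQ0, H6.ord_pow']
      have h1 := StepAux.ord_sub_const_nonneg y hy w hw a
      have h2 := hQfin w hw
      have h3 : 0 ≤ (N : ℤ) * w.ord (y - algebraMap K F a) :=
        mul_nonneg (Int.natCast_nonneg N) h1
      omega
    · rw [w.ord_mul hpne hQ0, H6.ord_pow']
      have hwfin : 0 ≤ w.ord y := (hS w hw).1
      have h1 := StepAux.ord_sub_const_nonneg y hy w hwfin a
      have h2 := hQfin w hwfin
      rcases Finset.mem_insert.mp hw with rfl | hwS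
      · have h3 : (N : ℤ) * 1 ≤ (N : ℤ) * w.ord (y - algebraMap K F a) :=
          mul_le_mul_of_nonneg_left (by omega) (Int.natCast_nonneg N)
        omega
      · have h3 := hQS w hwS
        have h4 : 0 ≤ (N : ℤ) * w.ord (y - algebraMap K F a) :=
          mul_nonneg (Int.natCast_nonneg N) h1
        omega

theorem one_mem_lamFin_zero : (1 : F) ∈ lamFin y (0 : Divisor K F) := by
  rw [mem_lamFin_iff]
  intro w _
  right
  rw [w.ord_one]
  simp

/-- **local trace integrality at `y = 0`**: if `ord_w h ≥ 1 - ord_w y` at all zeros `w` of `y`,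
then `Tr h` is regular at the zeros of `y`. -/
theorem trF_regular (h : F)
    (hh : ∀ w : Place K F, 0 < w.ord y → h = 0 ∨ 1 - w.ord y ≤ w.ord h)
    (v : Place K F) (hv : 0 < v.ord y) :
    trF (K := K) y h = 0 ∨ 0 ≤ v.ord (trF (K := K) y h) := by
  classical
  rcases eq_or_ne h 0 with rfl | h0
  · exact Or.inl (trF_zero y)
  have hy0 : y ≠ 0 := FFl.ne_zero_of_transcendental y hy
  set S : Finset (Place K F) :=
    (FFl.finite_pole y hy h).toFinset.filter (fun w => ¬ 0 < w.ord y) with hSdef
  have hS : ∀ w ∈ S, 0 ≤ w.ord y ∧ ¬ 0 < w.ord y := fun w hw => by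
    rw [hSdef, Finset.mem_filter, Set.Finite.mem_toFinset] at hw
    exact ⟨hw.1.1, hw.2⟩
  have hSmem : ∀ w : Place K F, 0 ≤ w.ord y → ¬ 0 < w.ord y → w.ord h < 0 → w ∈ S := by
    intro w hw1 hw2 hw3
    rw [hSdef, Finset.mem_filter, Set.Finite.mem_toFinset]
    exact ⟨⟨hw1, hw3⟩, hw2⟩
  set N : ℕ := ∑ w ∈ S, (-w.ord h).toNat with hNdef
  have hN : ∀ w ∈ S, -w.ord h ≤ (N : ℤ) := by
    intro w hw
    have h2 : (-w.ord h).toNat ≤ N :=
      Finset.single_le_sum (f := fun w : Place K F => (-w.ord h).toNat)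
        (fun _ _ => Nat.zero_le _) hw
    have h3 := Int.self_le_toNat (-w.ord h)
    omega
  obtain ⟨Q, hQ0, hQmem, hQzero, hQfin, hQS⟩ := exists_pole_killer y hy S hS N
  have hQh : ∀ (w : Place K F) (a : K), 0 < w.ord (y - algebraMap K F a) →
      Q * h = 0 ∨ 1 - w.ord (y - algebraMap K F a) ≤ w.ord (Q * h) := by
    intro w a hwa
    right
    rw [w.ord_mul hQ0 h0]
    by_cases ha : a = 0
    · subst ha
      rw [map_zero, sub_zero] at hwa ⊢
      rw [hQzero w hwa, zero_add]
      exact (hh w hwa).resolve_left h0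
    · have hwmem : w ∈ placesOver y a := hwa
      have hw0 : w.ord y = 0 := by
        have := StepAux.ord_sub_const_eq_zero y hy w hwmem (b := 0) (Ne.symm ha)
        rwa [map_zero, sub_zero] at this
      by_cases hwS : w ∈ S
      · have := hN w hwS
        have := hQS w hwS
        omega
      · have h3 : 0 ≤ w.ord h := by
          by_contra hne
          exact hwS (hSmem w hw0.ge (by omega) (by omega))
        have := hQfin w hw0.ge
        omega
  obtain ⟨p, hp⟩ := trace_polynomial_of_ord y hy (Q * h) hQh 1 (one_mem_lamFin_zero y hy)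
  rw [mul_one] at hp
  have hp' : aeval y p = trF (K := K) y (Q * h) := hp
  rw [trF_mul_of_mem y hQmem] at hp'
  by_cases ht : trF (K := K) y h = 0
  · exact Or.inl ht
  right
  have hymem : y ∈ v.toValuationSubring := FFl.mem_of_ord_nonneg v hy0 hv.le
  have h4 : 0 ≤ v.ord (aeval y p) :=
    FFl.ord_nonneg_of_mem v (RRl.aeval_mem_valuationSubring v hymem p)
  rw [hp', v.ord_mul hQ0 ht, hQzero v hv, zero_add] at h4
  exact h4

end PoleKill

end TraceInfAux

section Main

variable {K F : Type*} [Field K] [Field F] [Algebra K F] [IsAlgClosed K]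
variable (x : F) (hx : Transcendental K x) [FiniteDimensional K⟮x⟯ F]
  [Algebra.IsSeparable K⟮x⟯ F]

/-- **finite part**: `rho` kills the functions `f` with `ord_v f ≥ 1 - e_v` at all places where
`x` is finite. -/
theorem rho_eq_zero_of_ord_fin (f : F)
    (hf : ∀ (v : Place K F) (a : K), 0 < v.ord (x - algebraMap K F a) →
      f = 0 ∨ 1 - v.ord (x - algebraMap K F a) ≤ v.ord f) :
    rho x hx f = 0 := by
  obtain ⟨p, hp⟩ := trace_polynomial_of_ord x hx f hf 1 (TraceInfAux.one_mem_lamFin_zero x hx)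
  rw [mul_one] at hp
  set e := RatFunc.algEquivOfTranscendental x hx with he
  have h4 : Algebra.trace K⟮x⟯ F f = e (algebraMap K[X] (RatFunc K) p) := by
    apply Subtype.ext
    rw [← hp, he, RatFunc.algEquivOfTranscendental_algebraMap, coe_aeval_gen]
  rw [rho_eq, ← he, h4, AlgEquiv.symm_apply_apply]
  have := (resInf_mul_polynomial_eq_zero_iff (algebraMap K[X] (RatFunc K) p)).mpr ⟨p, rfl⟩ 1
  simpa using this

/-- **infinite part**: `rho` kills the functions `f` with `ord_v f ≥ e_v + 1` at all poles of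
`x`. -/
theorem rho_eq_zero_of_ord_inf (f : F)
    (hf : ∀ v : Place K F, v.ord x < 0 → f = 0 ∨ 1 - v.ord x ≤ v.ord f) :
    rho x hx f = 0 := by
  haveI := finiteDimensional_congr_intermediateField (adjoin_simple_inv_eq (K := K) x).symm
    inferInstance
  haveI := FFl.isSeparable_congr_intermediateField (adjoin_simple_inv_eq (K := K) x).symm
    inferInstance
  have hx0 : x ≠ 0 := FFl.ne_zero_of_transcendental x hx
  have hy : Transcendental K x⁻¹ := transcendental_inv hx
  have hord : ∀ v : Place K F, v.ord x⁻¹ = -v.ord x := fun v => v.ord_inv x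
  have hx2 : x ^ 2 ≠ 0 := pow_ne_zero 2 hx0
  have hx2mem : x ^ 2 ∈ K⟮x⁻¹⟯ := by
    have h : x ∈ K⟮x⁻¹⟯ := by
      have := inv_mem (mem_adjoin_simple_self K x⁻¹)
      rwa [inv_inv] at this
    exact pow_mem h 2
  have htr : ∀ h : F, trF (K := K) x⁻¹ (x ^ 2 * h) = x ^ 2 * trF (K := K) x h := by
    intro h
    rw [trF_mul_of_mem x⁻¹ hx2mem, trF_inv]
  set e := RatFunc.algEquivOfTranscendental x hx with he
  rw [rho_eq, ← he]
  by_cases h0 : e.symm (Algebra.trace K⟮x⟯ F f) = 0
  · rw [h0, map_zero]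
  have hf0 : f ≠ 0 := by
    rintro rfl
    rw [map_zero, map_zero] at h0
    exact h0 rfl
  obtain ⟨v, hv⟩ := FFl.placesOverInf_nonempty (K := K) x hx
  have hv' : v.ord x < 0 := hv
  have hvy : 0 < v.ord x⁻¹ := by rw [hord]; omega
  have key := TraceInfAux.trF_regular x⁻¹ hy (x ^ 2 * f) (fun w hw => by
    have hw' : w.ord x < 0 := by rw [hord] at hw; omega
    right
    have h2 := (hf w hw').resolve_left hf0
    rw [w.ord_mul hx2 hf0, H6.ord_pow', hord]
    push_cast
    omega) v hvy
  rw [htr] at key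
  have h3 := ord_ratFunc_of_neg x hx v hv' h0
  rw [← he, AlgEquiv.apply_symm_apply] at h3
  have htne : trF (K := K) x f ≠ 0 := by
    intro h
    apply h0
    have : Algebra.trace K⟮x⟯ F f = 0 := Subtype.ext h
    rw [this, map_zero]
  have key' := key.resolve_left (mul_ne_zero hx2 htne)
  rw [v.ord_mul hx2 htne, H6.ord_pow'] at key'
  have h3' : v.ord (trF (K := K) x f) =
      (e.symm (Algebra.trace K⟮x⟯ F f)).intDegree * v.ord x := h3
  have hdeg : (e.symm (Algebra.trace K⟮x⟯ F f)).intDegree ≤ -2 := by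
    rw [h3'] at key'
    push_cast at key'
    by_contra hcon
    push Not at hcon
    nlinarith
  have := (resInf_mul_integral_eq_zero_iff _).mpr (Or.inr hdeg) 1 (by simp)
  simpa using this

/-- `rho` is not zero. -/
theorem rho_ne_zero : rho x hx ≠ 0 := by
  intro h
  set e := RatFunc.algEquivOfTranscendental x hx with he
  obtain ⟨f, hf⟩ := Algebra.trace_surjective K⟮x⟯ F (e ((RatFunc.X : RatFunc K) ^ (-1 : ℤ)))
  have h1 := congrArg (fun φ => φ f) h
  simp only [LinearMap.zero_apply] at h1
  rw [rho_eq, hf, ← he, AlgEquiv.symm_apply_apply, resInf_X_zpow] at h1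
  simp at h1

end Main

end Fermat.Agent.S18.RRl
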