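/-
S18 swarm, piece 87-P1-C (lead), part 6: the **Riemann–Hurwitz inequality** in any
characteristic for `F / K(x)` finite separable, `K` algebraically closed:

  `∑_{c ∈ C} (n - #fibre c) + (n - #fibre ∞) ≤ 2 g - 2 + 2 n`,

`n = [F : K(x)]`, `g = dim_K H¹(0)`.
-/
import Mathlib
import Fermat.Agent.S18.RRl.RHDeg
import Fermat.Agent.S18.RRl.RHTraceInf
import Fermat.Agent.S18.RRl.Riemann
import Fermat.Agent.S18.RRl.Sep

set_option autoImplicit false
set_option linter.unusedSectionVars false
set_option linter.style.haveILetI false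

open AlgebraicCurve Polynomial IntermediateField Module Fermat.Agent.FF Fermat.Agent.RR

noncomputable section

namespace Fermat.Agent.S18.RRl

namespace RHAux

variable {K F : Type*} [Field K] [Field F] [Algebra K F] [IsAlgClosed K]
variable (x : F) (hx : Transcendental K x) [FiniteDimensional K⟮x⟯ F]
  [Algebra.IsSeparable K⟮x⟯ F]

/-- the weight of a place in the ramification divisor -/
def wt (C : Finset K) (v : Place K F) : ℤ :=
  if v.ord x < 0 then v.ord x - 1 else ∑ c ∈ C, max (v.ord (x - algebraMap K F c) - 1) 0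

theorem wt_of_neg (C : Finset K) (v : Place K F) (hv : v.ord x < 0) :
    wt x C v = v.ord x - 1 := if_pos hv

theorem wt_of_nonneg (C : Finset K) (v : Place K F) (hv : ¬ v.ord x < 0) :
    wt x C v = ∑ c ∈ C, max (v.ord (x - algebraMap K F c) - 1) 0 := if_neg hv

include hx

theorem wt_le_of_pos (C : Finset K) (v : Place K F) (a : K)
    (hv : 0 < v.ord (x - algebraMap K F a)) :
    wt x C v ≤ v.ord (x - algebraMap K F a) - 1 := by
  classical
  have hva : v ∈ placesOver x a := hv
  have hninf : ¬ v.ord x < 0 := fun h => FFl.placesOver_inf_disjoint x v hva h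
  rw [wt_of_nonneg x C v hninf]
  have hterm : ∀ c ∈ C, max (v.ord (x - algebraMap K F c) - 1) 0 =
      if c = a then v.ord (x - algebraMap K F a) - 1 else 0 := by
    intro c _
    by_cases hca : c = a
    · subst hca
      rw [if_pos rfl]
      exact max_eq_left (by omega)
    · rw [if_neg hca, StepAux.ord_sub_const_eq_zero x hx v hva hca]
      exact max_eq_right (by omega)
  rw [Finset.sum_congr rfl hterm, Finset.sum_ite_eq' C a]
  split_ifs
  · exact le_rfl
  · omega

/-- the support of the ramification divisor -/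
def suppW (C : Finset K) : Finset (Place K F) :=
  haveI := Classical.decEq (Place K F)
  (FFl.placesOverInf_finite x hx).toFinset ∪
    C.biUnion fun c => (FFl.placesOver_finite x hx c).toFinset

/-- the ramification divisor `∑_{v | c ∈ C} (e_v - 1) v - ∑_{v | ∞} (e_v + 1) v` -/
def ramDiv (C : Finset K) : Divisor K F :=
  ∑ v ∈ suppW x hx C, Finsupp.single v (wt x C v)

theorem mem_suppW (C : Finset K) (v : Place K F) :
    v ∈ suppW x hx C ↔ v.ord x < 0 ∨ ∃ c ∈ C, 0 < v.ord (x - algebraMap K F c) := by
  classical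
  unfold suppW
  rw [Finset.mem_union, Finset.mem_biUnion, Set.Finite.mem_toFinset]
  refine or_congr Iff.rfl (exists_congr fun c => and_congr Iff.rfl ?_)
  rw [Set.Finite.mem_toFinset]
  rfl

theorem wt_eq_zero_of_notMem (C : Finset K) (v : Place K F) (hv : v ∉ suppW x hx C) :
    wt x C v = 0 := by
  rw [mem_suppW] at hv
  push Not at hv
  rw [wt_of_nonneg x C v (by omega)]
  refine Finset.sum_eq_zero fun c hc => ?_
  have := hv.2 c hc
  exact max_eq_right (by omega)

theorem ramDiv_apply (C : Finset K) (v : Place K F) : ramDiv x hx C v = wt x C v := by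
  classical
  unfold ramDiv
  rw [Finsupp.finsetSum_apply]
  simp only [Finsupp.single_apply]
  rw [Finset.sum_ite_eq' (suppW x hx C) v]
  split_ifs with h
  · rfl
  · exact (wt_eq_zero_of_notMem x hx C v h).symm

theorem degree_ramDiv (C : Finset K) :
    Divisor.degree (ramDiv x hx C) =
      ∑ c ∈ C, ((Module.finrank K⟮x⟯ F : ℤ) - ((FFl.placesOver_finite x hx c).toFinset.card : ℤ))
        - (Module.finrank K⟮x⟯ F : ℤ) - ((FFl.placesOverInf_finite x hx).toFinset.card : ℤ) := by
  classical
  unfold ramDiv
  rw [map_sum]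
  have h1 : ∀ v ∈ suppW x hx C, Divisor.degree (Finsupp.single v (wt x C v)) = wt x C v := by
    intro v _
    rw [Divisor.degree_single, FFl.place_deg_eq_one x hx v]
    simp
  rw [Finset.sum_congr rfl h1]
  unfold suppW
  have hdisj : Disjoint (FFl.placesOverInf_finite x hx).toFinset
      (C.biUnion fun c => (FFl.placesOver_finite x hx c).toFinset) := by
    rw [Finset.disjoint_left]
    intro v hv1 hv2
    rw [Set.Finite.mem_toFinset] at hv1
    rw [Finset.mem_biUnion] at hv2
    obtain ⟨c, _, hc⟩ := hv2
    rw [Set.Finite.mem_toFinset] at hc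
    exact FFl.placesOver_inf_disjoint x v hc hv1
  rw [Finset.sum_union hdisj]
  -- the part at infinity
  have hinf : ∑ v ∈ (FFl.placesOverInf_finite x hx).toFinset, wt x C v =
      -(Module.finrank K⟮x⟯ F : ℤ) - ((FFl.placesOverInf_finite x hx).toFinset.card : ℤ) := by
    have h2 : ∀ v ∈ (FFl.placesOverInf_finite x hx).toFinset, wt x C v = -(-v.ord x) - 1 := by
      intro v hv
      rw [Set.Finite.mem_toFinset] at hv
      rw [wt_of_neg x C v hv]
      ring
    rw [Finset.sum_congr rfl h2, Finset.sum_sub_distrib, Finset.sum_neg_distrib,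
      FFl.sum_ord_placesOverInf x hx]
    simp
  -- the finite part
  have hfin : ∑ v ∈ C.biUnion (fun c => (FFl.placesOver_finite x hx c).toFinset), wt x C v =
      ∑ c ∈ C, ((Module.finrank K⟮x⟯ F : ℤ) -
        ((FFl.placesOver_finite x hx c).toFinset.card : ℤ)) := by
    have h3 : ∀ v ∈ C.biUnion (fun c => (FFl.placesOver_finite x hx c).toFinset),
        wt x C v = ∑ c ∈ C, max (v.ord (x - algebraMap K F c) - 1) 0 := by
      intro v hv
      rw [Finset.mem_biUnion] at hv
      obtain ⟨c, _, hc⟩ := hv
      rw [Set.Finite.mem_toFinset] at hc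
      exact wt_of_nonneg x C v fun h => FFl.placesOver_inf_disjoint x v hc h
    rw [Finset.sum_congr rfl h3, Finset.sum_comm]
    refine Finset.sum_congr rfl fun c hc => ?_
    have hsub : (FFl.placesOver_finite x hx c).toFinset ⊆
        C.biUnion (fun c => (FFl.placesOver_finite x hx c).toFinset) :=
      Finset.subset_biUnion_of_mem (fun c => (FFl.placesOver_finite x hx c).toFinset) hc
    rw [← Finset.sum_subset hsub (fun v _ hv => by
      rw [Set.Finite.mem_toFinset] at hv
      have hv' : ¬ 0 < v.ord (x - algebraMap K F c) := hv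
      exact max_eq_right (by omega))]
    have h4 : ∀ v ∈ (FFl.placesOver_finite x hx c).toFinset,
        max (v.ord (x - algebraMap K F c) - 1) 0 = v.ord (x - algebraMap K F c) - 1 := by
      intro v hv
      rw [Set.Finite.mem_toFinset] at hv
      have hv' : 0 < v.ord (x - algebraMap K F c) := hv
      exact max_eq_left (by omega)
    rw [Finset.sum_congr rfl h4, Finset.sum_sub_distrib, FFl.sum_ord_placesOver x hx c]
    simp
  rw [hinf, hfin]
  ring

end RHAux

section Main

variable {K F : Type*} [Field K] [Field F] [Algebra K F] [IsAlgClosed K]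

/-- **Riemann–Hurwitz inequality**, any characteristic: for `F / K(x)` finite separable of
degree `n` and a finite set `C` of values,
`∑_{c ∈ C} (n - #fibre c) + (n - #fibre ∞) ≤ 2 g - 2 + 2 n`, with `g = dim H¹(0)`. -/
theorem rh_inequality_sep (x : F) (hx : Transcendental K x) [FiniteDimensional K⟮x⟯ F]
    [Algebra.IsSeparable K⟮x⟯ F] (C : Finset K) :
    ∑ c ∈ C, ((Module.finrank K⟮x⟯ F : ℤ) - ((FFl.placesOver_finite x hx c).toFinset.card : ℤ))
        + ((Module.finrank K⟮x⟯ F : ℤ) - ((FFl.placesOverInf_finite x hx).toFinset.card : ℤ)) ≤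
      2 * (Module.finrank K (H1' x (0 : Divisor K F)) : ℤ) - 2
        + 2 * (Module.finrank K⟮x⟯ F : ℤ) := by
  obtain ⟨v₀, _⟩ := FFl.placesOverInf_nonempty (K := K) x hx
  have hD : Divisor.degree (-(Finsupp.single v₀ (1 : ℤ)) : Divisor K F) < 0 := by
    rw [map_neg, Divisor.degree_single, FFl.place_deg_eq_one x hx v₀]
    simp
  have h1 : ∀ f ∈ lamFin x (RHAux.ramDiv x hx C), rho x hx f = 0 := by
    intro f hf
    rw [mem_lamFin_iff] at hf
    refine rho_eq_zero_of_ord_fin x hx f fun v a hva => ?_
    have hva' : v ∈ placesOver x a := hva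
    have hfin : 0 ≤ v.ord x := by
      by_contra h
      exact FFl.placesOver_inf_disjoint x v hva' (not_le.mp h)
    rcases hf v hfin with h | h
    · exact Or.inl h
    · right
      rw [RHAux.ramDiv_apply] at h
      have := RHAux.wt_le_of_pos x hx C v a hva
      omega
  have h2 : ∀ f ∈ lamInf x (RHAux.ramDiv x hx C), rho x hx f = 0 := by
    intro f hf
    rw [mem_lamInf_iff] at hf
    refine rho_eq_zero_of_ord_inf x hx f fun v hv => ?_
    rcases hf v hv with h | h
    · exact Or.inl h
    · right
      rw [RHAux.ramDiv_apply, RHAux.wt_of_neg x C v hv] at h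
      omega
  have key := degree_le_of_rho x (riemannData_sep x hx) (RHAux.ramDiv x hx C) _ hD
    (rho x hx) (rho_ne_zero x hx) h1 h2
  rw [RHAux.degree_ramDiv] at key
  linarith

end Main

end Fermat.Agent.S18.RRl
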