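import Mathlib
import Fermat.Agent.FF.Separation
import Fermat.Agent.S18.RPrimeBasic

/-!
# 87 (helper9): a function field of genus `0` is rational (any characteristic)

From `h : RPrime.CurveRR K F 0` (Riemann's theorem with `g = 0`, all places of degree one) and a
place `P`:

* `exists_simple_pole` : `t ∈ L(P)` with `ord_P t = -1`;
* `exists_gen_of_genus_zero` : `K⟮t⟯ = ⊤` for such a `t`.

Proof: `L(0) = K`, `L(P) = K + K t`; for `Q ≠ P` there is `s_Q = a + b t` with divisor `Q - P`;
every `u ≠ 0` has the divisor of a product of powers of the `s_Q`, so `u` is a constant times it.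
-/

set_option autoImplicit false
set_option linter.style.haveILetI false

open AlgebraicCurve Module IntermediateField

noncomputable section

namespace Fermat.Agent.S18.RRl.GZ

open Fermat.Agent.S18.RPrime Fermat.Agent.FF.H6

variable {K F : Type*} [Field K] [Field F] [Algebra K F]

variable (h : CurveRR K F 0)

include h

/-- `L(0) = K` -/
theorem mem_L_zero {w : F} (hw : w ∈ riemannRochSpace (0 : Divisor K F)) :
    ∃ c : K, w = algebraMap K F c := by
  have h1 := h.riemann 0 (by simp)
  rw [map_zero] at h1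
  have hfr : finrank K (riemannRochSpace (0 : Divisor K F)) = 1 := by
    have : (finrank K (riemannRochSpace (0 : Divisor K F)) : ℤ) = 1 := by
      rw [h1]; simp
    exact_mod_cast this
  have h1mem : (1 : F) ∈ riemannRochSpace (0 : Divisor K F) := by
    rw [mem_L_iff one_ne_zero]
    intro v
    simp
  have hne : (⟨1, h1mem⟩ : riemannRochSpace (0 : Divisor K F)) ≠ 0 := by
    intro h0
    exact one_ne_zero (congrArg Subtype.val h0)
  haveI := h.finite 0
  obtain ⟨c, hc⟩ := (finrank_eq_one_iff_of_nonzero' _ hne).mp hfr ⟨w, hw⟩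
  refine ⟨c, ?_⟩
  have := congrArg Subtype.val hc
  simp only [Submodule.coe_smul] at this
  rw [← this, Algebra.smul_def, mul_one]

/-- a function with trivial divisor away from `P` is constant -/
theorem const_of_ord_eq_zero (P : Place K F) {w : F} (hw0 : w ≠ 0)
    (hw : ∀ v : Place K F, v ≠ P → v.ord w = 0) : ∃ c : K, w = algebraMap K F c := by
  classical
  obtain ⟨G, hG, hdeg⟩ := h.exists_div w hw0
  have hGP : G = Finsupp.single P (G P) := by
    ext v
    by_cases hv : v = P
    · subst hv; simp
    · rw [Finsupp.single_apply, if_neg (Ne.symm hv), hG, hw v hv]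
  have hP0 : G P = 0 := by
    rw [hGP, degree_single_one h.deg_one] at hdeg
    exact hdeg
  apply mem_L_zero h
  rw [mem_L_iff hw0]
  intro v
  by_cases hv : v = P
  · subst hv
    rw [← hG, hP0]; simp
  · rw [hw v hv]; simp

/-- a function with a simple pole at `P` and no other pole -/
theorem exists_simple_pole (P : Place K F) :
    ∃ t : F, t ≠ 0 ∧ P.ord t = -1 ∧ ∀ Q : Place K F, Q ≠ P → 0 ≤ Q.ord t := by
  classical
  obtain ⟨t, ht, ht0, htP⟩ := exists_ord_eq h (D := Finsupp.single P 1)
    (by rw [degree_single_one h.deg_one]; simp) P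
  refine ⟨t, ht0, by simpa using htP, fun Q hQ => ?_⟩
  have := (mem_L_iff ht0).mp ht Q
  rw [Finsupp.single_apply, if_neg (Ne.symm hQ)] at this
  simpa using this

variable {P : Place K F} {t : F} (ht0 : t ≠ 0) (htP : P.ord t = -1)
  (ht : ∀ Q : Place K F, Q ≠ P → 0 ≤ Q.ord t)

include ht0 htP ht

/-- `L(P) = K + K t` -/
theorem mem_adjoin_of_mem_L {f : F} (hf : f ∈ riemannRochSpace (Finsupp.single P 1 : Divisor K F)) :
    f ∈ K⟮t⟯ := by
  classical
  rcases eq_or_ne f 0 with rfl | hf0
  · exact zero_mem _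
  have hfo := (mem_L_iff hf0).mp hf
  have hfP : -1 ≤ P.ord f := by simpa using hfo P
  -- the quotient `f / t` is regular at `P`
  have hq : 0 ≤ P.ord (f / t) := by
    rw [div_eq_mul_inv, P.ord_mul hf0 (inv_ne_zero ht0), P.ord_inv, htP]
    omega
  -- its value at `P`
  have hres : Function.Surjective (algebraMap K P.ResidueField) := by
    have hd : finrank K P.ResidueField = 1 := h.deg_one P
    intro y
    have hone : (1 : P.ResidueField) ≠ 0 := one_ne_zero
    obtain ⟨c, hc⟩ := (finrank_eq_one_iff_of_nonzero' (1 : P.ResidueField) hone).mp hd y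
    exact ⟨c, by rw [Algebra.algebraMap_eq_smul_one, hc]⟩
  obtain ⟨c, hc⟩ := hres (IsLocalRing.residue P.toValuationSubring
    ⟨f / t, mem_of_ord_nonneg P hq⟩)
  -- `g := f - c t` has no pole
  set g : F := f - algebraMap K F c * t with hg
  have hgmem : g ∈ K⟮t⟯ → f ∈ K⟮t⟯ := by
    intro hgm
    have : f = g + algebraMap K F c * t := by rw [hg]; ring
    rw [this]
    exact add_mem hgm (mul_mem (IntermediateField.algebraMap_mem _ c) (mem_adjoin_simple_self K t))
  apply hgmem
  rcases eq_or_ne g 0 with hg0 | hg0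
  · rw [hg0]; exact zero_mem _
  suffices hL : g ∈ riemannRochSpace (0 : Divisor K F) by
    obtain ⟨a, ha⟩ := mem_L_zero h hL
    rw [ha]
    exact IntermediateField.algebraMap_mem _ a
  rw [mem_L_iff hg0]
  intro v
  simp only [Finsupp.coe_zero, Pi.zero_apply, neg_zero]
  by_cases hv : v = P
  · subst hv
    -- `f / t - c` lies in the maximal ideal
    have hmax : (⟨f / t, mem_of_ord_nonneg v hq⟩ : v.toValuationSubring) -
        algebraMap K v.toValuationSubring c ∈ IsLocalRing.maximalIdeal v.toValuationSubring := by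
      rw [← IsLocalRing.residue_eq_zero_iff, map_sub, ← hc, sub_eq_zero]
      rfl
    have hnu : ¬ IsUnit ((⟨f / t, mem_of_ord_nonneg v hq⟩ : v.toValuationSubring) -
        algebraMap K v.toValuationSubring c) := (IsLocalRing.mem_maximalIdeal _).mp hmax
    have hgt : g = (f / t - algebraMap K F c) * t := by
      rw [hg]; field_simp
    have hd0 : f / t - algebraMap K F c ≠ 0 := by
      intro h0
      apply hg0
      rw [hgt, h0, zero_mul]
    have hdpos : 0 < v.ord (f / t - algebraMap K F c) := by
      have hge : 0 ≤ v.ord (f / t - algebraMap K F c) :=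
        ord_nonneg_of_mem v (sub_mem (mem_of_ord_nonneg v hq) (v.algebraMap_mem' c))
      rcases hge.lt_or_eq with hlt | heq
      · exact hlt
      · exfalso
        apply hnu
        have hinv : 0 ≤ v.ord (f / t - algebraMap K F c)⁻¹ := by
          rw [v.ord_inv]; omega
        refine ⟨⟨_, ⟨(f / t - algebraMap K F c)⁻¹, mem_of_ord_nonneg v hinv⟩, ?_, ?_⟩, rfl⟩
        · apply Subtype.ext
          show (f / t - algebraMap K F c) * (f / t - algebraMap K F c)⁻¹ = 1
          exact mul_inv_cancel₀ hd0
        · apply Subtype.ext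
          show (f / t - algebraMap K F c)⁻¹ * (f / t - algebraMap K F c) = 1
          exact inv_mul_cancel₀ hd0
    rw [hgt, v.ord_mul hd0 ht0, htP]
    omega
  · -- away from `P` both `f` and `t` are regular
    have h1 : 0 ≤ v.ord f := by
      have := hfo v
      rw [Finsupp.single_apply, if_neg (Ne.symm hv)] at this
      simpa using this
    have h2 : 0 ≤ v.ord t := ht v hv
    exact ord_nonneg_of_mem v (sub_mem (mem_of_ord_nonneg v h1)
      (mul_mem (v.algebraMap_mem' c) (mem_of_ord_nonneg v h2)))

/-- for `Q ≠ P` an element of `K(t)` with divisor `Q - P` -/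
theorem exists_local (Q : Place K F) (hQ : Q ≠ P) :
    ∃ s : F, s ∈ K⟮t⟯ ∧ s ≠ 0 ∧ Q.ord s = 1 ∧
      ∀ v : Place K F, v ≠ P → v ≠ Q → v.ord s = 0 := by
  classical
  set D : Divisor K F := Finsupp.single P 1 - Finsupp.single Q 1 with hD
  have hdegD : Divisor.degree D = 0 := by
    rw [hD, map_sub, degree_single_one h.deg_one, degree_single_one h.deg_one]; simp
  obtain ⟨s, hs, hs0, -⟩ := exists_ord_eq h (D := D) (by rw [hdegD]; simp) P
  have hsL : s ∈ riemannRochSpace (Finsupp.single P 1 : Divisor K F) :=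
    L_mono (by
      rw [hD, Finsupp.le_def]
      intro v
      rw [Finsupp.sub_apply]
      have : (0 : ℤ) ≤ (Finsupp.single Q (1 : ℤ)) v := by
        rw [Finsupp.single_apply]; split_ifs <;> simp
      omega) hs
  obtain ⟨G, hG, hdegG⟩ := h.exists_div s hs0
  have hle : -D ≤ G := by
    rw [Finsupp.le_def]
    intro v
    rw [hG]
    exact (mem_L_iff hs0).mp hs v
  have heq : -D = G := eq_of_le_of_degree_le h.deg_one hle (by rw [map_neg, hdegD, hdegG]; simp)
  refine ⟨s, mem_adjoin_of_mem_L h ht0 htP ht hsL, hs0, ?_, ?_⟩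
  · rw [← hG, ← heq, hD, Finsupp.neg_apply, Finsupp.sub_apply, Finsupp.single_apply,
      Finsupp.single_apply, if_neg (Ne.symm hQ), if_pos rfl]
    simp
  · intro v hv hvQ
    rw [← hG, ← heq, hD, Finsupp.neg_apply, Finsupp.sub_apply, Finsupp.single_apply,
      Finsupp.single_apply, if_neg (Ne.symm hv), if_neg (Ne.symm hvQ)]
    simp

/-- every divisor is, away from `P`, the divisor of an element of `K(t)` -/
theorem exists_of_divisor (G : Divisor K F) :
    ∃ s : F, s ∈ K⟮t⟯ ∧ s ≠ 0 ∧ ∀ v : Place K F, v ≠ P → v.ord s = G v := by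
  classical
  induction G using Finsupp.induction with
  | zero => exact ⟨1, one_mem _, one_ne_zero, fun v _ => by simp⟩
  | single_add Q n G' _ _ ih =>
    obtain ⟨s', hs', hs'0, hord'⟩ := ih
    by_cases hQ : Q = P
    · refine ⟨s', hs', hs'0, fun v hv => ?_⟩
      rw [hord' v hv, Finsupp.add_apply, Finsupp.single_apply, if_neg (by rw [hQ]; exact Ne.symm hv),
        zero_add]
    · obtain ⟨s, hs, hs0, hordQ, hord⟩ := exists_local h ht0 htP ht Q hQ
      refine ⟨s ^ n * s', mul_mem (zpow_mem hs n) hs', mul_ne_zero (zpow_ne_zero n hs0) hs'0,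
        fun v hv => ?_⟩
      rw [v.ord_mul (zpow_ne_zero n hs0) hs'0, v.ord_zpow, hord' v hv,
        Finsupp.add_apply, Finsupp.single_apply]
      by_cases hvQ : v = Q
      · rw [hvQ, hordQ, if_pos rfl]; ring
      · rw [hord v hv hvQ, if_neg (Ne.symm hvQ)]; ring

/-- **genus `0` ⇒ rational**: `F = K(t)` for a function `t` with a single simple pole. -/
theorem adjoin_eq_top : K⟮t⟯ = ⊤ := by
  rw [eq_top_iff]
  intro u _
  rcases eq_or_ne u 0 with rfl | hu0
  · exact zero_mem _
  obtain ⟨G, hG, -⟩ := h.exists_div u hu0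
  obtain ⟨s, hs, hs0, hord⟩ := exists_of_divisor h ht0 htP ht G
  have hw0 : u / s ≠ 0 := div_ne_zero hu0 hs0
  obtain ⟨c, hc⟩ := const_of_ord_eq_zero h P hw0 (fun v hv => by
    rw [div_eq_mul_inv, v.ord_mul hu0 (inv_ne_zero hs0), v.ord_inv, hord v hv, hG]
    ring)
  have : u = algebraMap K F c * s := by
    rw [← hc]; field_simp
  rw [this]
  exact mul_mem (IntermediateField.algebraMap_mem _ c) hs

end Fermat.Agent.S18.RRl.GZ

namespace Fermat.Agent.S18.RRl

open Fermat.Agent.S18.RPrime

variable {K F : Type*} [Field K] [Field F] [Algebra K F]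

/-- a function with a pole is transcendental over the constants -/
theorem transcendental_of_ord_neg (v : Place K F) {t : F} (ht : v.ord t < 0) :
    Transcendental K t := by
  intro halg
  have hint : IsIntegral K t := halg.isIntegral
  have h2 : IsIntegral v.toValuationSubring t := hint.tower_top
  obtain ⟨y, hy⟩ := IsIntegrallyClosed.isIntegral_iff.mp h2
  have h3 := Fermat.Agent.FF.H6.ord_nonneg_of_mem v (f := t) (hy ▸ y.2)
  omega

/-- **genus `0` ⇒ rational** (any characteristic): for every place `P` there is `t` with a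
simple pole at `P`, no other pole, and `F = K(t)`. -/
theorem exists_gen_of_genus_zero (h : CurveRR K F 0) (P : Place K F) :
    ∃ t : F, Transcendental K t ∧ P.ord t = -1 ∧ (∀ Q : Place K F, Q ≠ P → 0 ≤ Q.ord t) ∧
      K⟮t⟯ = ⊤ := by
  obtain ⟨t, ht0, htP, ht⟩ := GZ.exists_simple_pole h P
  exact ⟨t, transcendental_of_ord_neg P (by omega), htP, ht, GZ.adjoin_eq_top h ht0 htP ht⟩

end Fermat.Agent.S18.RRl
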