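/-
S18 swarm, piece 87-P1-C (lead), part 2: trace integrality, pure algebra.

`R` a Dedekind domain, `S` an integrally closed domain, finite and torsion free over `R`,
`p` a maximal ideal of `R`.  If `g ∈ S` lies in every prime of `S` containing `p S`, then the
integral trace of `g` lies in `p`.
-/
import Mathlib

set_option autoImplicit false

noncomputable section

namespace Fermat.Agent.S18.RRl

variable {R S : Type*} [CommRing R] [CommRing S] [Algebra R S]

/-- the trace of a nilpotent element of a finite algebra over a field is zero. -/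
theorem algebra_trace_eq_zero_of_isNilpotent {k B : Type*} [Field k] [CommRing B] [Algebra k B]
    [Module.Finite k B] {b : B} (hb : IsNilpotent b) : Algebra.trace k B b = 0 := by
  rw [Algebra.trace_apply]
  apply IsNilpotent.eq_zero
  apply LinearMap.isNilpotent_trace_of_isNilpotent
  obtain ⟨n, hn⟩ := hb
  refine ⟨n, ?_⟩
  rw [← map_pow, hn, map_zero]

/-- **trace integrality, nilpotent form**. -/
theorem intTrace_mem_of_isNilpotent [IsDedekindDomain R] [IsDomain S]
    [Module.IsTorsionFree R S] [Module.Finite R S] [IsIntegrallyClosed S]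
    (p : Ideal R) [hp : p.IsMaximal] (g : S)
    (hg : IsNilpotent (Ideal.Quotient.mk (p.map (algebraMap R S)) g)) :
    Algebra.intTrace R S g ∈ p := by
  letI : Field (R ⧸ p) := Ideal.Quotient.field p
  have h1 := Algebra.trace_quotient_eq_of_isDedekindDomain S p g
  have h2 : Algebra.trace (R ⧸ p) (S ⧸ p.map (algebraMap R S))
      (Ideal.Quotient.mk (p.map (algebraMap R S)) g) = 0 :=
    algebra_trace_eq_zero_of_isNilpotent hg
  rw [h1] at h2
  exact Ideal.Quotient.eq_zero_iff_mem.1 h2

/-- **trace integrality, prime form**: `g` in every prime of `S` containing `p S`. -/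
theorem intTrace_mem_of_forall_mem_prime [IsDedekindDomain R] [IsDomain S]
    [Module.IsTorsionFree R S] [Module.Finite R S] [IsIntegrallyClosed S]
    (p : Ideal R) [hp : p.IsMaximal] (g : S)
    (hg : ∀ P : Ideal S, P.IsPrime → p.map (algebraMap R S) ≤ P → g ∈ P) :
    Algebra.intTrace R S g ∈ p := by
  apply intTrace_mem_of_isNilpotent p g
  have hrad : g ∈ (p.map (algebraMap R S)).radical := by
    rw [Ideal.radical_eq_sInf, Ideal.mem_sInf]
    rintro P ⟨hP1, hP2⟩
    exact hg P hP2 hP1
  obtain ⟨n, hn⟩ := hrad
  refine ⟨n, ?_⟩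
  rw [← map_pow]
  exact Ideal.Quotient.eq_zero_iff_mem.2 hn

end Fermat.Agent.S18.RRl
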